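import Mathlib

/-!
# S10 glue: Fermat's Last Theorem for an odd prime exponent from Case I and Case II

Generic (in the odd prime `p`) version of Mathlib's
`fermatLastTheoremThree_of_three_dvd_only_c`.
-/

set_option autoImplicit false

namespace Fermat.Agent.S10

section glue

variable {p : ℕ}

lemma glue_dvd_b_of_dvd_a {a b c : ℤ} (hp : p.Prime) (hodd : p ≠ 2) (ha : a ≠ 0)
    (Hgcd : Finset.gcd {a, b, c} id = 1) (hpa : (p : ℤ) ∣ a)
    (HF : a ^ p + b ^ p + c ^ p = 0)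
    (H : ∀ a b c : ℤ, c ≠ 0 → ¬ (p : ℤ) ∣ a → ¬ (p : ℤ) ∣ b → (p : ℤ) ∣ c → IsCoprime a b →
      a ^ p + b ^ p ≠ c ^ p) :
    (p : ℤ) ∣ b := by
  have hpodd : Odd p := hp.odd_of_ne_two hodd
  have hpZ : Prime (p : ℤ) := Nat.prime_iff_prime_int.mp hp
  have hbc : IsCoprime (-b) (-c) := by
    refine IsCoprime.neg_neg ?_
    rw [add_comm (a ^ p), add_assoc, add_comm (a ^ p), ← add_assoc] at HF
    refine isCoprime_of_gcd_eq_one_of_FLT ?_ HF
    convert Hgcd using 2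
    rw [Finset.pair_comm, Finset.insert_comm]
  by_contra! hpb
  by_cases hpc : (p : ℤ) ∣ c
  · apply hpb
    rw [add_assoc, add_comm (b ^ p), ← add_assoc] at HF
    exact dvd_c_of_prime_of_dvd_a_of_dvd_b_of_FLT hpZ hpa hpc HF
  · refine H (-b) (-c) a ha (by simpa using hpb) (by simpa using hpc) hpa hbc ?_
    rw [hpodd.neg_pow, hpodd.neg_pow]
    linear_combination -HF

lemma glue_of_dvd_a {a b c : ℤ} (hp : p.Prime) (hodd : p ≠ 2) (ha : a ≠ 0)
    (hpa : (p : ℤ) ∣ a) (Hgcd : Finset.gcd {a, b, c} id = 1)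
    (H : ∀ a b c : ℤ, c ≠ 0 → ¬ (p : ℤ) ∣ a → ¬ (p : ℤ) ∣ b → (p : ℤ) ∣ c → IsCoprime a b →
      a ^ p + b ^ p ≠ c ^ p) :
    a ^ p + b ^ p + c ^ p ≠ 0 := by
  intro HF
  have hpZ : Prime (p : ℤ) := Nat.prime_iff_prime_int.mp hp
  apply hpZ.not_dvd_one
  rw [← Hgcd]
  refine Finset.dvd_gcd (fun x hx ↦ ?_)
  simp only [Finset.mem_insert, Finset.mem_singleton] at hx
  have hpb : (p : ℤ) ∣ b := glue_dvd_b_of_dvd_a hp hodd ha Hgcd hpa HF H
  rcases hx with hx | hx | hx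
  · exact hx ▸ hpa
  · exact hx ▸ hpb
  · simpa [hx] using dvd_c_of_prime_of_dvd_a_of_dvd_b_of_FLT hpZ hpa hpb HF

/-- To prove Fermat's Last Theorem for an odd prime `p` it is enough to prove Case I
(coprime solutions have `p ∣ a * b * c`) and Case II in the normalised form (`p ∣ c`, `p ∤ a`,
`p ∤ b`, `a`, `b` coprime). -/
theorem flt_of_caseI_caseII (hp : p.Prime) (hodd : p ≠ 2)
    (h1 : ∀ a b c : ℤ, IsCoprime a b → a ^ p + b ^ p = c ^ p → (p : ℤ) ∣ a * b * c)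
    (h2 : ∀ a b c : ℤ, c ≠ 0 → ¬ (p : ℤ) ∣ a → ¬ (p : ℤ) ∣ b → (p : ℤ) ∣ c → IsCoprime a b →
      a ^ p + b ^ p ≠ c ^ p) :
    FermatLastTheoremFor p := by
  have hpodd : Odd p := hp.odd_of_ne_two hodd
  have hpZ : Prime (p : ℤ) := Nat.prime_iff_prime_int.mp hp
  rw [fermatLastTheoremFor_iff_int]
  refine fermatLastTheoremWith_of_fermatLastTheoremWith_coprime (fun a b c ha hb hc Hgcd hF ↦ ?_)
  have hF0 := hF
  rw [← sub_eq_zero, sub_eq_add_neg, ← hpodd.neg_pow] at hF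
  have Hgcd' : Finset.gcd {a, b, -c} id = 1 := by
    simp only [← Hgcd, Finset.gcd_insert, Finset.gcd_singleton, id_eq, ← Int.abs_eq_normalize,
      abs_neg]
  have hab : IsCoprime a b := isCoprime_of_gcd_eq_one_of_FLT Hgcd' hF
  have hdvd : (p : ℤ) ∣ a * b * c := h1 a b c hab hF0
  rw [hpZ.dvd_mul, hpZ.dvd_mul] at hdvd
  rcases hdvd with (hpa | hpb) | hpc
  · exact glue_of_dvd_a hp hodd ha hpa Hgcd' h2 hF
  · rw [add_comm (a ^ p)] at hF
    refine glue_of_dvd_a hp hodd hb hpb ?_ h2 hF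
    simp only [← Hgcd, Finset.insert_comm, Finset.gcd_insert, Finset.gcd_singleton, id_eq,
      ← Int.abs_eq_normalize, abs_neg]
  · rw [add_comm _ ((-c) ^ p), ← add_assoc] at hF
    refine glue_of_dvd_a hp hodd (neg_ne_zero.2 hc) (by simpa using hpc) ?_ h2 hF
    rw [Finset.insert_comm (-c), Finset.pair_comm (-c) b]
    simp only [← Hgcd, Finset.gcd_insert, Finset.gcd_singleton, id_eq, ← Int.abs_eq_normalize,
      abs_neg]

end glue

end Fermat.Agent.S10
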