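import Mathlib
import Fermat.Agent.S10.Glue
import Fermat.Agent.S10.X11.CaseII

/-!
# S10: Fermat's Last Theorem for an odd prime `p` from Case I, the PID property of `ℤ[ζ_p]`
and Kummer's lemma.
-/

set_option autoImplicit false

namespace Fermat.Agent.S10

open NumberField

/-- Fermat's Last Theorem for the odd prime `p`, from Case I, the PID property of the ring of
integers of a `p`-th cyclotomic field `K`, and Kummer's lemma for `K`. -/
theorem flt_of_kummer (p : ℕ) [hp : Fact p.Prime] (hp2 : p ≠ 2)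
    (hcaseI : ∀ a b c : ℤ, IsCoprime a b → a ^ p + b ^ p = c ^ p → (p : ℤ) ∣ a * b * c)
    (K : Type*) [Field K] [NumberField K] [IsCyclotomicExtension {p} ℚ K]
    (hpid : IsPrincipalIdealRing (𝓞 K))
    (hkummer : ∀ u : (𝓞 K)ˣ, (∃ m : ℤ, (p : 𝓞 K) ∣ (u : 𝓞 K) - (m : 𝓞 K)) →
      ∃ v : (𝓞 K)ˣ, u = v ^ p) :
    FermatLastTheoremFor p :=
  flt_of_caseI_caseII hp.out hp2 hcaseI
    (fun _ _ _ hc ha hb hpc hab ↦
      X11.CaseII.caseII_int (K := K) hp2 hkummer hc ha hb hpc hab)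

end Fermat.Agent.S10
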