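import Fermat.Statements.S10
import Fermat.Agent.S10.Glue

set_option autoImplicit false
open WeierstrassCurve WeierstrassCurve.Affine WeierstrassCurve.Affine.Point
open CuspForm ModularFormClass UpperHalfPlane
open FreyPackage

namespace Fermat.Agent.S10

/-- A Frey package with exponent `p` contradicts Fermat's Last Theorem for exponent `p`. -/
theorem freyPackage_false_of_flt (P : FreyPackage) (h : FermatLastTheoremFor P.p) : False :=
  (fermatLastTheoremFor_iff_int.mp h) P.a P.b P.c P.ha0 P.hb0 P.hc0 P.hFLT

/-- S10 from Fermat's Last Theorem for the exponents 5, 7, 13. -/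
theorem result_of_flt (h5 : FermatLastTheoremFor 5) (h7 : FermatLastTheoremFor 7)
    (h13 : FermatLastTheoremFor 13) (P : FreyPackage) (hp : P.p = 5 ∨ P.p = 7 ∨ P.p = 13) :
    ¬ HasGaloisStableCofixedLine (K := AlgebraicClosure ℚ) ℚ P.freyCurve P.p := by
  intro _
  rcases hp with hp | hp | hp
  · exact freyPackage_false_of_flt P (hp ▸ h5)
  · exact freyPackage_false_of_flt P (hp ▸ h7)
  · exact freyPackage_false_of_flt P (hp ▸ h13)

end Fermat.Agent.S10
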