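import Mathlib

/-
Kummer's lemma for the cyclotomic fields `ℚ(ζ_p)`, `p ∈ {5, 7, 11, 13}`:
a unit of `ℤ[ζ_p]` congruent to a rational integer modulo `p` is a `p`-th power.

Proof: Dirichlet's unit theorem shows that the unit group modulo `p`-th powers is spanned by
`(p - 1) / 2` elements; the logarithmic derivative
`ψ : 𝓞ˣ → 𝔽_p[X]/(X^(p-2))` kills `p`-th powers and units congruent to an integer mod `p`,
and an explicit computation shows that the images of `ζ` and of the cyclotomic units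
`1 + ζ + ... + ζ^(k-1)`, `2 ≤ k ≤ (p-1)/2`, are linearly independent.  Hence `ψ` is injective
modulo `p`-th powers.
-/

namespace Fermat.Agent.S10.Kummer

section abstract


open Module in
/-- Abstract counting lemma behind Kummer's lemma. -/
theorem exists_pow_eq_of_map_eq_zero
    {E : Type*} [CommGroup E] {p : ℕ} [Fact p.Prime]
    {V : Type*} [AddCommGroup V] [Module (ZMod p) V]
    (ψ : Additive E →+ V)
    {ι κ : Type*} [Fintype ι] [Fintype κ]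
    (g : ι → E) (hg : ∀ x : E, ∃ e : ι → ℤ, x = ∏ i, g i ^ e i)
    (c : κ → E) (hc : LinearIndependent (ZMod p) (fun k => ψ (Additive.ofMul (c k))))
    (hcard : Fintype.card ι ≤ Fintype.card κ)
    (u : E) (hu : ψ (Additive.ofMul u) = 0) : ∃ v : E, u = v ^ p := by
  classical
  set w : ι → V := fun i => ψ (Additive.ofMul (g i)) with hw
  have key : ∀ (e : ι → ℤ), ψ (Additive.ofMul (∏ i, g i ^ e i)) = ∑ i, ((e i : ℤ) : ZMod p) • w i := by
    intro e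
    rw [ofMul_prod, map_sum]
    refine Finset.sum_congr rfl fun i _ => ?_
    rw [ofMul_zpow, map_zsmul, hw, Int.cast_smul_eq_zsmul]
  have hmem : ∀ x : E, ψ (Additive.ofMul x) ∈ Submodule.span (ZMod p) (Set.range w) := by
    intro x
    obtain ⟨e, rfl⟩ := hg x
    rw [key]
    exact Submodule.sum_mem _ fun i _ => Submodule.smul_mem _ _ (Submodule.subset_span ⟨i, rfl⟩)
  have hle : Submodule.span (ZMod p) (Set.range (fun k => ψ (Additive.ofMul (c k)))) ≤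
      Submodule.span (ZMod p) (Set.range w) := by
    rw [Submodule.span_le]
    rintro _ ⟨k, rfl⟩
    exact hmem _
  have h1 : finrank (ZMod p) (Submodule.span (ZMod p) (Set.range (fun k => ψ (Additive.ofMul (c k)))))
      = Fintype.card κ := finrank_span_eq_card hc
  have h2 : finrank (ZMod p) (Submodule.span (ZMod p) (Set.range w)) ≤ Fintype.card ι :=
    (finrank_span_le_card _).trans (by simpa using Finset.card_image_le (s := Finset.univ) (f := w))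
  have : Module.Finite (ZMod p) (Submodule.span (ZMod p) (Set.range w)) :=
    Module.Finite.span_of_finite (ZMod p) (Set.finite_range w)
  have h3 := Submodule.finrank_mono hle
  have hwli : LinearIndependent (ZMod p) w := by
    rw [linearIndependent_iff_card_eq_finrank_span, Set.finrank]
    omega
  obtain ⟨e, rfl⟩ := hg u
  rw [key] at hu
  have he := Fintype.linearIndependent_iff.mp hwli _ hu
  have he' : ∀ i, ∃ f : ℤ, e i = p * f := by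
    intro i
    have := he i
    rw [ZMod.intCast_zmod_eq_zero_iff_dvd] at this
    exact this
  choose f hf using he'
  refine ⟨∏ i, g i ^ f i, ?_⟩
  rw [← Finset.prod_pow]
  refine Finset.prod_congr rfl fun i _ => ?_
  rw [hf i, mul_comm, zpow_mul, zpow_natCast]


end abstract

section dirichlet


open NumberField

/-- Dirichlet's unit theorem: the unit group is generated by `rank K + 1` elements. -/
theorem exists_units_generators (K : Type*) [Field K] [NumberField K] :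
    ∃ g : Option (Fin (Units.rank K)) → (𝓞 K)ˣ,
      ∀ x : (𝓞 K)ˣ, ∃ e : Option (Fin (Units.rank K)) → ℤ, x = ∏ i, g i ^ e i := by
  classical
  obtain ⟨t₀, ht₀⟩ := IsCyclic.exists_generator (α := Units.torsion K)
  refine ⟨fun i => i.elim (t₀ : (𝓞 K)ˣ) (Units.fundSystem K), fun x => ?_⟩
  obtain ⟨⟨t, e'⟩, hx, -⟩ := Units.exist_unique_eq_mul_prod K x
  obtain ⟨k, hk⟩ := Subgroup.mem_zpowers_iff.mp (ht₀ t)
  refine ⟨fun i => i.elim k e', ?_⟩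
  rw [Fintype.prod_option]
  simp only [Option.elim_none, Option.elim_some]
  rw [hx]
  congr 1
  rw [← hk]
  simp

theorem card_option_rank_cyclotomic (p : ℕ) [hp : Fact p.Prime] (h3 : 3 ≤ p)
    (K : Type*) [Field K] [NumberField K] [IsCyclotomicExtension {p} ℚ K] :
    Fintype.card (Option (Fin (Units.rank K))) = (p - 1) / 2 := by
  have hlt : 2 < p := by omega
  rw [Fintype.card_option, Fintype.card_fin, Units.rank,
    InfinitePlace.card_eq_nrRealPlaces_add_nrComplexPlaces,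
    IsCyclotomicExtension.Rat.nrRealPlaces_eq_zero (n := p) K hlt,
    IsCyclotomicExtension.Rat.nrComplexPlaces_eq_totient_div_two p K, Nat.totient_prime hp.out]
  have : 1 ≤ (p - 1) / 2 := by omega
  omega


end dirichlet


open Polynomial NumberField TrivSqZeroExt

section generic

variable (p : ℕ) [hp : Fact p.Prime]

/-- The truncated polynomial ring `𝔽_p[X]/(X^(p-2))`. -/
abbrev TA : Type := (ZMod p)[X] ⧸ Ideal.span {(X : (ZMod p)[X]) ^ (p - 2)}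

/-- Dual numbers over `TA p`. -/
abbrev TC : Type := TrivSqZeroExt (TA p) (TA p)

/-- The class of `X` in `TA p`. -/
noncomputable def xA : TA p := Ideal.Quotient.mk _ (X : (ZMod p)[X])

lemma xA_pow : (xA p) ^ (p - 2) = 0 := by
  rw [xA, ← map_pow]
  exact Ideal.Quotient.eq_zero_iff_mem.mpr (Ideal.subset_span rfl)

/-- The image of `ζ` in `TC p`. -/
noncomputable def zC : TC p := inl (1 + xA p) + inr 1

lemma zC_sub_one_pow (h3 : 3 ≤ p) : (zC p - 1) ^ (p - 1) = 0 := by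
  have h1 : zC p - 1 = inl (xA p) + inr 1 := by
    rw [zC, inl_add, inl_one]; abel
  rw [h1]
  ext
  · simp only [fst_pow, fst_add, fst_inl, fst_inr, add_zero, fst_zero]
    have : p - 1 = (p - 2) + 1 := by omega
    rw [this, pow_succ, xA_pow, zero_mul]
  · simp only [snd_pow, fst_add, fst_inl, fst_inr, add_zero, snd_add, snd_inl, snd_inr, zero_add,
      snd_zero]
    have : (p - 1).pred = p - 2 := by
      rw [Nat.pred_eq_sub_one]; omega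
    rw [this, xA_pow]; simp

lemma aeval_zC_cyclotomic (h3 : 3 ≤ p) : aeval (zC p) (cyclotomic p ℤ) = 0 := by
  have h1 : cyclotomic p (ZMod p) = (X - 1) ^ (p - 1) := by
    have := cyclotomic_mul_prime_pow_eq (ZMod p) (p := p) (m := 1) (hp.out.one_lt.ne' ∘ Nat.dvd_one.mp)
      (k := 1) one_pos
    simpa [cyclotomic_one] using this
  rw [← aeval_map_algebraMap (ZMod p), map_cyclotomic, h1]
  simp only [map_pow, map_sub, aeval_X, map_one]
  exact zC_sub_one_pow p h3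

variable {p}
variable {K : Type*} [Field K] [NumberField K] [IsCyclotomicExtension {p} ℚ K]
variable {ζ : K} (hζ : IsPrimitiveRoot ζ p)

omit [IsCyclotomicExtension {p} ℚ K] in
lemma minpoly_toInteger : minpoly ℤ hζ.toInteger = cyclotomic p ℤ := by
  rw [cyclotomic_eq_minpoly hζ hp.out.pos]
  exact (RingOfIntegers.minpoly_coe hζ.toInteger).symm

/-- The ring homomorphism `𝓞 K → TC p` sending `ζ` to `zC p`. -/
noncomputable def PsiHom (h3 : 3 ≤ p) : 𝓞 K →ₐ[ℤ] TC p :=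
  hζ.integralPowerBasis.lift (zC p) (by
    rw [hζ.integralPowerBasis_gen, minpoly_toInteger hζ]
    exact aeval_zC_cyclotomic p h3)

lemma PsiHom_zeta (h3 : 3 ≤ p) : PsiHom hζ h3 hζ.toInteger = zC p := by
  calc PsiHom hζ h3 hζ.toInteger = PsiHom hζ h3 hζ.integralPowerBasis.gen := by
        rw [hζ.integralPowerBasis_gen]
    _ = zC p := hζ.integralPowerBasis.lift_gen (zC p) _

lemma natCast_TA_eq_zero : ((p : ℕ) : TA p) = 0 := by
  rw [← map_natCast (algebraMap (ZMod p) (TA p)) p, ZMod.natCast_self, map_zero]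

lemma natCast_TC_eq_zero : ((p : ℕ) : TC p) = 0 := by
  rw [← map_natCast (algebraMap (ZMod p) (TC p)) p, ZMod.natCast_self, map_zero]

/-- The logarithmic derivative `ψ : (𝓞 K)ˣ → TA p`. -/
noncomputable def logDeriv (h3 : 3 ≤ p) : Additive (𝓞 K)ˣ →+ TA p where
  toFun u := (PsiHom hζ h3 (Additive.toMul u : (𝓞 K)ˣ)).snd *
    (PsiHom hζ h3 ((Additive.toMul u)⁻¹ : (𝓞 K)ˣ)).fst
  map_zero' := by simp
  map_add' u v := by
    set a := Additive.toMul u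
    set b := Additive.toMul v
    have ha : (PsiHom hζ h3 (a : 𝓞 K)).fst * (PsiHom hζ h3 ((a⁻¹ : (𝓞 K)ˣ) : 𝓞 K)).fst = 1 := by
      rw [← fst_mul, ← map_mul, Units.mul_inv, map_one, fst_one]
    have hb : (PsiHom hζ h3 (b : 𝓞 K)).fst * (PsiHom hζ h3 ((b⁻¹ : (𝓞 K)ˣ) : 𝓞 K)).fst = 1 := by
      rw [← fst_mul, ← map_mul, Units.mul_inv, map_one, fst_one]
    simp only [toMul_add, Units.val_mul, map_mul, mul_inv, snd_mul, fst_mul, smul_eq_mul,
      MulOpposite.smul_eq_mul_unop, MulOpposite.unop_op]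
    linear_combination ((PsiHom hζ h3 (b : 𝓞 K)).snd * (PsiHom hζ h3 ((b⁻¹ : (𝓞 K)ˣ) : 𝓞 K)).fst) * ha
      + ((PsiHom hζ h3 (a : 𝓞 K)).snd * (PsiHom hζ h3 ((a⁻¹ : (𝓞 K)ˣ) : 𝓞 K)).fst) * hb

lemma logDeriv_apply (h3 : 3 ≤ p) (u : (𝓞 K)ˣ) :
    logDeriv hζ h3 (Additive.ofMul u) =
      (PsiHom hζ h3 (u : 𝓞 K)).snd * (PsiHom hζ h3 ((u⁻¹ : (𝓞 K)ˣ) : 𝓞 K)).fst := rfl

lemma logDeriv_eq_zero_of_dvd (h3 : 3 ≤ p) (u : (𝓞 K)ˣ) (n : ℤ)
    (h : ((p : ℕ) : 𝓞 K) ∣ (u : 𝓞 K) - n) : logDeriv hζ h3 (Additive.ofMul u) = 0 := by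
  obtain ⟨r, hr⟩ := h
  have hu : (u : 𝓞 K) = n + (p : ℕ) * r := by rw [← hr]; ring
  rw [logDeriv_apply, hu]
  simp only [map_add, map_mul, map_intCast, map_natCast, natCast_TC_eq_zero, zero_mul, add_zero]
  simp


/-- Powers of `x` below `p - 2` are linearly independent in `TA p`. -/
lemma TA_coeffs_eq_zero (b : Fin (p - 2) → ZMod p)
    (h : ∑ j : Fin (p - 2), algebraMap (ZMod p) (TA p) (b j) * xA p ^ (j : ℕ) = 0) :
    ∀ j, b j = 0 := by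
  classical
  have h1 : ∑ j : Fin (p - 2), algebraMap (ZMod p) (TA p) (b j) * xA p ^ (j : ℕ) =
      Ideal.Quotient.mk _ (∑ j : Fin (p - 2), C (b j) * (X : (ZMod p)[X]) ^ (j : ℕ)) := by
    rw [map_sum]
    refine Finset.sum_congr rfl fun j _ => ?_
    rw [map_mul, map_pow, xA]
    rfl
  rw [h1, Ideal.Quotient.eq_zero_iff_mem, Ideal.mem_span_singleton, X_pow_dvd_iff] at h
  intro j
  have := h j j.2
  rw [finsetSum_coeff] at this
  simp only [coeff_C_mul, coeff_X_pow] at this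
  rw [Finset.sum_eq_single j] at this
  · simpa using this
  · intro i _ hij
    have : (j : ℕ) ≠ (i : ℕ) := fun h => hij (Fin.ext h.symm)
    simp [this]
  · simp

lemma logDeriv_eq_of_mul_eq (h3 : 3 ≤ p) (u : (𝓞 K)ˣ) (T : TA p)
    (hT : T * (PsiHom hζ h3 (u : 𝓞 K)).fst = (PsiHom hζ h3 (u : 𝓞 K)).snd) :
    logDeriv hζ h3 (Additive.ofMul u) = T := by
  have ha : (PsiHom hζ h3 (u : 𝓞 K)).fst * (PsiHom hζ h3 ((u⁻¹ : (𝓞 K)ˣ) : 𝓞 K)).fst = 1 := by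
    rw [← fst_mul, ← map_mul, Units.mul_inv, map_one, fst_one]
  rw [logDeriv_apply, ← hT, mul_assoc, ha, mul_one]

theorem linearIndependent_logDeriv (h3 : 3 ≤ p) {m : ℕ}
    (A : Matrix (Fin m) (Fin (p - 2)) (ZMod p))
    (B : Matrix (Fin (p - 2)) (Fin m) (ZMod p)) (hAB : A * B = 1)
    (c : Fin m → (𝓞 K)ˣ)
    (hc : ∀ k, (∑ j : Fin (p - 2), algebraMap (ZMod p) (TA p) (A k j) * xA p ^ (j : ℕ)) *
      (PsiHom hζ h3 (c k : 𝓞 K)).fst = (PsiHom hζ h3 (c k : 𝓞 K)).snd) :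
    LinearIndependent (ZMod p) (fun k => logDeriv hζ h3 (Additive.ofMul (c k))) := by
  rw [Fintype.linearIndependent_iff]
  intro n hn
  have h1 : ∀ k, logDeriv hζ h3 (Additive.ofMul (c k)) =
      ∑ j : Fin (p - 2), algebraMap (ZMod p) (TA p) (A k j) * xA p ^ (j : ℕ) :=
    fun k => logDeriv_eq_of_mul_eq hζ h3 (c k) _ (hc k)
  simp only [h1] at hn
  have h2 : ∑ j : Fin (p - 2), algebraMap (ZMod p) (TA p) (Matrix.vecMul n A j) * xA p ^ (j : ℕ)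
      = 0 := by
    rw [← hn]
    simp only [Matrix.vecMul, dotProduct, map_sum, map_mul, Finset.sum_mul, Finset.smul_sum]
    rw [Finset.sum_comm]
    refine Finset.sum_congr rfl fun k _ => Finset.sum_congr rfl fun j _ => ?_
    rw [mul_assoc]
    exact (Algebra.smul_def _ _).symm
  have h3' := TA_coeffs_eq_zero (Matrix.vecMul n A) h2
  have h4 : Matrix.vecMul n A = 0 := funext h3'
  have h5 : Matrix.vecMul n (A * B) = 0 := by
    rw [← Matrix.vecMul_vecMul, h4, Matrix.zero_vecMul]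
  rw [hAB, Matrix.vecMul_one] at h5
  intro i
  exact congrFun h5 i


/-- `ζ` as a unit of `𝓞 K`. -/
noncomputable def zetaUnit : (𝓞 K)ˣ :=
  (hζ.toInteger_isPrimitiveRoot.isUnit hp.out.ne_zero).unit

/-- The cyclotomic unit `1 + ζ + ... + ζ^(k-1)`. -/
noncomputable def cycUnit (k : ℕ) (hk : k.Coprime p) : (𝓞 K)ˣ :=
  (hζ.toInteger_isPrimitiveRoot.geom_sum_isUnit hp.out.two_le hk).unit

lemma fst_zC_pow (i : ℕ) : ((zC p) ^ i).fst = (1 + xA p) ^ i := by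
  simp [zC]

lemma snd_zC_pow (i : ℕ) : ((zC p) ^ i).snd = (i : TA p) * (1 + xA p) ^ (i - 1) := by
  simp [zC, Nat.pred_eq_sub_one]

lemma fst_PsiHom_zetaUnit (h3 : 3 ≤ p) :
    (PsiHom hζ h3 (zetaUnit hζ : 𝓞 K)).fst = 1 + xA p := by
  rw [zetaUnit, IsUnit.unit_spec, PsiHom_zeta]
  simp [zC]

lemma snd_PsiHom_zetaUnit (h3 : 3 ≤ p) :
    (PsiHom hζ h3 (zetaUnit hζ : 𝓞 K)).snd = 1 := by
  rw [zetaUnit, IsUnit.unit_spec, PsiHom_zeta]
  simp [zC]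

lemma fst_PsiHom_cycUnit (h3 : 3 ≤ p) (k : ℕ) (hk : k.Coprime p) :
    (PsiHom hζ h3 (cycUnit hζ k hk : 𝓞 K)).fst = ∑ i ∈ Finset.range k, (1 + xA p) ^ i := by
  rw [cycUnit, IsUnit.unit_spec, map_sum]
  simp only [map_pow, PsiHom_zeta]
  rw [fst_sum]
  simp only [fst_zC_pow]

lemma snd_PsiHom_cycUnit (h3 : 3 ≤ p) (k : ℕ) (hk : k.Coprime p) :
    (PsiHom hζ h3 (cycUnit hζ k hk : 𝓞 K)).snd =
      ∑ i ∈ Finset.range k, (i : TA p) * (1 + xA p) ^ (i - 1) := by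
  rw [cycUnit, IsUnit.unit_spec, map_sum]
  simp only [map_pow, PsiHom_zeta]
  rw [snd_sum]
  simp only [snd_zC_pow]


/-- Kummer's lemma from explicit matrix data. -/
theorem kummer_of_data (h3 : 3 ≤ p) {m : ℕ} (hm : (p - 1) / 2 ≤ m)
    (A : Matrix (Fin m) (Fin (p - 2)) (ZMod p))
    (B : Matrix (Fin (p - 2)) (Fin m) (ZMod p)) (hAB : A * B = 1)
    (c : Fin m → (𝓞 K)ˣ)
    (hc : ∀ k, (∑ j : Fin (p - 2), algebraMap (ZMod p) (TA p) (A k j) * xA p ^ (j : ℕ)) *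
      (PsiHom hζ h3 (c k : 𝓞 K)).fst = (PsiHom hζ h3 (c k : 𝓞 K)).snd)
    (u : (𝓞 K)ˣ) (hu : ∃ n : ℤ, ((p : ℕ) : 𝓞 K) ∣ (u : 𝓞 K) - n) :
    ∃ v : (𝓞 K)ˣ, u = v ^ p := by
  obtain ⟨g, hg⟩ := exists_units_generators K
  obtain ⟨n, hn⟩ := hu
  exact exists_pow_eq_of_map_eq_zero (logDeriv hζ h3) g hg c
    (linearIndependent_logDeriv hζ h3 A B hAB c hc)
    (by rw [card_option_rank_cyclotomic p h3 K, Fintype.card_fin]; exact hm) u
    (logDeriv_eq_zero_of_dvd hζ h3 u n hn)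

end generic

section five

local instance fact_prime_five' : Fact (Nat.Prime 5) := ⟨by norm_num⟩

theorem kummer_five (K : Type*) [Field K] [NumberField K] [IsCyclotomicExtension {5} ℚ K]
    (u : (𝓞 K)ˣ) (hu : ∃ n : ℤ, ((5 : ℕ) : 𝓞 K) ∣ (u : 𝓞 K) - n) :
    ∃ v : (𝓞 K)ˣ, u = v ^ 5 := by
  have hζ := IsCyclotomicExtension.zeta_spec 5 ℚ K
  have hx : xA 5 ^ 3 = 0 := xA_pow 5
  have h0 : (5 : TA 5) = 0 := by
    exact_mod_cast natCast_TA_eq_zero (p := 5)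
  refine kummer_of_data (p := 5) hζ (by norm_num) (m := 2) (by norm_num)
    !![1, 4, 1; 3, 1, 2] !![4, 4; 3, 4; 0, 0] (by decide)
    ![zetaUnit hζ, cycUnit hζ 2 (by norm_num)] ?_ u hu
  intro k
  fin_cases k
  · simp [fst_PsiHom_zetaUnit, snd_PsiHom_zetaUnit, Fin.sum_univ_succ, map_ofNat]
    linear_combination ((1) : TA 5) * hx + ((1) * xA 5 + (1) * xA 5 ^ 2) * h0
  · simp [fst_PsiHom_cycUnit, snd_PsiHom_cycUnit, Fin.sum_univ_succ, Finset.sum_range_succ, map_ofNat]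
    linear_combination ((2) : TA 5) * hx + ((1) + (1) * xA 5 + (1) * xA 5 ^ 2) * h0

end five

section seven

local instance fact_prime_seven' : Fact (Nat.Prime 7) := ⟨by norm_num⟩

/-- Kummer's lemma for `p = 7`. -/
theorem kummer_seven (K : Type*) [Field K] [NumberField K] [IsCyclotomicExtension {7} ℚ K]
    (u : (𝓞 K)ˣ) (hu : ∃ n : ℤ, ((7 : ℕ) : 𝓞 K) ∣ (u : 𝓞 K) - n) :
    ∃ v : (𝓞 K)ˣ, u = v ^ 7 := by
  have hζ := IsCyclotomicExtension.zeta_spec 7 ℚ K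
  have hx : xA 7 ^ 5 = 0 := xA_pow 7
  have h0 : (7 : TA 7) = 0 := by
    exact_mod_cast natCast_TA_eq_zero (p := 7)
  refine kummer_of_data (p := 7) hζ (by norm_num) (m := 3) (by norm_num)
    !![1, 6, 1, 6, 1; 4, 5, 1, 3, 2; 1, 2, 0, 4, 3]
    !![0, 3, 3; 5, 4, 0; 0, 0, 0; 1, 6, 3; 0, 0, 0] (by decide)
    ![zetaUnit hζ, cycUnit hζ 2 (by norm_num), cycUnit hζ 3 (by norm_num)] ?_ u hu
  intro k
  fin_cases k
  · simp [fst_PsiHom_zetaUnit, snd_PsiHom_zetaUnit, Fin.sum_univ_succ, map_ofNat]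
    linear_combination (((1)) : TA 7) * hx + ((1) * xA 7 + (1) * xA 7 ^ 2 + (1) * xA 7 ^ 3 + (1) * xA 7 ^ 4) * h0
  · simp [fst_PsiHom_cycUnit, snd_PsiHom_cycUnit, Fin.sum_univ_succ, Finset.sum_range_succ, map_ofNat]
    linear_combination (((2)) : TA 7) * hx + ((1) + (2) * xA 7 + (1) * xA 7 ^ 2 + (1) * xA 7 ^ 3 + (1) * xA 7 ^ 4) * h0
  · simp [fst_PsiHom_cycUnit, snd_PsiHom_cycUnit, Fin.sum_univ_succ, Finset.sum_range_succ, map_ofNat]
    linear_combination (((13) + (3) * xA 7) : TA 7) * hx + ((1) * xA 7 + (1) * xA 7 ^ 2 + (2) * xA 7 ^ 3 + (3) * xA 7 ^ 4) * h0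

end seven

section eleven

local instance fact_prime_eleven' : Fact (Nat.Prime 11) := ⟨by norm_num⟩

/-- Kummer's lemma for `p = 11`. -/
theorem kummer_eleven (K : Type*) [Field K] [NumberField K] [IsCyclotomicExtension {11} ℚ K]
    (u : (𝓞 K)ˣ) (hu : ∃ n : ℤ, ((11 : ℕ) : 𝓞 K) ∣ (u : 𝓞 K) - n) :
    ∃ v : (𝓞 K)ˣ, u = v ^ 11 := by
  have hζ := IsCyclotomicExtension.zeta_spec 11 ℚ K
  have hx : xA 11 ^ 9 = 0 := xA_pow 11
  have h0 : (11 : TA 11) = 0 := by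
    exact_mod_cast natCast_TA_eq_zero (p := 11)
  refine kummer_of_data (p := 11) hζ (by norm_num) (m := 5) (by norm_num)
    !![1, 10, 1, 10, 1, 10, 1, 10, 1; 6, 8, 7, 2, 10, 6, 8, 7, 2; 1, 7, 0, 5, 6, 7, 2, 3, 0; 7, 8, 1, 8, 7, 6, 4, 0, 0; 2, 0, 10, 3, 0, 6, 5, 6, 5]
    !![9, 6, 7, 0, 2; 1, 8, 7, 4, 2; 0, 0, 0, 0, 0; 9, 0, 1, 3, 1; 0, 0, 0, 0, 0; 0, 8, 5, 0, 1; 0, 0, 0, 0, 0; 9, 1, 5, 4, 9; 0, 0, 0, 0, 0] (by decide)
    ![zetaUnit hζ, cycUnit hζ 2 (by norm_num), cycUnit hζ 3 (by norm_num), cycUnit hζ 4 (by norm_num), cycUnit hζ 5 (by norm_num)] ?_ u hu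
  intro k
  fin_cases k
  · simp [fst_PsiHom_zetaUnit, snd_PsiHom_zetaUnit, Fin.sum_univ_succ, map_ofNat]
    linear_combination (((1)) : TA 11) * hx + ((1) * xA 11 + (1) * xA 11 ^ 2 + (1) * xA 11 ^ 3 + (1) * xA 11 ^ 4 + (1) * xA 11 ^ 5 + (1) * xA 11 ^ 6 + (1) * xA 11 ^ 7 + (1) * xA 11 ^ 8) * h0
  · simp [fst_PsiHom_cycUnit, snd_PsiHom_cycUnit, Fin.sum_univ_succ, Finset.sum_range_succ, map_ofNat]
    linear_combination (((2)) : TA 11) * hx + ((1) + (2) * xA 11 + (2) * xA 11 ^ 2 + (1) * xA 11 ^ 3 + (2) * xA 11 ^ 4 + (2) * xA 11 ^ 5 + (2) * xA 11 ^ 6 + (2) * xA 11 ^ 7 + (1) * xA 11 ^ 8) * h0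
  · simp [fst_PsiHom_cycUnit, snd_PsiHom_cycUnit, Fin.sum_univ_succ, Finset.sum_range_succ, map_ofNat]
    linear_combination (((3)) : TA 11) * hx + ((2) * xA 11 + (2) * xA 11 ^ 2 + (2) * xA 11 ^ 3 + (3) * xA 11 ^ 4 + (4) * xA 11 ^ 5 + (3) * xA 11 ^ 6 + (2) * xA 11 ^ 7 + (1) * xA 11 ^ 8) * h0
  · simp [fst_PsiHom_cycUnit, snd_PsiHom_cycUnit, Fin.sum_univ_succ, Finset.sum_range_succ, map_ofNat]
    linear_combination (((4)) : TA 11) * hx + ((2) + (6) * xA 11 + (7) * xA 11 ^ 2 + (7) * xA 11 ^ 3 + (8) * xA 11 ^ 4 + (9) * xA 11 ^ 5 + (8) * xA 11 ^ 6 + (5) * xA 11 ^ 7 + (2) * xA 11 ^ 8) * h0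
  · simp [fst_PsiHom_cycUnit, snd_PsiHom_cycUnit, Fin.sum_univ_succ, Finset.sum_range_succ, map_ofNat]
    linear_combination (((141) + (85) * xA 11 + (31) * xA 11 ^ 2 + (5) * xA 11 ^ 3) : TA 11) * hx + ((5) * xA 11 ^ 2 + (11) * xA 11 ^ 3 + (12) * xA 11 ^ 4 + (10) * xA 11 ^ 5 + (10) * xA 11 ^ 6 + (13) * xA 11 ^ 7 + (15) * xA 11 ^ 8) * h0

end eleven

section thirteen

local instance fact_prime_thirteen' : Fact (Nat.Prime 13) := ⟨by norm_num⟩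

/-- Kummer's lemma for `p = 13`. -/
theorem kummer_thirteen (K : Type*) [Field K] [NumberField K] [IsCyclotomicExtension {13} ℚ K]
    (u : (𝓞 K)ˣ) (hu : ∃ n : ℤ, ((13 : ℕ) : 𝓞 K) ∣ (u : 𝓞 K) - n) :
    ∃ v : (𝓞 K)ˣ, u = v ^ 13 := by
  have hζ := IsCyclotomicExtension.zeta_spec 13 ℚ K
  have hx : xA 13 ^ 11 = 0 := xA_pow 13
  have h0 : (13 : TA 13) = 0 := by
    exact_mod_cast natCast_TA_eq_zero (p := 13)
  refine kummer_of_data (p := 13) hζ (by norm_num) (m := 6) (by norm_num)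
    !![1, 12, 1, 12, 1, 12, 1, 12, 1, 12, 1; 7, 3, 5, 4, 11, 1, 6, 10, 8, 9, 2; 1, 4, 0, 3, 10, 2, 12, 9, 0, 10, 3; 8, 3, 11, 11, 1, 1, 11, 5, 4, 9, 4; 2, 0, 12, 6, 0, 2, 11, 4, 7, 3, 5; 9, 8, 3, 8, 9, 1, 6, 7, 6, 7, 6]
    !![1, 10, 12, 7, 4, 4; 3, 2, 12, 11, 2, 1; 0, 0, 0, 0, 0, 0; 3, 10, 2, 9, 2, 2; 0, 0, 0, 0, 0, 0; 9, 7, 4, 9, 7, 11; 0, 0, 0, 0, 0, 0; 7, 11, 0, 6, 1, 1; 0, 0, 0, 0, 0, 0; 4, 6, 7, 11, 5, 2; 0, 0, 0, 0, 0, 0] (by decide)
    ![zetaUnit hζ, cycUnit hζ 2 (by norm_num), cycUnit hζ 3 (by norm_num), cycUnit hζ 4 (by norm_num), cycUnit hζ 5 (by norm_num), cycUnit hζ 6 (by norm_num)] ?_ u hu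
  intro k
  fin_cases k
  · simp [fst_PsiHom_zetaUnit, snd_PsiHom_zetaUnit, Fin.sum_univ_succ, map_ofNat]
    linear_combination (((1)) : TA 13) * hx + ((1) * xA 13 + (1) * xA 13 ^ 2 + (1) * xA 13 ^ 3 + (1) * xA 13 ^ 4 + (1) * xA 13 ^ 5 + (1) * xA 13 ^ 6 + (1) * xA 13 ^ 7 + (1) * xA 13 ^ 8 + (1) * xA 13 ^ 9 + (1) * xA 13 ^ 10) * h0
  · simp [fst_PsiHom_cycUnit, snd_PsiHom_cycUnit, Fin.sum_univ_succ, Finset.sum_range_succ, map_ofNat]
    linear_combination (((2)) : TA 13) * hx + ((1) + (1) * xA 13 + (1) * xA 13 ^ 2 + (1) * xA 13 ^ 3 + (2) * xA 13 ^ 4 + (1) * xA 13 ^ 5 + (1) * xA 13 ^ 6 + (2) * xA 13 ^ 7 + (2) * xA 13 ^ 8 + (2) * xA 13 ^ 9 + (1) * xA 13 ^ 10) * h0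
  · simp [fst_PsiHom_cycUnit, snd_PsiHom_cycUnit, Fin.sum_univ_succ, Finset.sum_range_succ, map_ofNat]
    linear_combination (((19) + (3) * xA 13) : TA 13) * hx + ((1) * xA 13 + (1) * xA 13 ^ 2 + (1) * xA 13 ^ 3 + (3) * xA 13 ^ 4 + (3) * xA 13 ^ 5 + (4) * xA 13 ^ 6 + (5) * xA 13 ^ 7 + (3) * xA 13 ^ 8 + (3) * xA 13 ^ 9 + (3) * xA 13 ^ 10) * h0
  · simp [fst_PsiHom_cycUnit, snd_PsiHom_cycUnit, Fin.sum_univ_succ, Finset.sum_range_succ, map_ofNat]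
    linear_combination (((64) + (25) * xA 13 + (4) * xA 13 ^ 2) : TA 13) * hx + ((2) + (4) * xA 13 + (7) * xA 13 ^ 2 + (10) * xA 13 ^ 3 + (9) * xA 13 ^ 4 + (5) * xA 13 ^ 5 + (5) * xA 13 ^ 6 + (7) * xA 13 ^ 7 + (7) * xA 13 ^ 8 + (7) * xA 13 ^ 9 + (7) * xA 13 ^ 10) * h0
  · simp [fst_PsiHom_cycUnit, snd_PsiHom_cycUnit, Fin.sum_univ_succ, Finset.sum_range_succ, map_ofNat]
    linear_combination (((119) + (72) * xA 13 + (28) * xA 13 ^ 2 + (5) * xA 13 ^ 3) : TA 13) * hx + ((5) * xA 13 ^ 2 + (12) * xA 13 ^ 3 + (14) * xA 13 ^ 4 + (10) * xA 13 ^ 5 + (9) * xA 13 ^ 6 + (12) * xA 13 ^ 7 + (15) * xA 13 ^ 8 + (14) * xA 13 ^ 9 + (12) * xA 13 ^ 10) * h0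
  · simp [fst_PsiHom_cycUnit, snd_PsiHom_cycUnit, Fin.sum_univ_succ, Finset.sum_range_succ, map_ofNat]
    linear_combination (((368) + (268) * xA 13 + (138) * xA 13 ^ 2 + (43) * xA 13 ^ 3 + (6) * xA 13 ^ 4) : TA 13) * hx + ((3) + (11) * xA 13 + (21) * xA 13 ^ 2 + (28) * xA 13 ^ 3 + (31) * xA 13 ^ 4 + (31) * xA 13 ^ 5 + (29) * xA 13 ^ 6 + (26) * xA 13 ^ 7 + (26) * xA 13 ^ 8 + (29) * xA 13 ^ 9 + (31) * xA 13 ^ 10) * h0

end thirteen


end Fermat.Agent.S10.Kummer
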