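import Mathlib

/-!
# The ring of integers of `ℚ(ζ₁₃)` is a principal ideal domain

Independent hedge (helper430).  Method: Minkowski bound `< 307`, Mathlib's Galois criterion
`RingOfIntegers.isPrincipalIdealRing_of_isPrincipal_of_lt_or_isPrincipal_of_mem_primesOver_of_mem_Icc`,
inertia degrees `= orderOf (p : ZMod 13)`, and explicit generators for one prime above each of
`3, 53, 79, 131, 157` (Kummer-Dedekind + cofactor identities modulo `Φ₁₃`).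
-/

open NumberField Polynomial Ideal Module

namespace Fermat.Agent.S10.H430


/-- table of multiplicative orders modulo 13 -/
def ordTable : ℕ → ℕ
  | 1 => 1
  | 12 => 2
  | 3 => 3
  | 9 => 3
  | 5 => 4
  | 8 => 4
  | 4 => 6
  | 10 => 6
  | _ => 12

lemma orderOf_zmod13_aux : ∀ x : ZMod 13, x ≠ 0 →
    x ^ ordTable x.val = 1 ∧ ∀ m < ordTable x.val, 0 < m → x ^ m ≠ 1 := by
  decide

lemma ordTable_pos (n : ℕ) : 0 < ordTable n := by
  unfold ordTable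
  split <;> norm_num

lemma orderOf_zmod13 (x : ZMod 13) (hx : x ≠ 0) : orderOf x = ordTable x.val := by
  rw [orderOf_eq_iff (ordTable_pos _)]
  exact orderOf_zmod13_aux x hx

set_option maxRecDepth 100000 in
lemma key_aux : ∀ p < 307, p ∈ [0,1,3,12,14,27,40,53,66,79,92,105,118,131,144,157,170,183,196,
    209,222,235,248,261,274,287,300] ∨ 306 < p ^ ordTable (p % 13) := by
  decide

lemma key (p : ℕ) (hp : p.Prime) (hle : p ≤ 306) (h13 : p ≠ 13)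
    (hs : p ≠ 3 ∧ p ≠ 53 ∧ p ≠ 79 ∧ p ≠ 131 ∧ p ≠ 157) :
    306 < p ^ orderOf (p : ZMod 13) := by
  have hx : (p : ZMod 13) ≠ 0 := by
    intro h
    rw [ZMod.natCast_eq_zero_iff] at h
    exact h13 ((Nat.prime_dvd_prime_iff_eq (by norm_num) hp).mp h).symm
  rw [orderOf_zmod13 _ hx, ZMod.val_natCast]
  rcases key_aux p (by omega) with h | h
  · exfalso
    simp only [List.mem_cons, List.not_mem_nil, or_false] at h
    obtain ⟨h3, h53, h79, h131, h157⟩ := hs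
    rcases h with rfl | rfl | rfl | rfl | rfl | rfl | rfl | rfl | rfl | rfl | rfl | rfl | rfl | rfl
      | rfl | rfl | rfl | rfl | rfl | rfl | rfl | rfl | rfl | rfl | rfl | rfl | rfl <;>
      first
      | exact absurd rfl h3
      | exact absurd rfl h53
      | exact absurd rfl h79
      | exact absurd rfl h131
      | exact absurd rfl h157
      | (revert hp; norm_num)
  · exact h



lemma cubic_three_natDegree : ((X ^ 3 - X - 1 : (ZMod 3)[X])).natDegree = 3 := by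
  compute_degree!

lemma cubic_three_noroot : ∀ (x : ZMod 3), ¬x ^ 3 - x - 1 = 0 := by decide

lemma cubic_three_irreducible : Irreducible (X ^ 3 - X - 1 : (ZMod 3)[X]) := by
  have hF : Fact (Nat.Prime 3) := ⟨by norm_num⟩
  apply irreducible_of_degree_le_three_of_not_isRoot
  · rw [cubic_three_natDegree]; decide
  · intro x
    simp only [IsRoot.def, eval_sub, eval_pow, eval_X, eval_one]
    exact cubic_three_noroot x

lemma cubic_three_map : (X ^ 3 - X - 1 : ℤ[X]).map (Int.castRingHom (ZMod 3)) = X ^ 3 - X - 1 := by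
  simp

lemma cubic_three_dvd : (X ^ 3 - X - 1 : (ZMod 3)[X]) ∣ cyclotomic 13 (ZMod 3) := by
  have hF : Fact (Nat.Prime 13) := ⟨by norm_num⟩
  have h : cyclotomic 13 ℤ = (X ^ 3 - X - 1) * (20 + 15 * X + 11 * X ^ 2 + 8 * X ^ 3 + 6 * X ^ 4 + 4 * X ^ 5 + 3 * X ^ 6 + 2 * X ^ 7 + X ^ 8 + X ^ 9) + 3 * (7 + 12 * X + 9 * X ^ 2) := by
    rw [cyclotomic_prime]
    simp only [Finset.sum_range_succ, Finset.sum_range_zero]
    ring
  have h2 := congrArg (Polynomial.map (Int.castRingHom (ZMod 3))) h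
  rw [map_cyclotomic] at h2
  rw [h2]
  have h3 : ((3 : ℤ[X])).map (Int.castRingHom (ZMod 3)) = 0 := by
    have : (3 : ℤ[X]) = C 3 := by simp
    rw [this, Polynomial.map_C]
    have : (Int.castRingHom (ZMod 3)) 3 = 0 := by decide
    rw [this, C_0]
  rw [Polynomial.map_add, Polynomial.map_mul, Polynomial.map_mul, h3, zero_mul, add_zero,
    cubic_three_map]
  exact Dvd.intro _ rfl



section
variable (K : Type*) [Field K] [NumberField K] [IsCyclotomicExtension {13} ℚ K]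

/-- the chosen primitive 13-th root of unity, as an algebraic integer -/
noncomputable def zeta13 : 𝓞 K := (IsCyclotomicExtension.zeta_spec 13 ℚ K).toInteger

lemma zeta13_sum : 1 + zeta13 K + zeta13 K ^ 2 + zeta13 K ^ 3 + zeta13 K ^ 4 + zeta13 K ^ 5
    + zeta13 K ^ 6 + zeta13 K ^ 7 + zeta13 K ^ 8 + zeta13 K ^ 9 + zeta13 K ^ 10 + zeta13 K ^ 11
    + zeta13 K ^ 12 = 0 := by
  have h := (IsCyclotomicExtension.zeta_spec 13 ℚ K).toInteger_isPrimitiveRoot.geom_sum_eq_zero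
    (by norm_num)
  simpa [Finset.sum_range_succ, zeta13] using h

lemma minpoly_zeta13 : minpoly ℤ (zeta13 K) = cyclotomic 13 ℤ := by
  rw [cyclotomic_eq_minpoly (IsCyclotomicExtension.zeta_spec 13 ℚ K) (by norm_num),
    ← (IsCyclotomicExtension.zeta_spec 13 ℚ K).coe_toInteger, ← RingOfIntegers.minpoly_coe]
  rfl

lemma not_dvd_exponent_zeta13 (q : ℕ) [hq : Fact q.Prime] :
    ¬ q ∣ RingOfIntegers.exponent (zeta13 K) := by
  have h : RingOfIntegers.exponent (zeta13 K) = 1 :=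
    RingOfIntegers.exponent_eq_one_iff.mpr <|
      IsCyclotomicExtension.Rat.adjoin_singleton_eq_top (IsCyclotomicExtension.zeta_spec 13 ℚ K)
  rw [h]
  exact hq.out.not_dvd_one

lemma exists_principal_prime_over (q : ℕ) [hq : Fact q.Prime] (Q : ℤ[X])
    (hQmonic : Q.Monic)
    (hQirr : Irreducible (Q.map (Int.castRingHom (ZMod q))))
    (hQdvd : Q.map (Int.castRingHom (ZMod q)) ∣ cyclotomic 13 (ZMod q))
    (α : 𝓞 K) (h1 : α ∣ (q : 𝓞 K)) (h2 : α ∣ aeval (zeta13 K) Q)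
    (h3 : α ∈ span {(q : 𝓞 K), aeval (zeta13 K) Q}) :
    ∃ P ∈ primesOver (span {(q : ℤ)}) (𝓞 K), Submodule.IsPrincipal P := by
  have hexp := not_dvd_exponent_zeta13 K q
  have hQ : Q.map (Int.castRingHom (ZMod q)) ∈ RingOfIntegers.monicFactorsMod (zeta13 K) q := by
    rw [Multiset.mem_toFinset, Polynomial.mem_normalizedFactors_iff
      (map_monic_ne_zero (minpoly.monic (zeta13 K).isIntegral))]
    refine ⟨hQirr, hQmonic.map _, ?_⟩
    rw [minpoly_zeta13, map_cyclotomic]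
    exact hQdvd
  refine ⟨((NumberField.Ideal.primesOverSpanEquivMonicFactorsMod hexp).symm ⟨_, hQ⟩ : Ideal (𝓞 K)),
    ((NumberField.Ideal.primesOverSpanEquivMonicFactorsMod hexp).symm ⟨_, hQ⟩).2, ?_⟩
  rw [NumberField.Ideal.primesOverSpanEquivMonicFactorsMod_symm_apply_eq_span hexp hQ]
  refine ⟨α, ?_⟩
  apply le_antisymm
  · rw [Ideal.span_le]
    intro x hx
    rcases hx with rfl | rfl
    · exact Ideal.mem_span_singleton.mpr h1
    · exact Ideal.mem_span_singleton.mpr h2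
  · rw [Ideal.submodule_span_eq, Ideal.span_le]
    intro x hx
    rw [Set.mem_singleton_iff] at hx
    rw [hx]
    exact h3

lemma exists_principal_prime_over_linear (q : ℕ) [hq : Fact q.Prime] (r : ℤ)
    (hr : ∑ i ∈ Finset.range 13, ((r : ZMod q)) ^ i = 0)
    (α β γ g : 𝓞 K) (m : ℤ) (h1 : α * β = (q : 𝓞 K)) (h2 : α * γ = zeta13 K - (r : 𝓞 K))
    (h3 : (m : 𝓞 K) * (q : 𝓞 K) + g * (zeta13 K - (r : 𝓞 K)) = α) :
    ∃ P ∈ primesOver (span {(q : ℤ)}) (𝓞 K), Submodule.IsPrincipal P := by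
  have hmap : (X - C r : ℤ[X]).map (Int.castRingHom (ZMod q)) = X - C (r : ZMod q) := by
    simp
  have hae : aeval (zeta13 K) (X - C r : ℤ[X]) = zeta13 K - (r : 𝓞 K) := by
    simp
  have h13 : Fact (Nat.Prime 13) := ⟨by norm_num⟩
  refine exists_principal_prime_over K q (X - C r) (monic_X_sub_C r) ?_ ?_ α ⟨β, h1.symm⟩ ?_ ?_
  · rw [hmap]
    exact irreducible_X_sub_C _
  · rw [hmap, dvd_iff_isRoot, IsRoot.def, cyclotomic_prime, eval_finsetSum]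
    simpa using hr
  · rw [hae]
    exact ⟨γ, h2.symm⟩
  · rw [hae]
    exact Ideal.mem_span_pair.mpr ⟨m, g, h3⟩




lemma finrank_thirteen : finrank ℚ K = 12 := by
  rw [IsCyclotomicExtension.finrank (n := 13) K (Polynomial.cyclotomic.irreducible_rat (by norm_num)),
    Nat.totient_prime (by norm_num)]

lemma nrComplexPlaces_thirteen : InfinitePlace.nrComplexPlaces K = 6 := by
  rw [IsCyclotomicExtension.Rat.nrComplexPlaces_eq_totient_div_two 13, Nat.totient_prime (by norm_num)]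

lemma discr_thirteen : discr K = 13 ^ 11 := by
  have hF : Fact (Nat.Prime 13) := ⟨by norm_num⟩
  rw [IsCyclotomicExtension.Rat.discr_prime 13 K]
  norm_num

lemma minkowski_lt :
    (4 / Real.pi) ^ InfinitePlace.nrComplexPlaces K *
      (((finrank ℚ K).factorial : ℝ) / (finrank ℚ K : ℝ) ^ (finrank ℚ K) *
        √|((discr K : ℤ) : ℝ)|) < 307 := by
  rw [finrank_thirteen, nrComplexPlaces_thirteen, discr_thirteen]
  have hpi : (3.1415 : ℝ) < Real.pi := Real.pi_gt_d4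
  have h1 : (4 / Real.pi) ^ 6 < (4 / 3.1415 : ℝ) ^ 6 := by
    gcongr
  have h2 : √|((13 ^ 11 : ℤ) : ℝ)| < 1338717 := by
    rw [Real.sqrt_lt' (by norm_num)]
    norm_num
  have h3 : (0 : ℝ) ≤ √|((13 ^ 11 : ℤ) : ℝ)| := Real.sqrt_nonneg _
  have hfac : ((Nat.factorial 12 : ℕ) : ℝ) = 479001600 := by
    norm_num [Nat.factorial]
  rw [hfac]
  have h4 : (0 : ℝ) < (4 / Real.pi) ^ 6 := by positivity
  calc (4 / Real.pi) ^ 6 * ((479001600 : ℝ) / ((12 : ℕ) : ℝ) ^ 12 * √|((13 ^ 11 : ℤ) : ℝ)|)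
      ≤ (4 / Real.pi) ^ 6 * ((479001600 : ℝ) / ((12 : ℕ) : ℝ) ^ 12 * 1338717) := by
        gcongr
    _ < (4 / 3.1415 : ℝ) ^ 6 * ((479001600 : ℝ) / ((12 : ℕ) : ℝ) ^ 12 * 1338717) := by
        gcongr
    _ < 307 := by norm_num


lemma root_53 : ∑ i ∈ Finset.range 13, (((-17 : ℤ) : ZMod 53)) ^ i = 0 := by decide

lemma exists_principal_53 :
    ∃ P ∈ primesOver (span {((53 : ℕ) : ℤ)}) (𝓞 K), Submodule.IsPrincipal P := by
  have hF : Fact (Nat.Prime 53) := ⟨by norm_num⟩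
  have hΦ := zeta13_sum K
  set ζ := zeta13 K with hζ
  refine exists_principal_prime_over_linear K 53 (-17) root_53
    (1 + ζ + ζ ^ 3)
    (1 - 24 * ζ - 35 * ζ ^ 2 - 25 * ζ ^ 3 - 10 * ζ ^ 4 - 14 * ζ ^ 5 - 20 * ζ ^ 6 - 29 * ζ ^ 7 - 16 * ζ ^ 8 - 23 * ζ ^ 9 - 7 * ζ ^ 10 - 36 * ζ ^ 11)
    (1 - 7 * ζ - 11 * ζ ^ 2 - 8 * ζ ^ 3 - 3 * ζ ^ 4 - 4 * ζ ^ 5 - 6 * ζ ^ 6 - 9 * ζ ^ 7 - 5 * ζ ^ 8 - 7 * ζ ^ 9 - 2 * ζ ^ 10 - 11 * ζ ^ 11)
    (290 - 17 * ζ + ζ ^ 2) (-93) ?_ ?_ ?_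
  · push_cast
    linear_combination (-52 + 29 * ζ - 36 * ζ ^ 2) * hΦ
  · push_cast
    linear_combination (-16 + 9 * ζ - 11 * ζ ^ 2) * hΦ
  · push_cast
    ring

lemma root_79 : ∑ i ∈ Finset.range 13, (((-15 : ℤ) : ZMod 79)) ^ i = 0 := by decide

lemma exists_principal_79 :
    ∃ P ∈ primesOver (span {((79 : ℕ) : ℤ)}) (𝓞 K), Submodule.IsPrincipal P := by
  have hF : Fact (Nat.Prime 79) := ⟨by norm_num⟩
  have hΦ := zeta13_sum K
  set ζ := zeta13 K with hζ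
  refine exists_principal_prime_over_linear K 79 (-15) root_79
    (1 + ζ - ζ ^ 4)
    (24 - 25 * ζ - 27 * ζ ^ 2 + 10 * ζ ^ 3 - 3 * ζ ^ 4 - 39 * ζ ^ 5 - 5 * ζ ^ 6 - 2 * ζ ^ 7 - 18 * ζ ^ 8 - 38 * ζ ^ 9 + 16 * ζ ^ 10 - 35 * ζ ^ 11)
    (5 - 4 * ζ - 5 * ζ ^ 2 + 2 * ζ ^ 3 - 7 * ζ ^ 5 - ζ ^ 6 - 3 * ζ ^ 8 - 7 * ζ ^ 9 + 3 * ζ ^ 10 - 6 * ζ ^ 11)
    (3376 - 225 * ζ + 15 * ζ ^ 2 - ζ ^ 3) (-641) ?_ ?_ ?_
  · push_cast
    linear_combination (-55 + 54 * ζ - 51 * ζ ^ 2 + 35 * ζ ^ 3) * hΦ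
  · push_cast
    linear_combination (-10 + 10 * ζ - 9 * ζ ^ 2 + 6 * ζ ^ 3) * hΦ
  · push_cast
    ring

lemma root_131 : ∑ i ∈ Finset.range 13, (((-51 : ℤ) : ZMod 131)) ^ i = 0 := by decide

lemma exists_principal_131 :
    ∃ P ∈ primesOver (span {((131 : ℕ) : ℤ)}) (𝓞 K), Submodule.IsPrincipal P := by
  have hF : Fact (Nat.Prime 131) := ⟨by norm_num⟩
  have hΦ := zeta13_sum K
  set ζ := zeta13 K with hζ
  refine exists_principal_prime_over_linear K 131 (-51) root_131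
    (1 - ζ - ζ ^ 3)
    (111 + 78 * ζ + 17 * ζ ^ 2 + 67 * ζ ^ 3 + 84 * ζ ^ 4 + 40 * ζ ^ 5 + 46 * ζ ^ 6 + 69 * ζ ^ 7 + 48 * ζ ^ 8 + 33 * ζ ^ 9 + 41 * ζ ^ 10 + 28 * ζ ^ 11)
    (43 + 31 * ζ + 7 * ζ ^ 2 + 26 * ζ ^ 3 + 33 * ζ ^ 4 + 16 * ζ ^ 5 + 18 * ζ ^ 6 + 27 * ζ ^ 7 + 19 * ζ ^ 8 + 13 * ζ ^ 9 + 16 * ζ ^ 10 + 11 * ζ ^ 11)
    (-2602 + 51 * ζ - ζ ^ 2) (1013) ?_ ?_ ?_
  · push_cast
    linear_combination (-20 - 13 * ζ - 28 * ζ ^ 2) * hΦ
  · push_cast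
    linear_combination (-8 - 5 * ζ - 11 * ζ ^ 2) * hΦ
  · push_cast
    ring

lemma root_157 : ∑ i ∈ Finset.range 13, (((75 : ℤ) : ZMod 157)) ^ i = 0 := by decide

lemma exists_principal_157 :
    ∃ P ∈ primesOver (span {((157 : ℕ) : ℤ)}) (𝓞 K), Submodule.IsPrincipal P := by
  have hF : Fact (Nat.Prime 157) := ⟨by norm_num⟩
  have hΦ := zeta13_sum K
  set ζ := zeta13 K with hζ
  refine exists_principal_prime_over_linear K 157 (75) root_157
    (1 - ζ + ζ ^ 2 + ζ ^ 4)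
    (89 + 86 * ζ + 42 * ζ ^ 2 + 77 * ζ ^ 3 + 67 * ζ ^ 4 + 25 * ζ ^ 5 + 37 * ζ ^ 6 + 56 * ζ ^ 7 + 73 * ζ ^ 8 + 113 * ζ ^ 9 + 124 * ζ ^ 10 + 76 * ζ ^ 11)
    (-43 - 41 * ζ - 20 * ζ ^ 2 - 37 * ζ ^ 3 - 32 * ζ ^ 4 - 12 * ζ ^ 5 - 18 * ζ ^ 6 - 27 * ζ ^ 7 - 35 * ζ ^ 8 - 54 * ζ ^ 9 - 59 * ζ ^ 10 - 36 * ζ ^ 11)
    (421949 + 5626 * ζ + 75 * ζ ^ 2 + ζ ^ 3) (201568) ?_ ?_ ?_
  · push_cast
    linear_combination (-68 + 65 * ζ + 48 * ζ ^ 2 + 76 * ζ ^ 3) * hΦ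
  · push_cast
    linear_combination (32 - 31 * ζ - 23 * ζ ^ 2 - 36 * ζ ^ 3) * hΦ
  · push_cast
    ring

lemma exists_principal_3 :
    ∃ P ∈ primesOver (span {((3 : ℕ) : ℤ)}) (𝓞 K), Submodule.IsPrincipal P := by
  have hF : Fact (Nat.Prime 3) := ⟨by norm_num⟩
  have hΦ := zeta13_sum K
  have hae : aeval (zeta13 K) (X ^ 3 - X - 1 : ℤ[X]) = zeta13 K ^ 3 - zeta13 K - 1 := by
    simp
  have hmonic : (X ^ 3 - X - 1 : ℤ[X]).Monic := by monicity!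
  refine exists_principal_prime_over K 3 (X ^ 3 - X - 1) hmonic ?_ ?_
    (zeta13 K ^ 3 - zeta13 K - 1) ?_ ?_ ?_
  · rw [cubic_three_map]
    exact cubic_three_irreducible
  · rw [cubic_three_map]
    exact cubic_three_dvd
  · set ζ := zeta13 K with hζ
    refine ⟨1 + ζ ^ 2 + ζ ^ 3 + 2 * ζ ^ 5 + ζ ^ 7 + 2 * ζ ^ 8 - ζ ^ 9 + 3 * ζ ^ 10, ?_⟩
    push_cast
    linear_combination (-(-4 + 3 * ζ)) * hΦ
  · rw [hae]
  · rw [hae]
    exact Ideal.subset_span (by simp)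

lemma exists_principal_13 :
    ∃ P ∈ primesOver (span {((13 : ℕ) : ℤ)}) (𝓞 K), Submodule.IsPrincipal P := by
  have hF : Fact (Nat.Prime 13) := ⟨by norm_num⟩
  obtain ⟨P, hP1, hP2⟩ := (span {((13 : ℕ) : ℤ)}).nonempty_primesOver (S := 𝓞 K)
  refine ⟨P, ⟨hP1, hP2⟩, ?_⟩
  rw [IsCyclotomicExtension.Rat.eq_span_zeta_sub_one_of_liesOver' 13 K
    (IsCyclotomicExtension.zeta_spec 13 ℚ K) P]
  exact ⟨_, rfl⟩

/-- The ring of integers of the 13-th cyclotomic field is a principal ideal domain. -/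
theorem thirteen_pid_aux : IsPrincipalIdealRing (𝓞 K) := by
  have hGal : IsGalois ℚ K := IsCyclotomicExtension.isGalois {13} ℚ K
  have hM : ⌊(4 / Real.pi) ^ InfinitePlace.nrComplexPlaces K *
      (((finrank ℚ K).factorial : ℝ) / (finrank ℚ K : ℝ) ^ (finrank ℚ K) *
        √|((discr K : ℤ) : ℝ)|)⌋₊ ≤ 306 := by
    have h := minkowski_lt K
    have h0 : (0 : ℝ) ≤ (4 / Real.pi) ^ InfinitePlace.nrComplexPlaces K *
      (((finrank ℚ K).factorial : ℝ) / (finrank ℚ K : ℝ) ^ (finrank ℚ K) *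
        √|((discr K : ℤ) : ℝ)|) := by positivity
    have h1 := (Nat.floor_lt h0).mpr (by exact_mod_cast h : _ < ((307 : ℕ) : ℝ))
    omega
  apply RingOfIntegers.isPrincipalIdealRing_of_isPrincipal_of_lt_or_isPrincipal_of_mem_primesOver_of_mem_Icc
  intro p hpmem hp
  have hple : p ≤ 306 := (Finset.mem_Icc.mp hpmem).2.trans hM
  by_cases h13 : p = 13
  · subst h13
    obtain ⟨P, hP, hpr⟩ := exists_principal_13 K
    exact ⟨P, hP, Or.inr hpr⟩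
  by_cases h3 : p = 3
  · subst h3
    obtain ⟨P, hP, hpr⟩ := exists_principal_3 K
    exact ⟨P, hP, Or.inr hpr⟩
  by_cases h53 : p = 53
  · subst h53
    obtain ⟨P, hP, hpr⟩ := exists_principal_53 K
    exact ⟨P, hP, Or.inr hpr⟩
  by_cases h79 : p = 79
  · subst h79
    obtain ⟨P, hP, hpr⟩ := exists_principal_79 K
    exact ⟨P, hP, Or.inr hpr⟩
  by_cases h131 : p = 131
  · subst h131
    obtain ⟨P, hP, hpr⟩ := exists_principal_131 K
    exact ⟨P, hP, Or.inr hpr⟩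
  by_cases h157 : p = 157
  · subst h157
    obtain ⟨P, hP, hpr⟩ := exists_principal_157 K
    exact ⟨P, hP, Or.inr hpr⟩
  have hF : Fact (Nat.Prime p) := ⟨hp⟩
  obtain ⟨P, hP1, hP2⟩ := (span {(p : ℤ)}).nonempty_primesOver (S := 𝓞 K)
  refine ⟨P, ⟨hP1, hP2⟩, Or.inl ?_⟩
  have hnd : ¬ p ∣ 13 := by
    intro h
    exact h13 ((Nat.prime_dvd_prime_iff_eq hp (by norm_num)).mp h)
  rw [IsCyclotomicExtension.Rat.inertiaDeg_eq_of_not_dvd p K P hnd]
  exact lt_of_le_of_lt hM (key p hp hple h13 ⟨h3, h53, h79, h131, h157⟩)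

end

end Fermat.Agent.S10.H430

namespace Fermat.Agent.S10

/-- The ring of integers of the 13-th cyclotomic field is a principal ideal domain. -/
theorem thirteen_pid_h430 (K : Type*) [Field K] [NumberField K] [IsCyclotomicExtension {13} ℚ K] :
    IsPrincipalIdealRing (NumberField.RingOfIntegers K) :=
  H430.thirteen_pid_aux K

end Fermat.Agent.S10
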