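import Mathlib

set_option autoImplicit false

namespace Fermat.Agent.S10.R378

open NumberField Module InfinitePlace Ideal Nat Real

/-- The Minkowski bound of `ℚ(ζ₇)` is `< 5`. -/
theorem minkowski_bound_seven_lt (K : Type*) [Field K] [NumberField K]
    [IsCyclotomicExtension {7} ℚ K] :
    (4 / π) ^ nrComplexPlaces K *
      ((finrank ℚ K)! / (finrank ℚ K) ^ (finrank ℚ K) * √|(discr K : ℝ)|) < 5 := by
  have hp : Fact (Nat.Prime 7) := ⟨by norm_num⟩
  have h1 : nrComplexPlaces K = 3 := by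
    rw [IsCyclotomicExtension.Rat.nrComplexPlaces_eq_totient_div_two 7,
      totient_prime hp.out]
  have h2 : finrank ℚ K = 6 := by
    rw [IsCyclotomicExtension.finrank (n := 7) K (Polynomial.cyclotomic.irreducible_rat (by simp)),
      totient_prime hp.out]
  have h3 : discr K = -7 ^ 5 := by
    rw [IsCyclotomicExtension.Rat.discr_prime 7 K]
    norm_num
  rw [h1, h2, h3]
  have hsq : √|(((-7 ^ 5 : ℤ)) : ℝ)| < 7 ^ 2 * 2.6458 := by
    rw [Real.sqrt_lt' (by norm_num)]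
    push_cast
    rw [abs_neg, abs_of_pos (by positivity)]
    norm_num
  have hpi : (4 / π) ^ 3 < (4 / 3) ^ 3 := by
    gcongr
    exact pi_gt_three
  have hfac : ((6 : ℕ)! : ℝ) = 720 := by
    norm_num [Nat.factorial]
  rw [hfac]
  calc (4 / π) ^ 3 * ((720 : ℝ) / ((6 : ℕ) : ℝ) ^ 6 * √|(((-7 ^ 5 : ℤ)) : ℝ)|)
      ≤ (4 / 3) ^ 3 * ((720 : ℝ) / ((6 : ℕ) : ℝ) ^ 6 * (7 ^ 2 * 2.6458)) := by
        gcongr
    _ < 5 := by norm_num

/-- `⌊M K⌋₊ ≤ 4` for `K = ℚ(ζ₇)`. -/
theorem floor_minkowski_bound_seven_le (K : Type*) [Field K] [NumberField K]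
    [IsCyclotomicExtension {7} ℚ K] :
    ⌊(4 / π) ^ nrComplexPlaces K *
      ((finrank ℚ K)! / (finrank ℚ K) ^ (finrank ℚ K) * √|(discr K : ℝ)|)⌋₊ ≤ 4 := by
  have h := minkowski_bound_seven_lt K
  have h0 : (0 : ℝ) ≤ (4 / π) ^ nrComplexPlaces K *
      ((finrank ℚ K)! / (finrank ℚ K) ^ (finrank ℚ K) * √|(discr K : ℝ)|) := by positivity
  have := (Nat.floor_lt h0).mpr (by exact_mod_cast h : _ < ((5 : ℕ) : ℝ))
  omega

/-- If `IsCyclotomicExtension {7} ℚ K` then `𝓞 K` is a principal ideal domain. -/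
theorem seven_pid (K : Type*) [Field K] [NumberField K] [IsCyclotomicExtension {7} ℚ K] :
    IsPrincipalIdealRing (𝓞 K) := by
  have hgal : IsGalois ℚ K := IsCyclotomicExtension.isGalois {7} ℚ K
  have hfloor := floor_minkowski_bound_seven_le K
  refine RingOfIntegers.isPrincipalIdealRing_of_isPrincipal_of_lt_or_isPrincipal_of_mem_primesOver_of_mem_Icc
    (fun p hpmem hp => ?_)
  have hle : p ≤ 4 := (Finset.mem_Icc.mp hpmem).2.trans hfloor
  have hpf : Fact (Nat.Prime p) := ⟨hp⟩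
  obtain ⟨⟨P, hP1, hP2⟩⟩ := (span {(p : ℤ)}).nonempty_primesOver (S := 𝓞 K)
  refine ⟨P, ⟨hP1, hP2⟩, Or.inl ?_⟩
  have hnd : ¬ p ∣ 7 := by
    intro hd
    have := (Nat.prime_dvd_prime_iff_eq hp (by norm_num)).mp hd
    omega
  rw [IsCyclotomicExtension.Rat.inertiaDeg_eq_of_not_dvd (m := 7) p K P hnd]
  refine lt_of_le_of_lt hfloor ?_
  have hp2 := hp.two_le
  clear hP1 hP2 hpmem hpf hnd
  interval_cases p
  · -- p = 2, order 3
    have : orderOf ((2 : ℕ) : ZMod 7) = 3 := by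
      rw [orderOf_eq_iff (by norm_num)]
      refine ⟨by decide, fun m hm hm0 => ?_⟩
      interval_cases m <;> decide
    rw [this]; norm_num
  · -- p = 3, order 6
    have : orderOf ((3 : ℕ) : ZMod 7) = 6 := by
      rw [orderOf_eq_iff (by norm_num)]
      refine ⟨by decide, fun m hm hm0 => ?_⟩
      interval_cases m <;> decide
    rw [this]; norm_num
  · exfalso; revert hp; norm_num

end Fermat.Agent.S10.R378
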