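/-
Case I of Fermat's Last Theorem for a prime exponent `p` admitting a Sophie Germain
auxiliary prime `q`, and the instances `p = 5, 7, 11, 13` (auxiliary primes `11, 29, 23, 53`).
Purely elementary (integers and `ZMod q`).
-/
import Mathlib

set_option autoImplicit false

namespace Fermat.Agent.S10

open Finset

/-- The cofactor `φ(y,z) = ∑_{i<p} y^i (-z)^(p-1-i)`; for odd `p`, `φ(y,z) * (y+z) = y^p + z^p`. -/
def sgPhi {R : Type*} [CommRing R] (p : ℕ) (y z : R) : R :=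
  ∑ i ∈ range p, y ^ i * (-z) ^ (p - 1 - i)

lemma sgPhi_mul {R : Type*} [CommRing R] {p : ℕ} (hp : Odd p) (y z : R) :
    sgPhi p y z * (y + z) = y ^ p + z ^ p := by
  have h := geom_sum₂_mul y (-z) p
  rw [hp.neg_pow, sub_neg_eq_add, sub_neg_eq_add] at h
  exact h

lemma sgPhi_map {R S : Type*} [CommRing R] [CommRing S] (f : R →+* S) (p : ℕ) (y z : R) :
    f (sgPhi p y z) = sgPhi p (f y) (f z) := by
  simp [sgPhi, map_sum]

lemma sgPhi_of_eq_neg {R : Type*} [CommRing R] (p : ℕ) (y z : R) (h : z = -y) :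
    sgPhi p y z = p * y ^ (p - 1) := by
  subst h
  simp only [sgPhi, neg_neg]
  exact geom_sum₂_self y p

lemma sgPhi_zero_left {R : Type*} [CommRing R] {p : ℕ} (hp : Odd p) (z : R) :
    sgPhi p 0 z = z ^ (p - 1) := by
  have hpos : 0 < p := hp.pos
  have heven : Even (p - 1) := by
    obtain ⟨k, hk⟩ := hp
    exact ⟨k, by omega⟩
  unfold sgPhi
  rw [Finset.sum_eq_single 0]
  · simp [heven.neg_pow]
  · intro i _ hi
    simp [zero_pow hi]
  · intro h
    exact absurd (Finset.mem_range.mpr hpos) h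

/-- `φ(u,v) ≡ p u^(p-1)` modulo `u + v`. -/
lemma sgPhi_sub_dvd (p : ℕ) (u v : ℤ) : (u + v) ∣ sgPhi p u v - p * u ^ (p - 1) := by
  have hmem : sgPhi p u v - p * u ^ (p - 1) ∈ Ideal.span ({u + v} : Set ℤ) := by
    rw [← Ideal.Quotient.eq_zero_iff_mem, map_sub, sub_eq_zero, sgPhi_map]
    have hv : Ideal.Quotient.mk (Ideal.span ({u + v} : Set ℤ)) v
        = - Ideal.Quotient.mk (Ideal.span ({u + v} : Set ℤ)) u := by
      rw [eq_neg_iff_add_eq_zero, ← map_add, Ideal.Quotient.eq_zero_iff_mem, add_comm]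
      exact Ideal.subset_span rfl
    rw [sgPhi_of_eq_neg _ _ _ hv]
    simp
  exact Ideal.mem_span_singleton.mp hmem

variable {p q : ℕ}

/-- If `u^p + v^p + w^p = 0` with `u, v` coprime and `p ∤ w`, then both `u + v` and the cofactor
`φ(u,v)` are `p`-th powers. -/
lemma sg_roots (hp : p.Prime) (hodd : p ≠ 2) {u v w : ℤ} (huv : IsCoprime u v)
    (h : u ^ p + v ^ p + w ^ p = 0) (hpw : ¬ (p : ℤ) ∣ w) :
    ∃ A T : ℤ, u + v = A ^ p ∧ sgPhi p u v = T ^ p := by
  have hpodd : Odd p := hp.odd_of_ne_two hodd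
  have hpint : Prime (p : ℤ) := Nat.prime_iff_prime_int.mp hp
  have hmul : sgPhi p u v * (u + v) = (-w) ^ p := by
    rw [sgPhi_mul hpodd, hpodd.neg_pow]; linarith
  have hw0 : w ≠ 0 := fun h0 => hpw (h0 ▸ dvd_zero _)
  have hcop : IsCoprime (sgPhi p u v) (u + v) := by
    apply isCoprime_of_prime_dvd
    · rintro ⟨-, h0⟩
      have : (-w) ^ p = 0 := by rw [← hmul, h0, mul_zero]
      exact hw0 (neg_eq_zero.mp (pow_eq_zero_iff hp.ne_zero |>.mp this))
    · intro r hr hr1 hr2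
      have hrw : r ∣ w := by
        have : r ∣ (-w) ^ p := hmul ▸ Dvd.dvd.mul_left hr2 _
        exact (dvd_neg.mp (hr.dvd_of_dvd_pow this))
      have h3 : r ∣ (p : ℤ) * u ^ (p - 1) := by
        have h4 : r ∣ sgPhi p u v - p * u ^ (p - 1) := hr2.trans (sgPhi_sub_dvd p u v)
        have := dvd_sub hr1 h4
        simpa using this
      rcases hr.dvd_or_dvd h3 with h5 | h5
      · have hass : Associated r (p : ℤ) := (hr.dvd_prime_iff_associated hpint).mp h5
        exact hpw (hass.dvd_iff_dvd_left.mp hrw)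
      · have hru : r ∣ u := hr.dvd_of_dvd_pow h5
        have hrv : r ∣ v := by
          have := dvd_sub hr2 hru
          simpa using this
        exact hr.not_isUnit (huv.isUnit_of_dvd' hru hrv)
  obtain ⟨⟨T, hT⟩, ⟨A, hA⟩⟩ := Int.eq_pow_of_mul_eq_pow_odd hcop hpodd hmul
  exact ⟨A, T, hA, hT⟩

/-- Core of Sophie Germain's theorem: the case where the auxiliary prime divides `x`. -/
lemma sg_core (hp : p.Prime) (hodd : p ≠ 2) (hq : q.Prime)
    (h1 : ∀ x y z : ZMod q, x ^ p + y ^ p + z ^ p = 0 → x = 0 ∨ y = 0 ∨ z = 0)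
    (h2 : ∀ x : ZMod q, x ^ p ≠ (p : ZMod q))
    {x y z : ℤ} (hxy : IsCoprime x y) (hyz : IsCoprime y z) (hzx : IsCoprime z x)
    (h : x ^ p + y ^ p + z ^ p = 0)
    (hpx : ¬ (p : ℤ) ∣ x) (hpy : ¬ (p : ℤ) ∣ y) (hpz : ¬ (p : ℤ) ∣ z)
    (hqx : (q : ℤ) ∣ x) : False := by
  have : Fact q.Prime := ⟨hq⟩
  have hpodd : Odd p := hp.odd_of_ne_two hodd
  have hqint : Prime (q : ℤ) := Nat.prime_iff_prime_int.mp hq
  obtain ⟨A, T, hA, hT⟩ := sg_roots hp hodd hyz (w := x) (by linarith) hpx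
  obtain ⟨B, S, hB, -⟩ := sg_roots hp hodd hzx (w := y) (by linarith) hpy
  obtain ⟨C, R, hC, hR⟩ := sg_roots hp hodd hxy (w := z) (by linarith) hpz
  have hx0 : (x : ZMod q) = 0 := (ZMod.intCast_zmod_eq_zero_iff_dvd x q).mpr hqx
  have hA' : (y : ZMod q) + z = (A : ZMod q) ^ p := by
    exact_mod_cast congrArg (Int.cast : ℤ → ZMod q) hA
  have hB' : (z : ZMod q) + x = (B : ZMod q) ^ p := by
    exact_mod_cast congrArg (Int.cast : ℤ → ZMod q) hB
  have hC' : (x : ZMod q) + y = (C : ZMod q) ^ p := by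
    exact_mod_cast congrArg (Int.cast : ℤ → ZMod q) hC
  have hT' : sgPhi p (y : ZMod q) (z : ZMod q) = (T : ZMod q) ^ p := by
    have := congrArg (Int.castRingHom (ZMod q)) hT
    rw [sgPhi_map] at this
    simpa using this
  have hR' : sgPhi p (x : ZMod q) (y : ZMod q) = (R : ZMod q) ^ p := by
    have := congrArg (Int.castRingHom (ZMod q)) hR
    rw [sgPhi_map] at this
    simpa using this
  have hy0 : (y : ZMod q) ≠ 0 := by
    intro hy
    have hqy : (q : ℤ) ∣ y := (ZMod.intCast_zmod_eq_zero_iff_dvd y q).mp hy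
    exact hqint.not_isUnit (hxy.isUnit_of_dvd' hqx hqy)
  have hz0 : (z : ZMod q) ≠ 0 := by
    intro hz
    have hqz : (q : ℤ) ∣ z := (ZMod.intCast_zmod_eq_zero_iff_dvd z q).mp hz
    exact hqint.not_isUnit (hzx.isUnit_of_dvd' hqz hqx)
  have key : (C : ZMod q) ^ p + (B : ZMod q) ^ p + (-(A : ZMod q)) ^ p = 0 := by
    rw [hpodd.neg_pow, ← hA', ← hB', ← hC', hx0]; ring
  rcases h1 _ _ _ key with hC0 | hB0 | hA0
  · rw [hC0, zero_pow hp.ne_zero, hx0, zero_add] at hC'
    exact hy0 hC'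
  · rw [hB0, zero_pow hp.ne_zero, hx0, add_zero] at hB'
    exact hz0 hB'
  · rw [neg_eq_zero] at hA0
    rw [hA0, zero_pow hp.ne_zero] at hA'
    have hzy : (z : ZMod q) = -(y : ZMod q) := by
      rw [eq_neg_iff_add_eq_zero, add_comm]; exact hA'
    rw [sgPhi_of_eq_neg _ _ _ hzy] at hT'
    rw [hx0, sgPhi_zero_left hpodd] at hR'
    apply h2 ((T : ZMod q) / (R : ZMod q))
    rw [div_pow, ← hT', ← hR']
    exact mul_div_cancel_right₀ _ (pow_ne_zero _ hy0)

/-- Sophie Germain's theorem, symmetric form. -/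
theorem sophieGermain_sym (hp : p.Prime) (hodd : p ≠ 2) (hq : q.Prime)
    (h1 : ∀ x y z : ZMod q, x ^ p + y ^ p + z ^ p = 0 → x = 0 ∨ y = 0 ∨ z = 0)
    (h2 : ∀ x : ZMod q, x ^ p ≠ (p : ZMod q))
    {x y z : ℤ} (hxy : IsCoprime x y) (hyz : IsCoprime y z) (hzx : IsCoprime z x)
    (h : x ^ p + y ^ p + z ^ p = 0) :
    (p : ℤ) ∣ x ∨ (p : ℤ) ∣ y ∨ (p : ℤ) ∣ z := by
  have : Fact q.Prime := ⟨hq⟩
  by_contra hcon
  rw [not_or, not_or] at hcon
  obtain ⟨hpx, hpy, hpz⟩ := hcon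
  have hcast : (x : ZMod q) ^ p + (y : ZMod q) ^ p + (z : ZMod q) ^ p = 0 := by
    exact_mod_cast congrArg (Int.cast : ℤ → ZMod q) h
  rcases h1 _ _ _ hcast with hx | hy | hz
  · exact sg_core hp hodd hq h1 h2 hxy hyz hzx h hpx hpy hpz
      ((ZMod.intCast_zmod_eq_zero_iff_dvd x q).mp hx)
  · exact sg_core hp hodd hq h1 h2 hyz hzx hxy (by linarith) hpy hpz hpx
      ((ZMod.intCast_zmod_eq_zero_iff_dvd y q).mp hy)
  · exact sg_core hp hodd hq h1 h2 hzx hxy hyz (by linarith) hpz hpx hpy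
      ((ZMod.intCast_zmod_eq_zero_iff_dvd z q).mp hz)

/-- Sophie Germain's theorem (Case I of FLT): if `q` is an auxiliary prime for the odd prime `p`,
any coprime solution of `a^p + b^p = c^p` has `p ∣ a b c`. -/
theorem sophieGermain_caseI (hp : p.Prime) (hodd : p ≠ 2) (hq : q.Prime)
    (h1 : ∀ x y z : ZMod q, x ^ p + y ^ p + z ^ p = 0 → x = 0 ∨ y = 0 ∨ z = 0)
    (h2 : ∀ x : ZMod q, x ^ p ≠ (p : ZMod q))
    {a b c : ℤ} (hab : IsCoprime a b) (h : a ^ p + b ^ p = c ^ p) :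
    (p : ℤ) ∣ a * b * c := by
  have hpodd : Odd p := hp.odd_of_ne_two hodd
  have hac : IsCoprime a c := by
    rw [← IsCoprime.pow_right_iff hp.pos, ← h]
    have : a ^ p + b ^ p = b ^ p + a * a ^ (p - 1) := by
      rw [← pow_succ', Nat.sub_add_cancel hp.one_le]; ring
    rw [this]
    exact (hab.pow_right).add_mul_left_right _
  have hbc : IsCoprime b c := by
    rw [← IsCoprime.pow_right_iff hp.pos, ← h]
    have : a ^ p + b ^ p = a ^ p + b * b ^ (p - 1) := by
      rw [← pow_succ', Nat.sub_add_cancel hp.one_le]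
    rw [this]
    exact (hab.symm.pow_right).add_mul_left_right _
  have h0 : a ^ p + b ^ p + (-c) ^ p = 0 := by
    rw [hpodd.neg_pow, h]; ring
  rcases sophieGermain_sym hp hodd hq h1 h2 hab hbc.neg_right hac.symm.neg_left h0 with h' | h' | h'
  · exact dvd_mul_of_dvd_left (dvd_mul_of_dvd_left h' b) c
  · exact dvd_mul_of_dvd_left (dvd_mul_of_dvd_right h' a) c
  · exact dvd_mul_of_dvd_right (dvd_neg.mp h') _

/-- Removing the coprimality hypothesis: if every coprime solution has `p ∣ a b c`, then there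
is no solution at all with `p ∤ a b c`. -/
theorem caseI_of_coprime {p : ℕ} (hp0 : p ≠ 0)
    (H : ∀ a b c : ℤ, IsCoprime a b → a ^ p + b ^ p = c ^ p → (p : ℤ) ∣ a * b * c)
    {a b c : ℤ} (h : ¬ (p : ℤ) ∣ a * b * c) : a ^ p + b ^ p ≠ c ^ p := by
  intro heq
  have ha0 : a ≠ 0 := by
    rintro rfl
    exact h (by simp)
  have hd : 0 < Int.gcd a b := Int.gcd_pos_of_ne_zero_left b ha0
  obtain ⟨a', b', hcop, ha, hb⟩ := Int.exists_gcd_one hd
  set d : ℤ := (Int.gcd a b : ℤ) with hd_def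
  have hd0 : d ≠ 0 := by
    rw [hd_def]; exact_mod_cast hd.ne'
  have hdc : d ∣ c := by
    rw [← Int.pow_dvd_pow_iff hp0, ← heq]
    exact dvd_add (pow_dvd_pow_of_dvd (Int.gcd_dvd_left ..) p)
      (pow_dvd_pow_of_dvd (Int.gcd_dvd_right ..) p)
  obtain ⟨c', hc⟩ := hdc
  have heq' : a' ^ p + b' ^ p = c' ^ p := by
    have h1 : d ^ p * (a' ^ p + b' ^ p) = d ^ p * c' ^ p := by
      have : (a' * d) ^ p + (b' * d) ^ p = (d * c') ^ p := by
        rw [← ha, ← hb, ← hc]; exact heq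
      rw [mul_pow, mul_pow, mul_pow] at this
      linear_combination this
    exact mul_left_cancel₀ (pow_ne_zero p hd0) h1
  have hdvd := H a' b' c' (Int.isCoprime_iff_gcd_eq_one.mpr hcop) heq'
  apply h
  have : a * b * c = (a' * b' * c') * d ^ 3 := by
    rw [ha, hb, hc]; ring
  rw [this]
  exact dvd_mul_of_dvd_left hdvd _

/-! ### The four instances -/

lemma sg_pow_5_11 : ∀ x : ZMod 11, x = 0 ∨ x ^ 5 = 1 ∨ x ^ 5 = -1 := by decide

lemma sg_pow_11_23 : ∀ x : ZMod 23, x = 0 ∨ x ^ 11 = 1 ∨ x ^ 11 = -1 := by decide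

lemma sg_pow_7_29 :
    ∀ x : ZMod 29, x = 0 ∨ x ^ 7 = 1 ∨ x ^ 7 = -1 ∨ x ^ 7 = 12 ∨ x ^ 7 = -12 := by decide

lemma sg_pow_13_53 :
    ∀ x : ZMod 53, x = 0 ∨ x ^ 13 = 1 ∨ x ^ 13 = -1 ∨ x ^ 13 = 23 ∨ x ^ 13 = -23 := by decide

/-- Case I of FLT for exponent `5`. -/
theorem caseI_five_of_isCoprime {a b c : ℤ} (hab : IsCoprime a b) (h : a ^ 5 + b ^ 5 = c ^ 5) :
    (5 : ℤ) ∣ a * b * c := by
  have h1 : ∀ x y z : ZMod 11, x ^ 5 + y ^ 5 + z ^ 5 = 0 → x = 0 ∨ y = 0 ∨ z = 0 := by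
    intro x y z hxyz
    rcases sg_pow_5_11 x with hx | hx | hx
    · exact Or.inl hx
    all_goals
      rcases sg_pow_5_11 y with hy | hy | hy
      · exact Or.inr (Or.inl hy)
      all_goals
        rcases sg_pow_5_11 z with hz | hz | hz
        · exact Or.inr (Or.inr hz)
        all_goals
          rw [hx, hy, hz] at hxyz
          exact absurd hxyz (by decide)
  have h2 : ∀ x : ZMod 11, x ^ 5 ≠ ((5 : ℕ) : ZMod 11) := by
    intro x
    rcases sg_pow_5_11 x with hx | hx | hx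
    · rw [hx]; decide
    all_goals rw [hx]; decide
  exact_mod_cast sophieGermain_caseI (p := 5) (q := 11) (by norm_num) (by norm_num) (by norm_num)
    h1 h2 hab h

/-- Case I of FLT for exponent `11`. -/
theorem caseI_eleven_of_isCoprime {a b c : ℤ} (hab : IsCoprime a b) (h : a ^ 11 + b ^ 11 = c ^ 11) :
    (11 : ℤ) ∣ a * b * c := by
  have h1 : ∀ x y z : ZMod 23, x ^ 11 + y ^ 11 + z ^ 11 = 0 → x = 0 ∨ y = 0 ∨ z = 0 := by
    intro x y z hxyz
    rcases sg_pow_11_23 x with hx | hx | hx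
    · exact Or.inl hx
    all_goals
      rcases sg_pow_11_23 y with hy | hy | hy
      · exact Or.inr (Or.inl hy)
      all_goals
        rcases sg_pow_11_23 z with hz | hz | hz
        · exact Or.inr (Or.inr hz)
        all_goals
          rw [hx, hy, hz] at hxyz
          exact absurd hxyz (by decide)
  have h2 : ∀ x : ZMod 23, x ^ 11 ≠ ((11 : ℕ) : ZMod 23) := by
    intro x
    rcases sg_pow_11_23 x with hx | hx | hx
    · rw [hx]; decide
    all_goals rw [hx]; decide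
  exact_mod_cast sophieGermain_caseI (p := 11) (q := 23) (by norm_num) (by norm_num) (by norm_num)
    h1 h2 hab h

/-- Case I of FLT for exponent `7`. -/
theorem caseI_seven_of_isCoprime {a b c : ℤ} (hab : IsCoprime a b) (h : a ^ 7 + b ^ 7 = c ^ 7) :
    (7 : ℤ) ∣ a * b * c := by
  have h1 : ∀ x y z : ZMod 29, x ^ 7 + y ^ 7 + z ^ 7 = 0 → x = 0 ∨ y = 0 ∨ z = 0 := by
    intro x y z hxyz
    rcases sg_pow_7_29 x with hx | hx | hx | hx | hx
    · exact Or.inl hx
    all_goals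
      rcases sg_pow_7_29 y with hy | hy | hy | hy | hy
      · exact Or.inr (Or.inl hy)
      all_goals
        rcases sg_pow_7_29 z with hz | hz | hz | hz | hz
        · exact Or.inr (Or.inr hz)
        all_goals
          rw [hx, hy, hz] at hxyz
          exact absurd hxyz (by decide)
  have h2 : ∀ x : ZMod 29, x ^ 7 ≠ ((7 : ℕ) : ZMod 29) := by
    intro x
    rcases sg_pow_7_29 x with hx | hx | hx | hx | hx
    · rw [hx]; decide
    all_goals rw [hx]; decide
  exact_mod_cast sophieGermain_caseI (p := 7) (q := 29) (by norm_num) (by norm_num) (by norm_num)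
    h1 h2 hab h

/-- Case I of FLT for exponent `13`. -/
theorem caseI_thirteen_of_isCoprime {a b c : ℤ} (hab : IsCoprime a b) (h : a ^ 13 + b ^ 13 = c ^ 13) :
    (13 : ℤ) ∣ a * b * c := by
  have h1 : ∀ x y z : ZMod 53, x ^ 13 + y ^ 13 + z ^ 13 = 0 → x = 0 ∨ y = 0 ∨ z = 0 := by
    intro x y z hxyz
    rcases sg_pow_13_53 x with hx | hx | hx | hx | hx
    · exact Or.inl hx
    all_goals
      rcases sg_pow_13_53 y with hy | hy | hy | hy | hy
      · exact Or.inr (Or.inl hy)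
      all_goals
        rcases sg_pow_13_53 z with hz | hz | hz | hz | hz
        · exact Or.inr (Or.inr hz)
        all_goals
          rw [hx, hy, hz] at hxyz
          exact absurd hxyz (by decide)
  have h2 : ∀ x : ZMod 53, x ^ 13 ≠ ((13 : ℕ) : ZMod 53) := by
    intro x
    rcases sg_pow_13_53 x with hx | hx | hx | hx | hx
    · rw [hx]; decide
    all_goals rw [hx]; decide
  exact_mod_cast sophieGermain_caseI (p := 13) (q := 53) (by norm_num) (by norm_num) (by norm_num)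
    h1 h2 hab h


/-! ### Captain's interface: no coprimality hypothesis -/

/-- Case I of FLT for exponent `5`: no solution with `5 ∤ a b c`. -/
theorem caseI_five {a b c : ℤ} (h : ¬ (5 : ℤ) ∣ a * b * c) : a ^ 5 + b ^ 5 ≠ c ^ 5 :=
  caseI_of_coprime (p := 5) (by norm_num) (fun _ _ _ hab heq => caseI_five_of_isCoprime hab heq)
    (by exact_mod_cast h)

/-- Case I of FLT for exponent `7`: no solution with `7 ∤ a b c`. -/
theorem caseI_seven {a b c : ℤ} (h : ¬ (7 : ℤ) ∣ a * b * c) : a ^ 7 + b ^ 7 ≠ c ^ 7 :=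
  caseI_of_coprime (p := 7) (by norm_num) (fun _ _ _ hab heq => caseI_seven_of_isCoprime hab heq)
    (by exact_mod_cast h)

/-- Case I of FLT for exponent `11`: no solution with `11 ∤ a b c`. -/
theorem caseI_eleven {a b c : ℤ} (h : ¬ (11 : ℤ) ∣ a * b * c) : a ^ 11 + b ^ 11 ≠ c ^ 11 :=
  caseI_of_coprime (p := 11) (by norm_num) (fun _ _ _ hab heq => caseI_eleven_of_isCoprime hab heq)
    (by exact_mod_cast h)

/-- Case I of FLT for exponent `13`: no solution with `13 ∤ a b c`. -/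
theorem caseI_thirteen {a b c : ℤ} (h : ¬ (13 : ℤ) ∣ a * b * c) : a ^ 13 + b ^ 13 ≠ c ^ 13 :=
  caseI_of_coprime (p := 13) (by norm_num) (fun _ _ _ hab heq => caseI_thirteen_of_isCoprime hab heq)
    (by exact_mod_cast h)

end Fermat.Agent.S10
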