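import Mathlib

/-!
# S10 bridge: Case II over `ℤ` from the generalised Case II statement in `𝓞 K`

Generic (in the odd prime `p`) version of Mathlib's
`FermatLastTheoremForThree_of_FermatLastTheoremThreeGen`.
-/

set_option autoImplicit false

namespace Fermat.Agent.S10

open NumberField

/-- Case II over `ℤ` follows from the generalised Case II statement in the ring of integers of
the `p`-th cyclotomic field. -/
theorem caseII_int_of_gen {p : ℕ} [hp : Fact p.Prime] (hp2 : p ≠ 2) {K : Type*} [Field K]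
    [NumberField K] [IsCyclotomicExtension {p} ℚ K] {ζ : K} (hζ : IsPrimitiveRoot ζ p)
    (H : ∀ (a b c : 𝓞 K) (u : (𝓞 K)ˣ), c ≠ 0 → ¬ (hζ.toInteger - 1) ∣ a →
      ¬ (hζ.toInteger - 1) ∣ b → (hζ.toInteger - 1) ∣ c → IsCoprime a b →
      a ^ p + b ^ p ≠ u * c ^ p)
    {a b c : ℤ} (hc : c ≠ 0) (ha : ¬ (p : ℤ) ∣ a) (hb : ¬ (p : ℤ) ∣ b) (hpc : (p : ℤ) ∣ c)
    (hab : IsCoprime a b) : a ^ p + b ^ p ≠ c ^ p := by
  intro h
  obtain ⟨x, hx⟩ := hpc
  refine H a b c 1 (by simp [hc]) (fun hdvd ↦ ha ?_) (fun hdvd ↦ hb ?_) ?_ ?_ ?_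
  · rwa [← Ideal.norm_dvd_iff (hζ.prime_norm_toInteger_sub_one_of_prime_ne_two' hp2),
      hζ.norm_toInteger_sub_one_of_prime_ne_two' hp2] at hdvd
  · rwa [← Ideal.norm_dvd_iff (hζ.prime_norm_toInteger_sub_one_of_prime_ne_two' hp2),
      hζ.norm_toInteger_sub_one_of_prime_ne_two' hp2] at hdvd
  · exact dvd_trans hζ.toInteger_sub_one_dvd_prime' ⟨x, by simp [hx]⟩
  · exact IsCoprime.intCast hab
  · simpa using mod_cast h

end Fermat.Agent.S10
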