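import Mathlib
import Fermat.Agent.S10.Glue
import Fermat.Agent.S10.Bridge

/-!
# S10 assembly: FLT for an odd prime `p` from the four pieces
(Case I, PID, Kummer's lemma, generalised Case II descent).
-/

set_option autoImplicit false

namespace Fermat.Agent.S10

open NumberField

/-- Fermat's Last Theorem for the odd prime `p`, from: Case I over `ℤ`, and the generalised
Case II statement in `𝓞 K` for some `p`-th cyclotomic field `K`. -/
theorem flt_of_caseI_caseIIGen {p : ℕ} [hp : Fact p.Prime] (hp2 : p ≠ 2)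
    (hcaseI : ∀ a b c : ℤ, IsCoprime a b → a ^ p + b ^ p = c ^ p → (p : ℤ) ∣ a * b * c)
    {K : Type*} [Field K] [NumberField K] [IsCyclotomicExtension {p} ℚ K] {ζ : K}
    (hζ : IsPrimitiveRoot ζ p)
    (H : ∀ (a b c : 𝓞 K) (u : (𝓞 K)ˣ), c ≠ 0 → ¬ (hζ.toInteger - 1) ∣ a →
      ¬ (hζ.toInteger - 1) ∣ b → (hζ.toInteger - 1) ∣ c → IsCoprime a b →
      a ^ p + b ^ p ≠ u * c ^ p) :
    FermatLastTheoremFor p :=
  flt_of_caseI_caseII hp.out hp2 hcaseI
    (fun _ _ _ hc ha hb hpc hab ↦ caseII_int_of_gen hp2 hζ H hc ha hb hpc hab)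

end Fermat.Agent.S10
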