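import Mathlib

/-!
# Abstract counting lemma for Kummer's lemma (helper635 version)

If a commutative group `E` is generated by `r` elements, `H ≤ E` contains all `p`-th powers and
there are `r` elements which are independent modulo `H`, then `H` consists of `p`-th powers.
-/

set_option autoImplicit false

namespace Fermat.Agent.S10.K5

variable {E : Type*} [CommGroup E]

theorem prod_zpow_of_dvd (p : ℕ) {r : ℕ} (g : Fin r → E) (m : Fin r → ℤ)
    (hm : ∀ i, (p : ℤ) ∣ m i) : ∃ w : E, ∏ i, g i ^ m i = w ^ p := by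
  choose k hk using hm
  refine ⟨∏ i, g i ^ k i, ?_⟩
  rw [← Finset.prod_pow]
  refine Finset.prod_congr rfl fun i _ => ?_
  rw [hk i, mul_comm, zpow_mul, zpow_natCast]

theorem prod_zpow_sub {r : ℕ} (g : Fin r → E) (m m' : Fin r → ℤ) :
    ∏ i, g i ^ (m i - m' i) = (∏ i, g i ^ m i) * (∏ i, g i ^ m' i)⁻¹ := by
  rw [← Finset.prod_inv_distrib, ← Finset.prod_mul_distrib]
  refine Finset.prod_congr rfl fun i _ => ?_
  rw [zpow_sub]

theorem prod_zpow_eq_zpow_sum {ι : Type*} (x : E) (s : Finset ι) (f : ι → ℤ) :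
    ∏ i ∈ s, x ^ f i = x ^ ∑ i ∈ s, f i := by
  classical
  induction s using Finset.induction_on with
  | empty => simp
  | insert i s hi ih => rw [Finset.prod_insert hi, Finset.sum_insert hi, zpow_add, ih]

theorem prod_c_zpow {r : ℕ} (g c : Fin r → E) (a : Fin r → Fin r → ℤ)
    (ha : ∀ j, c j = ∏ i, g i ^ a j i) (n : Fin r → ℤ) :
    ∏ j, c j ^ n j = ∏ i, g i ^ (∑ j, n j * a j i) := by
  have h1 : ∀ j, c j ^ n j = ∏ i, g i ^ (n j * a j i) := by
    intro j
    rw [ha j, ← Finset.prod_zpow]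
    refine Finset.prod_congr rfl fun i _ => ?_
    rw [← zpow_mul, mul_comm]
  simp_rw [h1]
  rw [Finset.prod_comm]
  refine Finset.prod_congr rfl fun i _ => ?_
  exact prod_zpow_eq_zpow_sum _ _ _

/-- The counting lemma. -/
theorem counting_lemma (p : ℕ) [Fact p.Prime] (r : ℕ)
    (g : Fin r → E) (hg : ∀ u : E, ∃ e : Fin r → ℤ, u = ∏ i, g i ^ e i)
    (H : Subgroup E) (hH : ∀ v : E, v ^ p ∈ H)
    (c : Fin r → E)
    (hc : ∀ n : Fin r → ℤ, (∏ i, c i ^ n i) ∈ H → ∀ i, (p : ℤ) ∣ n i) :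
    ∀ u ∈ H, ∃ v : E, u = v ^ p := by
  classical
  choose a ha using fun j => hg (c j)
  -- the linear map
  let L : (Fin r → ZMod p) →ₗ[ZMod p] (Fin r → ZMod p) :=
    { toFun := fun x i => ∑ j, x j * (a j i : ZMod p)
      map_add' := fun x y => by
        funext i
        simp only [Pi.add_apply, add_mul, Finset.sum_add_distrib]
      map_smul' := fun t x => by
        funext i
        simp only [Pi.smul_apply, smul_eq_mul, RingHom.id_apply, Finset.mul_sum, mul_assoc] }
  have hL : ∀ (n : Fin r → ℤ) (i : Fin r),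
      L (fun j => (n j : ZMod p)) i = ((∑ j, n j * a j i : ℤ) : ZMod p) := by
    intro n i
    show ∑ j, (n j : ZMod p) * (a j i : ZMod p) = _
    push_cast
    rfl
  -- key: if `L (n mod p) = e mod p` and `∏ g^e ∈ H` then `p ∣ n`
  have key : ∀ (n e : Fin r → ℤ), L (fun j => (n j : ZMod p)) = (fun i => (e i : ZMod p)) →
      (∏ i, g i ^ e i) ∈ H → ∀ j, (p : ℤ) ∣ n j := by
    intro n e hLn he
    apply hc n
    rw [prod_c_zpow g c a ha n]
    have hdvd : ∀ i, (p : ℤ) ∣ e i - ∑ j, n j * a j i := by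
      intro i
      have := congrFun hLn i
      rw [hL n i] at this
      rw [← ZMod.intCast_zmod_eq_zero_iff_dvd]
      push_cast
      rw [sub_eq_zero]
      rw [← this]
      push_cast
      rfl
    obtain ⟨w, hw⟩ := prod_zpow_of_dvd p g _ hdvd
    rw [prod_zpow_sub] at hw
    have : ∏ i, g i ^ (∑ j, n j * a j i) = (∏ i, g i ^ e i) * (w ^ p)⁻¹ := by
      rw [eq_mul_inv_iff_mul_eq, ← hw, mul_comm (∏ i, g i ^ e i), mul_inv_cancel_left]
    rw [this]
    exact H.mul_mem he (H.inv_mem (hH w))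
  have lift : ∀ x : Fin r → ZMod p, ∃ n : Fin r → ℤ, (fun j => (n j : ZMod p)) = x := by
    intro x
    exact ⟨fun j => (ZMod.cast (x j) : ℤ), funext fun j => ZMod.intCast_zmod_cast (x j)⟩
  -- injectivity
  have hinj : Function.Injective L := by
    rw [← LinearMap.ker_eq_bot, LinearMap.ker_eq_bot']
    intro x hx
    obtain ⟨n, rfl⟩ := lift x
    have h0 := key n (fun _ => 0) (by rw [hx]; funext i; simp) (by simp [H.one_mem])
    funext j
    exact (ZMod.intCast_zmod_eq_zero_iff_dvd _ _).2 (h0 j)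
  have hsurj : Function.Surjective L := LinearMap.injective_iff_surjective.1 hinj
  intro u hu
  obtain ⟨e, rfl⟩ := hg u
  obtain ⟨x, hx⟩ := hsurj (fun i => (e i : ZMod p))
  obtain ⟨n, rfl⟩ := lift x
  have hn := key n e hx hu
  have hx0 : (fun j => ((n j : ℤ) : ZMod p)) = 0 := by
    funext j
    exact (ZMod.intCast_zmod_eq_zero_iff_dvd _ _).2 (hn j)
  rw [hx0, map_zero] at hx
  have he : ∀ i, (p : ℤ) ∣ e i := by
    intro i
    have := congrFun hx i
    exact (ZMod.intCast_zmod_eq_zero_iff_dvd _ _).1 this.symm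
  obtain ⟨w, hw⟩ := prod_zpow_of_dvd p g e he
  exact ⟨w, hw⟩

end Fermat.Agent.S10.K5
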