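import Mathlib
import Fermat.Agent.S10.Kummer5Counting

/-!
# Kummer's lemma for `p = 5` (S10, module C, prime 5)

`kummer_five`: a unit of `𝓞 K`, `K = ℚ(ζ₅)`, congruent to a rational integer modulo `5`
is a fifth power of a unit.

Method: reduction `𝓞 K → F₅[X]/(X⁴)` (realised inside 4×4 matrices over `ZMod 5`,
`ζ ↦ 1 + N`), explicit independence of `ζ`, `1 + ζ` modulo scalars, Dirichlet's unit
theorem (the unit group is generated by two elements) and a counting argument.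
-/

set_option autoImplicit false

open NumberField Polynomial

namespace Fermat.Agent.S10.K5

/-! ## The finite model -/

/-- The nilpotent shift matrix: `X ↦ N` realises `F₅[X]/(X⁴)` inside 4×4 matrices. -/
def shiftN : Matrix (Fin 4) (Fin 4) (ZMod 5) :=
  !![0, 1, 0, 0; 0, 0, 1, 0; 0, 0, 0, 1; 0, 0, 0, 0]

/-- Image of `ζ`. -/
def matA : Matrix (Fin 4) (Fin 4) (ZMod 5) := 1 + shiftN

/-- Image of `1 + ζ`. -/
def matB : Matrix (Fin 4) (Fin 4) (ZMod 5) := 1 + matA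

set_option maxRecDepth 100000 in
theorem matA_cyclotomic : matA ^ 4 + matA ^ 3 + matA ^ 2 + matA + 1 = 0 := by
  decide

set_option maxRecDepth 100000 in
theorem matB_pow_five :
    matB ^ 5 = (2 : ZMod 5) • (1 : Matrix (Fin 4) (Fin 4) (ZMod 5)) := by decide

set_option maxRecDepth 100000 in
theorem mat_indep : ∀ a b : Fin 5, ∀ c : ZMod 5,
    matA ^ (a : ℕ) * matB ^ (b : ℕ) = c • (1 : Matrix (Fin 4) (Fin 4) (ZMod 5)) →
      a = 0 ∧ b = 0 := by
  decide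

theorem aeval_matA_cyclotomic : aeval matA (cyclotomic 5 ℤ) = 0 := by
  have h5 : Nat.Prime 5 := by norm_num
  have : Fact (Nat.Prime 5) := ⟨h5⟩
  rw [cyclotomic_prime ℤ 5]
  simp only [Finset.sum_range_succ, Finset.sum_range_zero, map_add, map_pow, aeval_X, pow_zero,
    zero_add, pow_one, map_one]
  rw [← matA_cyclotomic]
  abel

/-! ## The reduction map -/

variable (K : Type*) [Field K] [NumberField K] [IsCyclotomicExtension {5} ℚ K]

/-- The fixed primitive 5th root of unity in `𝓞 K`. -/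
noncomputable def zeta5 : 𝓞 K := (IsCyclotomicExtension.zeta_spec 5 ℚ K).toInteger

theorem zeta5_isPrimitiveRoot : IsPrimitiveRoot (zeta5 K) 5 :=
  (IsCyclotomicExtension.zeta_spec 5 ℚ K).toInteger_isPrimitiveRoot

theorem zeta5_pow_five : zeta5 K ^ 5 = 1 := (zeta5_isPrimitiveRoot K).pow_eq_one

theorem zeta5_sum : zeta5 K ^ 4 + zeta5 K ^ 3 + zeta5 K ^ 2 + zeta5 K + 1 = 0 := by
  have h := (zeta5_isPrimitiveRoot K).geom_sum_eq_zero (by norm_num)
  simp only [Finset.sum_range_succ, Finset.sum_range_zero, pow_zero, zero_add, pow_one] at h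
  rw [← h]
  ring

theorem minpoly_zeta5 : minpoly ℤ (zeta5 K) = cyclotomic 5 ℤ := by
  have h := cyclotomic_eq_minpoly (n := 5) (IsCyclotomicExtension.zeta_spec 5 ℚ K) (by norm_num)
  rw [h]
  exact (NumberField.RingOfIntegers.minpoly_coe (zeta5 K)).symm

/-- The integral power basis given by `ζ`. -/
noncomputable def pb5 : PowerBasis ℤ (𝓞 K) :=
  (IsCyclotomicExtension.zeta_spec 5 ℚ K).integralPowerBasis

theorem pb5_gen : (pb5 K).gen = zeta5 K :=
  (IsCyclotomicExtension.zeta_spec 5 ℚ K).integralPowerBasis_gen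

theorem aeval_matA_minpoly : aeval matA (minpoly ℤ (pb5 K).gen) = 0 := by
  rw [pb5_gen, minpoly_zeta5]
  exact aeval_matA_cyclotomic

/-- Reduction `𝓞 K → F₅[X]/(X⁴)` (matrix model), `ζ ↦ 1 + N`. -/
noncomputable def redMat : 𝓞 K →ₐ[ℤ] Matrix (Fin 4) (Fin 4) (ZMod 5) :=
  (pb5 K).lift matA (aeval_matA_minpoly K)

theorem redMat_zeta5 : redMat K (zeta5 K) = matA := by
  rw [← pb5_gen]
  exact (pb5 K).lift_gen matA (aeval_matA_minpoly K)

theorem redMat_one_add_zeta5 : redMat K (1 + zeta5 K) = matB := by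
  rw [map_add, map_one, redMat_zeta5]
  rfl

theorem redMat_five_mul (x : 𝓞 K) : redMat K (5 * x) = 0 := by
  rw [map_mul]
  have h5 : redMat K (5 : 𝓞 K) = 0 := by
    have : (5 : 𝓞 K) = ((5 : ℕ) : 𝓞 K) := by norm_cast
    rw [this, map_natCast]
    exact CharP.cast_eq_zero (Matrix (Fin 4) (Fin 4) (ZMod 5)) 5
  rw [h5, zero_mul]

theorem redMat_intCast (m : ℤ) :
    redMat K (m : 𝓞 K) = (m : ZMod 5) • (1 : Matrix (Fin 4) (Fin 4) (ZMod 5)) := by
  rw [map_intCast]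
  ext i j
  simp [Matrix.intCast_apply, Matrix.one_apply]

/-- If `u ≡ m (mod 5)` then `u` reduces to a scalar matrix. -/
theorem redMat_of_dvd {x : 𝓞 K} {m : ℤ} (h : (5 : 𝓞 K) ∣ x - (m : 𝓞 K)) :
    redMat K x = (m : ZMod 5) • (1 : Matrix (Fin 4) (Fin 4) (ZMod 5)) := by
  obtain ⟨y, hy⟩ := h
  have hx : x = (m : 𝓞 K) + 5 * y := by rw [← hy]; ring
  rw [hx, map_add, redMat_five_mul, add_zero, redMat_intCast]

/-! ## Explicit units and their independence -/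

/-- `ζ` as a unit. -/
noncomputable def uZeta : (𝓞 K)ˣ :=
  Units.mkOfMulEqOne (zeta5 K) (zeta5 K ^ 4) (by rw [← pow_succ', zeta5_pow_five])

/-- `1 + ζ` as a unit (inverse `-(ζ + ζ³)`). -/
noncomputable def uOnePlus : (𝓞 K)ˣ :=
  Units.mkOfMulEqOne (1 + zeta5 K) (-(zeta5 K + zeta5 K ^ 3))
    (by linear_combination (-1) * zeta5_sum K)

@[simp] theorem val_uZeta : ((uZeta K : (𝓞 K)ˣ) : 𝓞 K) = zeta5 K := rfl

@[simp] theorem val_uOnePlus : ((uOnePlus K : (𝓞 K)ˣ) : 𝓞 K) = 1 + zeta5 K := rfl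

theorem uZeta_pow_five : uZeta K ^ 5 = 1 := by
  apply Units.ext
  rw [Units.val_pow_eq_pow_val, val_uZeta, zeta5_pow_five, Units.val_one]

/-- Units whose reduction is a scalar matrix. -/
def scalarSub : Subgroup (𝓞 K)ˣ where
  carrier := {v | ∃ c : ZMod 5,
    redMat K (v : 𝓞 K) = c • (1 : Matrix (Fin 4) (Fin 4) (ZMod 5))}
  one_mem' := ⟨1, by rw [Units.val_one, map_one, one_smul]⟩
  mul_mem' := by
    rintro a b ⟨ca, ha⟩ ⟨cb, hb⟩
    refine ⟨ca * cb, ?_⟩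
    rw [Units.val_mul, map_mul, ha, hb, smul_mul_smul_comm, mul_one]
  inv_mem' := by
    rintro a ⟨ca, ha⟩
    have h1 : redMat K ((a⁻¹ : (𝓞 K)ˣ) : 𝓞 K) * redMat K (a : 𝓞 K) = 1 := by
      rw [← map_mul, Units.inv_mul, map_one]
    rw [ha, mul_smul_comm, mul_one] at h1
    have hca : ca ≠ 0 := by
      rintro rfl
      rw [zero_smul] at h1
      have h00 : (0 : Matrix (Fin 4) (Fin 4) (ZMod 5)) 0 0 =
          (1 : Matrix (Fin 4) (Fin 4) (ZMod 5)) 0 0 := by rw [h1]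
      exact absurd h00 (by decide)
    obtain ⟨c', hc'⟩ : ∃ c' : ZMod 5, c' * ca = 1 :=
      (by decide : ∀ x : ZMod 5, x ≠ 0 → ∃ c' : ZMod 5, c' * x = 1) ca hca
    refine ⟨c', ?_⟩
    calc redMat K ((a⁻¹ : (𝓞 K)ˣ) : 𝓞 K)
        = c' • (ca • redMat K ((a⁻¹ : (𝓞 K)ˣ) : 𝓞 K)) := by
          rw [smul_smul, hc', one_smul]
      _ = c' • (1 : Matrix (Fin 4) (Fin 4) (ZMod 5)) := by rw [h1]

theorem mem_scalarSub_iff (v : (𝓞 K)ˣ) : v ∈ scalarSub K ↔
    ∃ c : ZMod 5, redMat K (v : 𝓞 K) = c • (1 : Matrix (Fin 4) (Fin 4) (ZMod 5)) := Iff.rfl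

theorem uOnePlus_pow_five_mem : uOnePlus K ^ 5 ∈ scalarSub K := by
  refine ⟨2, ?_⟩
  rw [Units.val_pow_eq_pow_val, val_uOnePlus, map_pow, redMat_one_add_zeta5, matB_pow_five]

theorem mem_scalarSub_of_dvd {v : (𝓞 K)ˣ} {m : ℤ} (h : (5 : 𝓞 K) ∣ (v : 𝓞 K) - (m : 𝓞 K)) :
    v ∈ scalarSub K := ⟨(m : ZMod 5), redMat_of_dvd K h⟩

theorem indep_aux (n0 n1 : ℤ) (h : uZeta K ^ n0 * uOnePlus K ^ n1 ∈ scalarSub K) :
    (5 : ℤ) ∣ n0 ∧ (5 : ℤ) ∣ n1 := by
  -- residues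
  have h5 : (5 : ℤ) ≠ 0 := by norm_num
  obtain ⟨a, ha⟩ : ∃ a : ℕ, (a : ℤ) = n0 % 5 :=
    ⟨(n0 % 5).toNat, Int.toNat_of_nonneg (Int.emod_nonneg _ h5)⟩
  obtain ⟨b, hb⟩ : ∃ b : ℕ, (b : ℤ) = n1 % 5 :=
    ⟨(n1 % 5).toNat, Int.toNat_of_nonneg (Int.emod_nonneg _ h5)⟩
  have ha5 : a < 5 := by
    have := Int.emod_lt_of_pos n0 (by norm_num : (0 : ℤ) < 5)
    omega
  have hb5 : b < 5 := by
    have := Int.emod_lt_of_pos n1 (by norm_num : (0 : ℤ) < 5)
    omega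
  have hn0 : n0 = (a : ℤ) + 5 * (n0 / 5) := by rw [ha]; exact (Int.emod_add_mul_ediv n0 5).symm
  have hn1 : n1 = (b : ℤ) + 5 * (n1 / 5) := by rw [hb]; exact (Int.emod_add_mul_ediv n1 5).symm
  have e0 : uZeta K ^ n0 = uZeta K ^ a := by
    rw [hn0, zpow_add, zpow_mul, zpow_natCast]
    have : uZeta K ^ (5 : ℤ) = 1 := by
      rw [show (5 : ℤ) = ((5 : ℕ) : ℤ) by norm_num, zpow_natCast, uZeta_pow_five]
    rw [this, one_zpow, mul_one]
  have e1 : uOnePlus K ^ n1 = uOnePlus K ^ b * (uOnePlus K ^ 5) ^ (n1 / 5) := by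
    conv_lhs => rw [hn1]
    rw [zpow_add, zpow_mul, zpow_natCast]
    congr 2
  have hmem : uZeta K ^ a * uOnePlus K ^ b ∈ scalarSub K := by
    have hw : (uOnePlus K ^ 5) ^ (n1 / 5) ∈ scalarSub K :=
      Subgroup.zpow_mem _ (uOnePlus_pow_five_mem K) _
    have : uZeta K ^ a * uOnePlus K ^ b =
        (uZeta K ^ n0 * uOnePlus K ^ n1) * ((uOnePlus K ^ 5) ^ (n1 / 5))⁻¹ := by
      rw [e0, e1]
      group
    rw [this]
    exact Subgroup.mul_mem _ h (Subgroup.inv_mem _ hw)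
  obtain ⟨c, hc⟩ := hmem
  rw [Units.val_mul, Units.val_pow_eq_pow_val, Units.val_pow_eq_pow_val, val_uZeta, val_uOnePlus,
    map_mul, map_pow, map_pow, redMat_zeta5, redMat_one_add_zeta5] at hc
  have key := mat_indep ⟨a, ha5⟩ ⟨b, hb5⟩ c hc
  have ha0 : a = 0 := by simpa using congrArg Fin.val key.1
  have hb0 : b = 0 := by simpa using congrArg Fin.val key.2
  subst ha0 hb0
  exact ⟨Int.dvd_of_emod_eq_zero (by simpa using ha.symm),
    Int.dvd_of_emod_eq_zero (by simpa using hb.symm)⟩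

/-- The two units `ζ`, `1 + ζ` are independent modulo units congruent to an integer mod `5`
(T3c-shape of the S11 interface, for `p = 5`). -/
theorem exists_independent_units_five :
    ∃ c : Fin 2 → (𝓞 K)ˣ, ∀ n : Fin 2 → ℤ,
      (∃ m : ℤ, (5 : 𝓞 K) ∣ ((∏ i, c i ^ n i : (𝓞 K)ˣ) : 𝓞 K) - (m : 𝓞 K)) →
        ∀ i, (5 : ℤ) ∣ n i := by
  refine ⟨![uZeta K, uOnePlus K], fun n ⟨m, hm⟩ => ?_⟩
  rw [Fin.prod_univ_two] at hm
  have h := indep_aux K (n 0) (n 1) (mem_scalarSub_of_dvd K hm)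
  intro i
  fin_cases i
  · exact h.1
  · exact h.2

/-! ## Fifth powers are congruent to integers modulo `5` -/

theorem pow_five_congr_int (α : 𝓞 K) : ∃ m : ℤ, (5 : 𝓞 K) ∣ α ^ 5 - (m : 𝓞 K) := by
  have htop : α ∈ Algebra.adjoin ℤ ({(pb5 K).gen} : Set (𝓞 K)) := by
    rw [(pb5 K).adjoin_gen_eq_top]
    exact Algebra.mem_top
  induction htop using Algebra.adjoin_induction with
  | mem x hx =>
    rw [Set.mem_singleton_iff] at hx
    refine ⟨1, ?_⟩
    rw [hx, pb5_gen, zeta5_pow_five]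
    simp
  | algebraMap r =>
    refine ⟨r ^ 5, ?_⟩
    simp
  | add x y _ _ hx hy =>
    obtain ⟨mx, cx, hx⟩ := hx
    obtain ⟨my, cy, hy⟩ := hy
    refine ⟨mx + my, cx + cy + (x ^ 4 * y + 2 * x ^ 3 * y ^ 2 + 2 * x ^ 2 * y ^ 3 + x * y ^ 4), ?_⟩
    push_cast
    linear_combination hx + hy
  | mul x y _ _ hx hy =>
    obtain ⟨mx, cx, hx⟩ := hx
    obtain ⟨my, cy, hy⟩ := hy
    refine ⟨mx * my, x ^ 5 * cy + (my : 𝓞 K) * cx, ?_⟩
    push_cast
    linear_combination x ^ 5 * hy + (my : 𝓞 K) * hx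

/-! ## Dirichlet: the unit group is generated by two elements -/

theorem rank_eq_one : Units.rank K = 1 := by
  have h1 : InfinitePlace.nrRealPlaces K = 0 :=
    IsCyclotomicExtension.Rat.nrRealPlaces_eq_zero (n := 5) K (by norm_num)
  have h2 : InfinitePlace.nrComplexPlaces K = 2 := by
    rw [IsCyclotomicExtension.Rat.nrComplexPlaces_eq_totient_div_two 5 K]
    have : Nat.totient 5 = 4 := by
      rw [Nat.totient_prime (by norm_num)]
    rw [this]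
  rw [Units.rank, InfinitePlace.card_eq_nrRealPlaces_add_nrComplexPlaces, h1, h2]

theorem units_generated_by_two :
    ∃ g : Fin 2 → (𝓞 K)ˣ, ∀ u : (𝓞 K)ˣ, ∃ e : Fin 2 → ℤ, u = ∏ i, g i ^ e i := by
  obtain ⟨t, ht⟩ := IsCyclic.exists_generator (α := Units.torsion K)
  have hr := rank_eq_one K
  have hpos : 0 < Units.rank K := by omega
  let i0 : Fin (Units.rank K) := ⟨0, hpos⟩
  have : Subsingleton (Fin (Units.rank K)) := by
    rw [hr]
    infer_instance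
  refine ⟨![(t : (𝓞 K)ˣ), Units.fundSystem K i0], fun u => ?_⟩
  obtain ⟨⟨τ, e⟩, hu, -⟩ := Units.exist_unique_eq_mul_prod K u
  obtain ⟨k, hk⟩ := Subgroup.mem_zpowers_iff.1 (ht τ)
  refine ⟨![k, e i0], ?_⟩
  rw [Fin.prod_univ_two]
  simp only [Matrix.cons_val_zero, Matrix.cons_val_one]
  rw [hu, Fintype.prod_subsingleton _ i0]
  congr 1
  rw [← hk]
  simp

/-! ## Kummer's lemma for `p = 5` -/

theorem pow_five_mem_scalarSub (v : (𝓞 K)ˣ) : v ^ 5 ∈ scalarSub K := by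
  obtain ⟨m, hm⟩ := pow_five_congr_int K (v : 𝓞 K)
  refine mem_scalarSub_of_dvd K (m := m) ?_
  rwa [Units.val_pow_eq_pow_val]

/-- Kummer's lemma for `p = 5` (scalar form): a unit whose reduction mod `5` is a scalar
is a fifth power. -/
theorem kummer_five_of_mem_scalarSub (u : (𝓞 K)ˣ) (hu : u ∈ scalarSub K) :
    ∃ v : (𝓞 K)ˣ, u = v ^ 5 := by
  have : Fact (Nat.Prime 5) := ⟨by norm_num⟩
  obtain ⟨g, hg⟩ := units_generated_by_two K
  refine counting_lemma 5 2 g hg (scalarSub K) (pow_five_mem_scalarSub K)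
    ![uZeta K, uOnePlus K] (fun n hn i => ?_) u hu
  rw [Fin.prod_univ_two] at hn
  have h := indep_aux K (n 0) (n 1) hn
  fin_cases i
  · exact h.1
  · exact h.2

/-- **Kummer's lemma for `p = 5`** (captain's interface `[C]`). -/
theorem kummer_five {K : Type*} [Field K] [NumberField K] [IsCyclotomicExtension {5} ℚ K]
    (u : (𝓞 K)ˣ) (h : ∃ n : ℤ, ((5 : ℕ) : 𝓞 K) ∣ (u : 𝓞 K) - n) :
    ∃ v : (𝓞 K)ˣ, u = v ^ 5 := by
  obtain ⟨n, hn⟩ := h
  refine kummer_five_of_mem_scalarSub K u (mem_scalarSub_of_dvd K (m := n) ?_)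
  simpa using hn

/-- Kummer's lemma for `p = 5`, S11-interface shape. -/
theorem kummer_lemma_five (K : Type*) [Field K] [NumberField K] [IsCyclotomicExtension {5} ℚ K]
    (u : (𝓞 K)ˣ) (h : ∃ m : ℤ, (5 : 𝓞 K) ∣ (u : 𝓞 K) - (m : 𝓞 K)) :
    ∃ v : (𝓞 K)ˣ, u = v ^ 5 := by
  obtain ⟨n, hn⟩ := h
  exact kummer_five_of_mem_scalarSub K u (mem_scalarSub_of_dvd K hn)

end Fermat.Agent.S10.K5
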