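import Mathlib

set_option autoImplicit false

namespace Fermat.Agent.S10.R378

open NumberField Module InfinitePlace Ideal Nat Real

/-- The Minkowski bound of `ℚ(ζ₁₁)` is `< 59`. -/
theorem minkowski_bound_eleven_lt (K : Type*) [Field K] [NumberField K]
    [IsCyclotomicExtension {11} ℚ K] :
    (4 / π) ^ nrComplexPlaces K *
      ((finrank ℚ K)! / (finrank ℚ K) ^ (finrank ℚ K) * √|(discr K : ℝ)|) < 59 := by
  have hp : Fact (Nat.Prime 11) := ⟨by norm_num⟩
  have h1 : nrComplexPlaces K = 5 := by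
    rw [IsCyclotomicExtension.Rat.nrComplexPlaces_eq_totient_div_two 11,
      totient_prime hp.out]
  have h2 : finrank ℚ K = 10 := by
    rw [IsCyclotomicExtension.finrank (n := 11) K (Polynomial.cyclotomic.irreducible_rat (by simp)),
      totient_prime hp.out]
  have h3 : discr K = -11 ^ 9 := by
    rw [IsCyclotomicExtension.Rat.discr_prime 11 K]
    norm_num
  rw [h1, h2, h3]
  have hsq : √|(((-11 ^ 9 : ℤ)) : ℝ)| < 11 ^ 4 * 3.31663 := by
    rw [Real.sqrt_lt' (by norm_num)]
    push_cast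
    rw [abs_neg, abs_of_pos (by positivity)]
    norm_num
  have hpi : (4 / π) ^ 5 < (4 / 3.1415) ^ 5 := by
    gcongr
    exact pi_gt_d4
  have hfac : ((10 : ℕ)! : ℝ) = 3628800 := by
    norm_num [Nat.factorial]
  rw [hfac]
  calc (4 / π) ^ 5 * ((3628800 : ℝ) / ((10 : ℕ) : ℝ) ^ 10 * √|(((-11 ^ 9 : ℤ)) : ℝ)|)
      ≤ (4 / 3.1415) ^ 5 * ((3628800 : ℝ) / ((10 : ℕ) : ℝ) ^ 10 * (11 ^ 4 * 3.31663)) := by
        gcongr
    _ < 59 := by norm_num

/-- `⌊M K⌋₊ ≤ 58` for `K = ℚ(ζ₁₁)`. -/
theorem floor_minkowski_bound_eleven_le (K : Type*) [Field K] [NumberField K]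
    [IsCyclotomicExtension {11} ℚ K] :
    ⌊(4 / π) ^ nrComplexPlaces K *
      ((finrank ℚ K)! / (finrank ℚ K) ^ (finrank ℚ K) * √|(discr K : ℝ)|)⌋₊ ≤ 58 := by
  have h := minkowski_bound_eleven_lt K
  have h0 : (0 : ℝ) ≤ (4 / π) ^ nrComplexPlaces K *
      ((finrank ℚ K)! / (finrank ℚ K) ^ (finrank ℚ K) * √|(discr K : ℝ)|) := by positivity
  have := (Nat.floor_lt h0).mpr (by exact_mod_cast h : _ < ((59 : ℕ) : ℝ))
  omega

/-- Elements of `ZMod 11` other than `0, 1` have order at least `2`. -/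
theorem two_le_orderOf_zmod11 (x : ZMod 11) (h0 : x ≠ 0) (h1 : x ≠ 1) : 2 ≤ orderOf x := by
  have hpos : 0 < orderOf x := by
    have : Fact (Nat.Prime 11) := ⟨by norm_num⟩
    rw [orderOf_pos_iff, isOfFinOrder_iff_pow_eq_one]
    exact ⟨10, by norm_num, ZMod.pow_card_sub_one_eq_one h0⟩
  have hne : orderOf x ≠ 1 := by
    rw [Ne, orderOf_eq_one_iff]
    exact h1
  omega

theorem prime_mod_eleven_eq_one (p : ℕ) (hp : p.Prime) (hle : p ≤ 58) (h : p % 11 = 1) :
    p = 23 := by
  obtain ⟨k, rfl⟩ : ∃ k, p = 11 * k + 1 := ⟨p / 11, by omega⟩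
  have hk : k ≤ 5 := by omega
  interval_cases k <;> first | omega | (exfalso; revert hp; norm_num)

/-- The sweep: every prime `p ≤ 58` outside `{11, 23}` has `58 < p ^ (order of p mod 11)`. -/
theorem sweep_eleven (p : ℕ) (hp : p.Prime) (hle : p ≤ 58)
    (h11 : p ≠ 11) (h23 : p ≠ 23) : 58 < p ^ orderOf (p : ZMod 11) := by
  by_cases hbig : 8 ≤ p
  · have hne1 : (p : ZMod 11) ≠ 1 := by
      intro h
      have h' : ((p : ℕ) : ZMod 11) = ((1 : ℕ) : ZMod 11) := by simpa using h
      rw [ZMod.natCast_eq_natCast_iff'] at h'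
      have := prime_mod_eleven_eq_one p hp hle (by simpa using h')
      omega
    have hne0 : (p : ZMod 11) ≠ 0 := by
      intro h
      rw [ZMod.natCast_eq_zero_iff] at h
      have := (Nat.prime_dvd_prime_iff_eq (by norm_num) hp).mp h
      omega
    have h2 := two_le_orderOf_zmod11 _ hne0 hne1
    calc 58 < 8 ^ 2 := by norm_num
      _ ≤ p ^ 2 := Nat.pow_le_pow_left hbig 2
      _ ≤ p ^ orderOf (p : ZMod 11) := Nat.pow_le_pow_right hp.pos h2
  · push Not at hbig
    have hp2 := hp.two_le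
    interval_cases p
    all_goals first
      | omega
      | (exfalso; revert hp; norm_num; done)
      | skip
    · -- p = 2, order 10
      have : orderOf ((2 : ℕ) : ZMod 11) = 10 := by
        rw [orderOf_eq_iff (by norm_num)]
        refine ⟨by decide, fun m hm hm0 => ?_⟩
        interval_cases m <;> decide
      rw [this]; norm_num
    · -- p = 3, order 5
      have : orderOf ((3 : ℕ) : ZMod 11) = 5 := by
        rw [orderOf_eq_iff (by norm_num)]
        refine ⟨by decide, fun m hm hm0 => ?_⟩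
        interval_cases m <;> decide
      rw [this]; norm_num
    · -- p = 5, order 5
      have : orderOf ((5 : ℕ) : ZMod 11) = 5 := by
        rw [orderOf_eq_iff (by norm_num)]
        refine ⟨by decide, fun m hm hm0 => ?_⟩
        interval_cases m <;> decide
      rw [this]; norm_num
    · -- p = 7, order 10
      have : orderOf ((7 : ℕ) : ZMod 11) = 10 := by
        rw [orderOf_eq_iff (by norm_num)]
        refine ⟨by decide, fun m hm hm0 => ?_⟩
        interval_cases m <;> decide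
      rw [this]; norm_num

/-- **Reduction of `eleven_pid` to one principal prime above `23`.** -/
theorem eleven_pid_of_principal (K : Type*) [Field K] [NumberField K]
    [IsCyclotomicExtension {11} ℚ K]
    (h : ∃ P ∈ primesOver (span {((23 : ℕ) : ℤ)}) (𝓞 K), Submodule.IsPrincipal P) :
    IsPrincipalIdealRing (𝓞 K) := by
  have hgal : IsGalois ℚ K := IsCyclotomicExtension.isGalois {11} ℚ K
  have hfloor := floor_minkowski_bound_eleven_le K
  refine RingOfIntegers.isPrincipalIdealRing_of_isPrincipal_of_lt_or_isPrincipal_of_mem_primesOver_of_mem_Icc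
    (fun p hpmem hp => ?_)
  have hle : p ≤ 58 := (Finset.mem_Icc.mp hpmem).2.trans hfloor
  by_cases hS : p = 23
  · subst hS
    obtain ⟨P, hP, hprin⟩ := h
    exact ⟨P, hP, Or.inr hprin⟩
  by_cases h11 : p = 11
  · subst h11
    have hp11 : Fact (Nat.Prime 11) := ⟨hp⟩
    have hK : IsCyclotomicExtension {11 ^ (0 + 1)} ℚ K := by
      simp only [zero_add, pow_one]; exact ‹IsCyclotomicExtension {11} ℚ K›
    have hζ : IsPrimitiveRoot (IsCyclotomicExtension.zeta 11 ℚ K) (11 ^ (0 + 1)) := by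
      simpa using IsCyclotomicExtension.zeta_spec 11 ℚ K
    refine ⟨span {hζ.toInteger - 1}, ⟨?_, ?_⟩, Or.inr ⟨⟨_, rfl⟩⟩⟩
    · exact IsCyclotomicExtension.Rat.isPrime_span_zeta_sub_one 11 0 hζ
    · exact IsCyclotomicExtension.Rat.liesOver_span_zeta_sub_one 11 0 hζ
  · have hpf : Fact (Nat.Prime p) := ⟨hp⟩
    obtain ⟨⟨P, hP1, hP2⟩⟩ := (span {(p : ℤ)}).nonempty_primesOver (S := 𝓞 K)
    refine ⟨P, ⟨hP1, hP2⟩, Or.inl ?_⟩
    have hnd : ¬ p ∣ 11 := by
      intro hd
      have := (Nat.prime_dvd_prime_iff_eq hp (by norm_num)).mp hd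
      exact h11 this
    rw [IsCyclotomicExtension.Rat.inertiaDeg_eq_of_not_dvd (m := 11) p K P hnd]
    exact lt_of_le_of_lt hfloor (sweep_eleven p hp hle h11 hS)

end Fermat.Agent.S10.R378
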