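import Mathlib

/-!
# Principal primes of `ℤ[ζ₁₃]` above `3, 13, 53, 79, 131, 157`

Input for the Minkowski-bound proof that `𝓞 ℚ(ζ₁₃)` is a principal ideal domain.
For each prime `q` in the list we exhibit a prime `P` of `𝓞 K` above `q` that is principal.
The prime is `span {q, Q(ζ)}` (Kummer-Dedekind, `Q` a lift of a monic irreducible factor of the
13-th cyclotomic polynomial modulo `q`), and it is generated by an explicit element `g(ζ)`; the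
equality of ideals is certified by polynomial identities in `ℤ[X]`.
-/

open NumberField Polynomial Ideal RingOfIntegers NumberField.Ideal IsCyclotomicExtension
  IsCyclotomicExtension.Rat

namespace Fermat.Agent.S10.G367

variable (K : Type*) [Field K] [NumberField K] [IsCyclotomicExtension {13} ℚ K]

/-- Certificate-based criterion: a principal prime of `𝓞 K` (`K = ℚ(ζ₁₃)`) above `q`.
`Q` lifts a monic irreducible factor of `Φ₁₃` mod `q`; `g(ζ)` generates `span {q, Q(ζ)}`. -/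
theorem exists_principal_prime_of_certificate (q : ℕ) [Fact q.Prime]
    (Q g β γ u w R S T1 T2 : ℤ[X])
    (hQmonic : Q.Monic) (hQirr : Irreducible (Q.map (Int.castRingHom (ZMod q))))
    (hdiv : cyclotomic 13 ℤ = Q * R + (q : ℤ[X]) * S)
    (h1 : g * β = (q : ℤ[X]) + cyclotomic 13 ℤ * T1)
    (h2 : g * γ = Q + cyclotomic 13 ℤ * T2)
    (h3 : g = Q * u + (q : ℤ[X]) * w) :
    ∃ P ∈ primesOver (span {(q : ℤ)}) (𝓞 K), Submodule.IsPrincipal P := by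
  have hq := (Fact.out : q.Prime)
  let ζ := (zeta_spec 13 ℚ K).toInteger
  have h₁ : ¬ q ∣ exponent ζ := by
    rw [exponent_eq_one_iff.mpr <| adjoin_singleton_eq_top (zeta_spec 13 ℚ K)]
    exact hq.not_dvd_one
  have hmin : cyclotomic 13 ℤ = minpoly ℤ ζ := by
    rw [cyclotomic_eq_minpoly (zeta_spec 13 ℚ K) (by norm_num),
      ← (zeta_spec 13 ℚ K).coe_toInteger]
    exact RingOfIntegers.minpoly_coe ζ
  have hζ0 : aeval ζ (cyclotomic 13 ℤ) = 0 := by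
    rw [hmin]; exact minpoly.aeval ℤ ζ
  have hQ : Q.map (Int.castRingHom (ZMod q)) ∈ monicFactorsMod ζ q := by
    rw [Multiset.mem_toFinset, Polynomial.mem_normalizedFactors_iff
      (map_monic_ne_zero (minpoly.monic ζ.isIntegral))]
    refine ⟨hQirr, hQmonic.map _, ?_⟩
    rw [← hmin, hdiv]
    simp only [Polynomial.map_add, Polynomial.map_mul, Polynomial.map_natCast,
      CharP.cast_eq_zero, zero_mul, add_zero]
    exact dvd_mul_right _ _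
  refine ⟨span {(q : 𝓞 K), aeval ζ Q}, ?_, ?_⟩
  · rw [← primesOverSpanEquivMonicFactorsMod_symm_apply_eq_span h₁ hQ]
    exact ((primesOverSpanEquivMonicFactorsMod h₁).symm ⟨_, hQ⟩).prop
  · refine ⟨⟨aeval ζ g, ?_⟩⟩
    have e1 : aeval ζ g * aeval ζ β = (q : 𝓞 K) := by
      have := congrArg (aeval ζ) h1
      simpa [hζ0] using this
    have e2 : aeval ζ g * aeval ζ γ = aeval ζ Q := by
      have := congrArg (aeval ζ) h2
      simpa [hζ0] using this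
    have e3 : aeval ζ g = aeval ζ Q * aeval ζ u + (q : 𝓞 K) * aeval ζ w := by
      have := congrArg (aeval ζ) h3
      simpa using this
    apply le_antisymm
    · rw [Ideal.span_le]
      rintro x (rfl | rfl)
      · rw [SetLike.mem_coe, ← e1]
        exact Ideal.mul_mem_right _ _ (Ideal.subset_span (Set.mem_singleton _))
      · rw [SetLike.mem_coe, ← e2]
        exact Ideal.mul_mem_right _ _ (Ideal.subset_span (Set.mem_singleton _))
    · rw [Ideal.submodule_span_eq, Ideal.span_le]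
      rintro x rfl
      rw [SetLike.mem_coe, e3]
      refine Ideal.add_mem _ (Ideal.mul_mem_right _ _ (Ideal.subset_span ?_))
        (Ideal.mul_mem_right _ _ (Ideal.subset_span ?_))
      · simp
      · simp

theorem cyclotomic_thirteen_eq :
    cyclotomic 13 ℤ = 1 + X + X ^ 2 + X ^ 3 + X ^ 4 + X ^ 5 + X ^ 6 + X ^ 7 + X ^ 8 + X ^ 9 +
      X ^ 10 + X ^ 11 + X ^ 12 := by
  have : Fact (Nat.Prime 13) := ⟨by norm_num⟩
  rw [cyclotomic_prime]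
  simp only [Finset.sum_range_succ, Finset.sum_range_zero]
  ring

theorem irreducible_cubic_mod_three :
    Irreducible ((X ^ 3 - X - 1 : ℤ[X]).map (Int.castRingHom (ZMod 3))) := by
  have hmap : (X ^ 3 - X - 1 : ℤ[X]).map (Int.castRingHom (ZMod 3)) = X ^ 3 - X - 1 := by
    simp
  rw [hmap]
  have hdeg : (X ^ 3 - X - 1 : (ZMod 3)[X]).natDegree = 3 := by compute_degree!
  refine irreducible_of_degree_le_three_of_not_isRoot (by rw [hdeg]; decide) ?_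
  intro x
  simp only [IsRoot.def, eval_sub, eval_pow, eval_X, eval_one]
  revert x
  decide

/-- A principal prime of `𝓞 ℚ(ζ₁₃)` above `3`: generated by `1 + ζ - ζ ^ 3`. -/
theorem exists_principal_prime_over_three :
    ∃ P ∈ primesOver (span {((3 : ℕ) : ℤ)}) (𝓞 K), Submodule.IsPrincipal P := by
  have : Fact (Nat.Prime 3) := ⟨by norm_num⟩
  refine exists_principal_prime_of_certificate K 3
    (X ^ 3 - X - 1)
    (1 + X - X ^ 3)
    (-1 - X ^ 2 - X ^ 3 - 2 * X ^ 5 - X ^ 7 - 2 * X ^ 8 + X ^ 9 - 3 * X ^ 10)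
    (-1)
    (-1)
    (0)
    (-1 - X ^ 2 - X ^ 3 + X ^ 5 - X ^ 7 + X ^ 8 + X ^ 9)
    (X ^ 5 + X ^ 6 + X ^ 9 + X ^ 10)
    (-4 + 3 * X)
    (0)
    (by monicity!) irreducible_cubic_mod_three ?_ ?_ ?_ ?_
  · rw [cyclotomic_thirteen_eq, Nat.cast_ofNat]
    ring
  · rw [cyclotomic_thirteen_eq, Nat.cast_ofNat]
    ring
  · rw [cyclotomic_thirteen_eq]
    ring
  · rw [Nat.cast_ofNat]
    ring

/-- A principal prime of `𝓞 ℚ(ζ₁₃)` above `53`: generated by `1 + ζ + ζ ^ 3`. -/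
theorem exists_principal_prime_over_fiftyThree :
    ∃ P ∈ primesOver (span {((53 : ℕ) : ℤ)}) (𝓞 K), Submodule.IsPrincipal P := by
  have : Fact (Nat.Prime 53) := ⟨by norm_num⟩
  refine exists_principal_prime_of_certificate K 53
    (X + C 17)
    (1 + X + X ^ 3)
    (1 - 24 * X - 35 * X ^ 2 - 25 * X ^ 3 - 10 * X ^ 4 - 14 * X ^ 5 - 20 * X ^ 6 - 29 * X ^ 7 - 16 * X ^ 8
      - 23 * X ^ 9 - 7 * X ^ 10 - 36 * X ^ 11)
    (1 - 7 * X - 11 * X ^ 2 - 8 * X ^ 3 - 3 * X ^ 4 - 4 * X ^ 5 - 6 * X ^ 6 - 9 * X ^ 7 - 5 * X ^ 8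
      - 7 * X ^ 9 - 2 * X ^ 10 - 11 * X ^ 11)
    (290 - 17 * X + X ^ 2)
    (-93)
    (25 - 17 * X + 26 * X ^ 2 + 11 * X ^ 3 + 15 * X ^ 4 + 21 * X ^ 5 - 23 * X ^ 6 + 17 * X ^ 7
      + 24 * X ^ 8 + 8 * X ^ 9 - 16 * X ^ 10 + X ^ 11)
    (-8 + 5 * X - 8 * X ^ 2 - 4 * X ^ 3 - 5 * X ^ 4 - 7 * X ^ 5 + 7 * X ^ 6 - 5 * X ^ 7 - 8 * X ^ 8
      - 3 * X ^ 9 + 5 * X ^ 10)
    (-52 + 29 * X - 36 * X ^ 2)
    (-16 + 9 * X - 11 * X ^ 2)
    (monic_X_add_C _) ?_ ?_ ?_ ?_ ?_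
  · rw [Polynomial.map_add, Polynomial.map_X, Polynomial.map_C]
    exact irreducible_of_degree_eq_one (degree_X_add_C _)
  · rw [cyclotomic_thirteen_eq, show (C 17 : ℤ[X]) = 17 from rfl, Nat.cast_ofNat]
    ring
  · rw [cyclotomic_thirteen_eq, Nat.cast_ofNat]
    ring
  · rw [cyclotomic_thirteen_eq, show (C 17 : ℤ[X]) = 17 from rfl]
    ring
  · rw [show (C 17 : ℤ[X]) = 17 from rfl, Nat.cast_ofNat]
    ring

/-- A principal prime of `𝓞 ℚ(ζ₁₃)` above `79`: generated by `1 + ζ - ζ ^ 4`. -/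
theorem exists_principal_prime_over_seventyNine :
    ∃ P ∈ primesOver (span {((79 : ℕ) : ℤ)}) (𝓞 K), Submodule.IsPrincipal P := by
  have : Fact (Nat.Prime 79) := ⟨by norm_num⟩
  refine exists_principal_prime_of_certificate K 79
    (X + C 15)
    (1 + X - X ^ 4)
    (24 - 25 * X - 27 * X ^ 2 + 10 * X ^ 3 - 3 * X ^ 4 - 39 * X ^ 5 - 5 * X ^ 6 - 2 * X ^ 7 - 18 * X ^ 8
      - 38 * X ^ 9 + 16 * X ^ 10 - 35 * X ^ 11)
    (5 - 4 * X - 5 * X ^ 2 + 2 * X ^ 3 - 7 * X ^ 5 - X ^ 6 - 3 * X ^ 8 - 7 * X ^ 9 + 3 * X ^ 10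
      - 6 * X ^ 11)
    (3376 - 225 * X + 15 * X ^ 2 - X ^ 3)
    (-641)
    (-21 + 12 * X - 6 * X ^ 2 + 11 * X ^ 3 - 27 * X ^ 4 - 35 * X ^ 5 + 34 * X ^ 6 - 18 * X ^ 7
      - 4 * X ^ 8 - 26 * X ^ 9 - 14 * X ^ 10 + X ^ 11)
    (4 - 2 * X + X ^ 2 - 2 * X ^ 3 + 5 * X ^ 4 + 7 * X ^ 5 - 6 * X ^ 6 + 3 * X ^ 7 + X ^ 8 + 5 * X ^ 9
      + 3 * X ^ 10)
    (-55 + 54 * X - 51 * X ^ 2 + 35 * X ^ 3)
    (-10 + 10 * X - 9 * X ^ 2 + 6 * X ^ 3)
    (monic_X_add_C _) ?_ ?_ ?_ ?_ ?_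
  · rw [Polynomial.map_add, Polynomial.map_X, Polynomial.map_C]
    exact irreducible_of_degree_eq_one (degree_X_add_C _)
  · rw [cyclotomic_thirteen_eq, show (C 15 : ℤ[X]) = 15 from rfl, Nat.cast_ofNat]
    ring
  · rw [cyclotomic_thirteen_eq, Nat.cast_ofNat]
    ring
  · rw [cyclotomic_thirteen_eq, show (C 15 : ℤ[X]) = 15 from rfl]
    ring
  · rw [show (C 15 : ℤ[X]) = 15 from rfl, Nat.cast_ofNat]
    ring

/-- A principal prime of `𝓞 ℚ(ζ₁₃)` above `131`: generated by `1 - ζ - ζ ^ 3`. -/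
theorem exists_principal_prime_over_oneHundredThirtyOne :
    ∃ P ∈ primesOver (span {((131 : ℕ) : ℤ)}) (𝓞 K), Submodule.IsPrincipal P := by
  have : Fact (Nat.Prime 131) := ⟨by norm_num⟩
  refine exists_principal_prime_of_certificate K 131
    (X + C 51)
    (1 - X - X ^ 3)
    (111 + 78 * X + 17 * X ^ 2 + 67 * X ^ 3 + 84 * X ^ 4 + 40 * X ^ 5 + 46 * X ^ 6 + 69 * X ^ 7
      + 48 * X ^ 8 + 33 * X ^ 9 + 41 * X ^ 10 + 28 * X ^ 11)
    (43 + 31 * X + 7 * X ^ 2 + 26 * X ^ 3 + 33 * X ^ 4 + 16 * X ^ 5 + 18 * X ^ 6 + 27 * X ^ 7 + 19 * X ^ 8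
      + 13 * X ^ 9 + 16 * X ^ 10 + 11 * X ^ 11)
    (-2602 + 51 * X - X ^ 2)
    (1013)
    (18 - 44 * X + 24 * X ^ 2 - 21 * X ^ 3 + 3 * X ^ 4 - 36 * X ^ 5 + 11 * X ^ 6 - 49 * X ^ 7 - 17 * X ^ 8
      + 62 * X ^ 9 - 50 * X ^ 10 + X ^ 11)
    (-7 + 17 * X - 9 * X ^ 2 + 8 * X ^ 3 - X ^ 4 + 14 * X ^ 5 - 4 * X ^ 6 + 19 * X ^ 7 + 7 * X ^ 8
      - 24 * X ^ 9 + 19 * X ^ 10)
    (-20 - 13 * X - 28 * X ^ 2)
    (-8 - 5 * X - 11 * X ^ 2)
    (monic_X_add_C _) ?_ ?_ ?_ ?_ ?_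
  · rw [Polynomial.map_add, Polynomial.map_X, Polynomial.map_C]
    exact irreducible_of_degree_eq_one (degree_X_add_C _)
  · rw [cyclotomic_thirteen_eq, show (C 51 : ℤ[X]) = 51 from rfl, Nat.cast_ofNat]
    ring
  · rw [cyclotomic_thirteen_eq, Nat.cast_ofNat]
    ring
  · rw [cyclotomic_thirteen_eq, show (C 51 : ℤ[X]) = 51 from rfl]
    ring
  · rw [show (C 51 : ℤ[X]) = 51 from rfl, Nat.cast_ofNat]
    ring

/-- A principal prime of `𝓞 ℚ(ζ₁₃)` above `157`: generated by `1 - ζ + ζ ^ 2 + ζ ^ 4`. -/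
theorem exists_principal_prime_over_oneHundredFiftySeven :
    ∃ P ∈ primesOver (span {((157 : ℕ) : ℤ)}) (𝓞 K), Submodule.IsPrincipal P := by
  have : Fact (Nat.Prime 157) := ⟨by norm_num⟩
  refine exists_principal_prime_of_certificate K 157
    (X + C 82)
    (1 - X + X ^ 2 + X ^ 4)
    (89 + 86 * X + 42 * X ^ 2 + 77 * X ^ 3 + 67 * X ^ 4 + 25 * X ^ 5 + 37 * X ^ 6 + 56 * X ^ 7
      + 73 * X ^ 8 + 113 * X ^ 9 + 124 * X ^ 10 + 76 * X ^ 11)
    (46 + 45 * X + 22 * X ^ 2 + 40 * X ^ 3 + 35 * X ^ 4 + 13 * X ^ 5 + 19 * X ^ 6 + 29 * X ^ 7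
      + 38 * X ^ 8 + 59 * X ^ 9 + 65 * X ^ 10 + 40 * X ^ 11)
    (-551451 + 6725 * X - 82 * X ^ 2 + X ^ 3)
    (288019)
    (-67 - 3 * X + 46 * X ^ 2 + 32 * X ^ 3 + 36 * X ^ 4 - 10 * X ^ 5 + 48 * X ^ 6 + 9 * X ^ 7 + 65 * X ^ 8
      + 49 * X ^ 9 + 76 * X ^ 10 + X ^ 11)
    (35 + 2 * X - 24 * X ^ 2 - 17 * X ^ 3 - 19 * X ^ 4 + 5 * X ^ 5 - 25 * X ^ 6 - 5 * X ^ 7 - 34 * X ^ 8
      - 26 * X ^ 9 - 40 * X ^ 10 - X ^ 11)
    (-68 + 65 * X + 48 * X ^ 2 + 76 * X ^ 3)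
    (-36 + 34 * X + 25 * X ^ 2 + 40 * X ^ 3)
    (monic_X_add_C _) ?_ ?_ ?_ ?_ ?_
  · rw [Polynomial.map_add, Polynomial.map_X, Polynomial.map_C]
    exact irreducible_of_degree_eq_one (degree_X_add_C _)
  · rw [cyclotomic_thirteen_eq, show (C 82 : ℤ[X]) = 82 from rfl, Nat.cast_ofNat]
    ring
  · rw [cyclotomic_thirteen_eq, Nat.cast_ofNat]
    ring
  · rw [cyclotomic_thirteen_eq, show (C 82 : ℤ[X]) = 82 from rfl]
    ring
  · rw [show (C 82 : ℤ[X]) = 82 from rfl, Nat.cast_ofNat]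
    ring

/-- The (unique) prime of `𝓞 ℚ(ζ₁₃)` above `13` is principal, generated by `ζ - 1`. -/
theorem exists_principal_prime_over_thirteen :
    ∃ P ∈ primesOver (span {((13 : ℕ) : ℤ)}) (𝓞 K), Submodule.IsPrincipal P := by
  have : Fact (Nat.Prime 13) := ⟨by norm_num⟩
  have hζ := zeta_spec 13 ℚ K
  obtain ⟨⟨P, hP1, hP2⟩⟩ := (span {((13 : ℕ) : ℤ)}).nonempty_primesOver (S := 𝓞 K)
  refine ⟨P, ⟨hP1, hP2⟩, ?_⟩
  rw [eq_span_zeta_sub_one_of_liesOver' 13 K hζ P]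
  exact ⟨⟨_, rfl⟩⟩

/-- Combined form: every `q ∈ {3, 13, 53, 79, 131, 157}` has a principal prime of `𝓞 ℚ(ζ₁₃)`
above it. -/
theorem exists_principal_prime_over (q : ℕ) (hq : q ∈ ({3, 13, 53, 79, 131, 157} : Finset ℕ)) :
    ∃ P ∈ primesOver (span {(q : ℤ)}) (𝓞 K), Submodule.IsPrincipal P := by
  simp only [Finset.mem_insert, Finset.mem_singleton] at hq
  rcases hq with rfl | rfl | rfl | rfl | rfl | rfl
  · exact exists_principal_prime_over_three K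
  · exact exists_principal_prime_over_thirteen K
  · exact exists_principal_prime_over_fiftyThree K
  · exact exists_principal_prime_over_seventyNine K
  · exact exists_principal_prime_over_oneHundredThirtyOne K
  · exact exists_principal_prime_over_oneHundredFiftySeven K

end Fermat.Agent.S10.G367
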