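/-
S10 helper (helper910): `𝓞 K` is a PID for the 13-th cyclotomic field `K`.
Minkowski bound `⌊M K⌋₊ ≤ 312`; primes over `3, 53, 79, 131, 157` are shown principal via
Mathlib's Kummer-Dedekind (`primesOverSpanEquivMonicFactorsMod_symm_apply_eq_span`) and explicit
cofactor identities modulo `Φ₁₃`; `13` is `(ζ - 1)`; all other primes `q ≤ 312` have
`q ^ f > 312`.
-/
import Mathlib

set_option autoImplicit false

namespace Fermat.Agent.S10.H910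

open NumberField Polynomial InfinitePlace Nat Real IsCyclotomicExtension.Rat Ideal
open RingOfIntegers NumberField.Ideal

/-- The Minkowski bound of the `p`-th cyclotomic field, in closed form. -/
theorem minkowski_bound_cyclotomic_prime (p : ℕ) [hp : Fact (Nat.Prime p)] (K : Type*) [Field K]
    [NumberField K] [IsCyclotomicExtension {p} ℚ K] :
    (4 / π) ^ nrComplexPlaces K *
      ((Module.finrank ℚ K)! / (Module.finrank ℚ K) ^ (Module.finrank ℚ K) *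
        √|(discr K : ℝ)|) =
    (4 / π) ^ ((p - 1) / 2) *
      (((p - 1)! : ℝ) / ((p - 1 : ℕ) : ℝ) ^ (p - 1) * √((p : ℝ) ^ (p - 2))) := by
  have : NeZero p := ⟨hp.out.ne_zero⟩
  rw [discr_prime p K, IsCyclotomicExtension.Rat.finrank (k := p) K,
    nrComplexPlaces_eq_totient_div_two p, totient_prime hp.out]
  congr 3
  push_cast
  rw [abs_mul, abs_pow, abs_pow, abs_neg, abs_one, one_pow, one_mul, Nat.abs_cast]


section KD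

variable (K : Type*) [Field K] [NumberField K] [IsCyclotomicExtension {13} ℚ K]

/-- The chosen primitive 13-th root of unity in `𝓞 K`. -/
noncomputable def zeta13 : 𝓞 K := (IsCyclotomicExtension.zeta_spec 13 ℚ K).toInteger

theorem zeta13_isPrimitiveRoot : IsPrimitiveRoot (zeta13 K) 13 :=
  (IsCyclotomicExtension.zeta_spec 13 ℚ K).toInteger_isPrimitiveRoot

theorem zeta13_geom :
    1 + zeta13 K + zeta13 K ^ 2 + zeta13 K ^ 3 + zeta13 K ^ 4 + zeta13 K ^ 5 + zeta13 K ^ 6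
      + zeta13 K ^ 7 + zeta13 K ^ 8 + zeta13 K ^ 9 + zeta13 K ^ 10 + zeta13 K ^ 11
      + zeta13 K ^ 12 = 0 := by
  have h := (zeta13_isPrimitiveRoot K).geom_sum_eq_zero (by norm_num)
  simpa [Finset.sum_range_succ] using h

theorem minpoly_zeta13 : minpoly ℤ (zeta13 K) = cyclotomic 13 ℤ := by
  rw [cyclotomic_eq_minpoly (IsCyclotomicExtension.zeta_spec 13 ℚ K) (by norm_num),
    ← (IsCyclotomicExtension.zeta_spec 13 ℚ K).coe_toInteger, ← RingOfIntegers.minpoly_coe]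
  rfl

theorem span_pair_mem_primesOver (q : ℕ) [hq : Fact q.Prime] (Q : ℤ[X])
    (hirr : Irreducible (Q.map (Int.castRingHom (ZMod q))))
    (hmonic : (Q.map (Int.castRingHom (ZMod q))).Monic)
    (hdvd : Q.map (Int.castRingHom (ZMod q)) ∣
      (cyclotomic 13 ℤ).map (Int.castRingHom (ZMod q))) :
    span {(q : 𝓞 K), aeval (zeta13 K) Q} ∈ primesOver (span {(q : ℤ)}) (𝓞 K) := by
  have h₁ : ¬ q ∣ exponent (zeta13 K) := by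
    rw [zeta13, exponent_eq_one_iff.mpr <|
      adjoin_singleton_eq_top (IsCyclotomicExtension.zeta_spec 13 ℚ K)]
    exact hq.out.not_dvd_one
  have hQ : Q.map (Int.castRingHom (ZMod q)) ∈ monicFactorsMod (zeta13 K) q := by
    rw [Multiset.mem_toFinset, Polynomial.mem_normalizedFactors_iff
      (map_monic_ne_zero (minpoly.monic (zeta13 K).isIntegral)), minpoly_zeta13]
    exact ⟨hirr, hmonic, hdvd⟩
  rw [← primesOverSpanEquivMonicFactorsMod_symm_apply_eq_span h₁ hQ]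
  exact Subtype.prop _

theorem isPrincipal_span_pair {R : Type*} [CommRing R] (a b α : R) (ha : α ∣ a) (hb : α ∣ b)
    (hα : α ∈ span {a, b}) : (span {a, b} : Ideal R).IsPrincipal := by
  have : (span {a, b} : Ideal R) = span {α} := by
    apply le_antisymm
    · rw [span_le]
      rintro x (rfl | rfl)
      · exact mem_span_singleton.mpr ha
      · exact mem_span_singleton.mpr hb
    · rw [span_le]
      rintro x rfl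
      exact hα
  rw [this]
  exact ⟨⟨α, rfl⟩⟩


theorem root_53 : (∑ i ∈ Finset.range 13, (36 : ZMod 53) ^ i) = 0 := by
  decide

theorem exists_isPrincipal_53 :
    ∃ P ∈ primesOver (span {((53 : ℕ) : ℤ)}) (𝓞 K), Submodule.IsPrincipal P := by
  have : Fact (Nat.Prime 53) := ⟨by norm_num⟩
  have : Fact (Nat.Prime 13) := ⟨by norm_num⟩
  have hmap : (X - C (36 : ℤ)).map (Int.castRingHom (ZMod 53)) = X - C (36 : ZMod 53) := by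
    rw [Polynomial.map_sub, Polynomial.map_X, Polynomial.map_C, eq_intCast, Int.cast_ofNat]
  have hmem := span_pair_mem_primesOver K 53 (X - C (36 : ℤ))
    (by rw [hmap]; exact irreducible_X_sub_C _)
    (by rw [hmap]; exact monic_X_sub_C _)
    (by
      rw [hmap, dvd_iff_isRoot, map_cyclotomic, cyclotomic_prime, IsRoot.def, eval_finsetSum]
      simp only [eval_pow, eval_X]
      exact root_53)
  refine ⟨_, hmem, ?_⟩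
  have hg := zeta13_geom K
  have haeval : aeval (zeta13 K) (X - C (36 : ℤ)) = zeta13 K - 36 := by
    rw [map_sub, aeval_X, aeval_C, algebraMap_int_eq, eq_intCast, Int.cast_ofNat]
  rw [haeval]
  generalize zeta13 K = ζ at hg ⊢
  apply isPrincipal_span_pair _ _ (1 + ζ + ζ ^ 3)
  · refine ⟨1 - 24 * ζ - 35 * ζ ^ 2 - 25 * ζ ^ 3 - 10 * ζ ^ 4 - 14 * ζ ^ 5 - 20 * ζ ^ 6 - 29 * ζ ^ 7 - 16 * ζ ^ 8 - 23 * ζ ^ 9 - 7 * ζ ^ 10 - 36 * ζ ^ 11, ?_⟩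
    have h : (1 + ζ + ζ ^ 3) * (1 - 24 * ζ - 35 * ζ ^ 2 - 25 * ζ ^ 3 - 10 * ζ ^ 4 - 14 * ζ ^ 5 - 20 * ζ ^ 6 - 29 * ζ ^ 7 - 16 * ζ ^ 8 - 23 * ζ ^ 9 - 7 * ζ ^ 10 - 36 * ζ ^ 11) = 53 + (1 + ζ + ζ ^ 2 + ζ ^ 3 + ζ ^ 4 + ζ ^ 5 + ζ ^ 6 + ζ ^ 7 + ζ ^ 8 + ζ ^ 9 + ζ ^ 10 + ζ ^ 11 + ζ ^ 12) * (-52 + 29 * ζ - 36 * ζ ^ 2) := by
      ring
    rw [h, hg]
    simp
  · refine ⟨17 * ζ + 24 * ζ ^ 2 + 17 * ζ ^ 3 + 7 * ζ ^ 4 + 10 * ζ ^ 5 + 14 * ζ ^ 6 + 20 * ζ ^ 7 + 11 * ζ ^ 8 + 16 * ζ ^ 9 + 5 * ζ ^ 10 + 25 * ζ ^ 11, ?_⟩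
    have h : (1 + ζ + ζ ^ 3) * (17 * ζ + 24 * ζ ^ 2 + 17 * ζ ^ 3 + 7 * ζ ^ 4 + 10 * ζ ^ 5 + 14 * ζ ^ 6 + 20 * ζ ^ 7 + 11 * ζ ^ 8 + 16 * ζ ^ 9 + 5 * ζ ^ 10 + 25 * ζ ^ 11) = ζ - 36 + (1 + ζ + ζ ^ 2 + ζ ^ 3 + ζ ^ 4 + ζ ^ 5 + ζ ^ 6 + ζ ^ 7 + ζ ^ 8 + ζ ^ 9 + ζ ^ 10 + ζ ^ 11 + ζ ^ 12) * (36 - 20 * ζ + 25 * ζ ^ 2) := by
      ring
    rw [h, hg]
    simp
  · rw [Ideal.mem_span_pair]
    exact ⟨881, 1297 + 36 * ζ + ζ ^ 2, by push_cast; ring⟩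


theorem root_79 : (∑ i ∈ Finset.range 13, (64 : ZMod 79) ^ i) = 0 := by
  decide

theorem exists_isPrincipal_79 :
    ∃ P ∈ primesOver (span {((79 : ℕ) : ℤ)}) (𝓞 K), Submodule.IsPrincipal P := by
  have : Fact (Nat.Prime 79) := ⟨by norm_num⟩
  have : Fact (Nat.Prime 13) := ⟨by norm_num⟩
  have hmap : (X - C (64 : ℤ)).map (Int.castRingHom (ZMod 79)) = X - C (64 : ZMod 79) := by
    rw [Polynomial.map_sub, Polynomial.map_X, Polynomial.map_C, eq_intCast, Int.cast_ofNat]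
  have hmem := span_pair_mem_primesOver K 79 (X - C (64 : ℤ))
    (by rw [hmap]; exact irreducible_X_sub_C _)
    (by rw [hmap]; exact monic_X_sub_C _)
    (by
      rw [hmap, dvd_iff_isRoot, map_cyclotomic, cyclotomic_prime, IsRoot.def, eval_finsetSum]
      simp only [eval_pow, eval_X]
      exact root_79)
  refine ⟨_, hmem, ?_⟩
  have hg := zeta13_geom K
  have haeval : aeval (zeta13 K) (X - C (64 : ℤ)) = zeta13 K - 64 := by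
    rw [map_sub, aeval_X, aeval_C, algebraMap_int_eq, eq_intCast, Int.cast_ofNat]
  rw [haeval]
  generalize zeta13 K = ζ at hg ⊢
  apply isPrincipal_span_pair _ _ (1 + ζ - ζ ^ 4)
  · refine ⟨24 - 25 * ζ - 27 * ζ ^ 2 + 10 * ζ ^ 3 - 3 * ζ ^ 4 - 39 * ζ ^ 5 - 5 * ζ ^ 6 - 2 * ζ ^ 7 - 18 * ζ ^ 8 - 38 * ζ ^ 9 + 16 * ζ ^ 10 - 35 * ζ ^ 11, ?_⟩
    have h : (1 + ζ - ζ ^ 4) * (24 - 25 * ζ - 27 * ζ ^ 2 + 10 * ζ ^ 3 - 3 * ζ ^ 4 - 39 * ζ ^ 5 - 5 * ζ ^ 6 - 2 * ζ ^ 7 - 18 * ζ ^ 8 - 38 * ζ ^ 9 + 16 * ζ ^ 10 - 35 * ζ ^ 11) = 79 + (1 + ζ + ζ ^ 2 + ζ ^ 3 + ζ ^ 4 + ζ ^ 5 + ζ ^ 6 + ζ ^ 7 + ζ ^ 8 + ζ ^ 9 + ζ ^ 10 + ζ ^ 11 + ζ ^ 12) * (-55 + 54 * ζ - 51 * ζ ^ 2 + 35 * ζ ^ 3) := by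
      ring
    rw [h, hg]
    simp
  · refine ⟨-19 + 21 * ζ + 22 * ζ ^ 2 - 8 * ζ ^ 3 + 3 * ζ ^ 4 + 32 * ζ ^ 5 + 4 * ζ ^ 6 + 2 * ζ ^ 7 + 15 * ζ ^ 8 + 31 * ζ ^ 9 - 13 * ζ ^ 10 + 29 * ζ ^ 11, ?_⟩
    have h : (1 + ζ - ζ ^ 4) * (-19 + 21 * ζ + 22 * ζ ^ 2 - 8 * ζ ^ 3 + 3 * ζ ^ 4 + 32 * ζ ^ 5 + 4 * ζ ^ 6 + 2 * ζ ^ 7 + 15 * ζ ^ 8 + 31 * ζ ^ 9 - 13 * ζ ^ 10 + 29 * ζ ^ 11) = ζ - 64 + (1 + ζ + ζ ^ 2 + ζ ^ 3 + ζ ^ 4 + ζ ^ 5 + ζ ^ 6 + ζ ^ 7 + ζ ^ 8 + ζ ^ 9 + ζ ^ 10 + ζ ^ 11 + ζ ^ 12) * (45 - 44 * ζ + 42 * ζ ^ 2 - 29 * ζ ^ 3) := by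
      ring
    rw [h, hg]
    simp
  · rw [Ideal.mem_span_pair]
    exact ⟨-212369, -262143 - 4096 * ζ - 64 * ζ ^ 2 - ζ ^ 3, by push_cast; ring⟩


theorem root_131 : (∑ i ∈ Finset.range 13, (80 : ZMod 131) ^ i) = 0 := by
  decide

theorem exists_isPrincipal_131 :
    ∃ P ∈ primesOver (span {((131 : ℕ) : ℤ)}) (𝓞 K), Submodule.IsPrincipal P := by
  have : Fact (Nat.Prime 131) := ⟨by norm_num⟩
  have : Fact (Nat.Prime 13) := ⟨by norm_num⟩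
  have hmap : (X - C (80 : ℤ)).map (Int.castRingHom (ZMod 131)) = X - C (80 : ZMod 131) := by
    rw [Polynomial.map_sub, Polynomial.map_X, Polynomial.map_C, eq_intCast, Int.cast_ofNat]
  have hmem := span_pair_mem_primesOver K 131 (X - C (80 : ℤ))
    (by rw [hmap]; exact irreducible_X_sub_C _)
    (by rw [hmap]; exact monic_X_sub_C _)
    (by
      rw [hmap, dvd_iff_isRoot, map_cyclotomic, cyclotomic_prime, IsRoot.def, eval_finsetSum]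
      simp only [eval_pow, eval_X]
      exact root_131)
  refine ⟨_, hmem, ?_⟩
  have hg := zeta13_geom K
  have haeval : aeval (zeta13 K) (X - C (80 : ℤ)) = zeta13 K - 80 := by
    rw [map_sub, aeval_X, aeval_C, algebraMap_int_eq, eq_intCast, Int.cast_ofNat]
  rw [haeval]
  generalize zeta13 K = ζ at hg ⊢
  apply isPrincipal_span_pair _ _ (1 - ζ - ζ ^ 3)
  · refine ⟨111 + 78 * ζ + 17 * ζ ^ 2 + 67 * ζ ^ 3 + 84 * ζ ^ 4 + 40 * ζ ^ 5 + 46 * ζ ^ 6 + 69 * ζ ^ 7 + 48 * ζ ^ 8 + 33 * ζ ^ 9 + 41 * ζ ^ 10 + 28 * ζ ^ 11, ?_⟩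
    have h : (1 - ζ - ζ ^ 3) * (111 + 78 * ζ + 17 * ζ ^ 2 + 67 * ζ ^ 3 + 84 * ζ ^ 4 + 40 * ζ ^ 5 + 46 * ζ ^ 6 + 69 * ζ ^ 7 + 48 * ζ ^ 8 + 33 * ζ ^ 9 + 41 * ζ ^ 10 + 28 * ζ ^ 11) = 131 + (1 + ζ + ζ ^ 2 + ζ ^ 3 + ζ ^ 4 + ζ ^ 5 + ζ ^ 6 + ζ ^ 7 + ζ ^ 8 + ζ ^ 9 + ζ ^ 10 + ζ ^ 11 + ζ ^ 12) * (-20 - 13 * ζ - 28 * ζ ^ 2) := by
      ring
    rw [h, hg]
    simp
  · refine ⟨-68 - 47 * ζ - 10 * ζ ^ 2 - 41 * ζ ^ 3 - 51 * ζ ^ 4 - 24 * ζ ^ 5 - 28 * ζ ^ 6 - 42 * ζ ^ 7 - 29 * ζ ^ 8 - 20 * ζ ^ 9 - 25 * ζ ^ 10 - 17 * ζ ^ 11, ?_⟩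
    have h : (1 - ζ - ζ ^ 3) * (-68 - 47 * ζ - 10 * ζ ^ 2 - 41 * ζ ^ 3 - 51 * ζ ^ 4 - 24 * ζ ^ 5 - 28 * ζ ^ 6 - 42 * ζ ^ 7 - 29 * ζ ^ 8 - 20 * ζ ^ 9 - 25 * ζ ^ 10 - 17 * ζ ^ 11) = ζ - 80 + (1 + ζ + ζ ^ 2 + ζ ^ 3 + ζ ^ 4 + ζ ^ 5 + ζ ^ 6 + ζ ^ 7 + ζ ^ 8 + ζ ^ 9 + ζ ^ 10 + ζ ^ 11 + ζ ^ 12) * (12 + 8 * ζ + 17 * ζ ^ 2) := by
      ring
    rw [h, hg]
    simp
  · rw [Ideal.mem_span_pair]
    exact ⟨-3909, -6401 - 80 * ζ - ζ ^ 2, by push_cast; ring⟩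


theorem root_157 : (∑ i ∈ Finset.range 13, (75 : ZMod 157) ^ i) = 0 := by
  decide

theorem exists_isPrincipal_157 :
    ∃ P ∈ primesOver (span {((157 : ℕ) : ℤ)}) (𝓞 K), Submodule.IsPrincipal P := by
  have : Fact (Nat.Prime 157) := ⟨by norm_num⟩
  have : Fact (Nat.Prime 13) := ⟨by norm_num⟩
  have hmap : (X - C (75 : ℤ)).map (Int.castRingHom (ZMod 157)) = X - C (75 : ZMod 157) := by
    rw [Polynomial.map_sub, Polynomial.map_X, Polynomial.map_C, eq_intCast, Int.cast_ofNat]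
  have hmem := span_pair_mem_primesOver K 157 (X - C (75 : ℤ))
    (by rw [hmap]; exact irreducible_X_sub_C _)
    (by rw [hmap]; exact monic_X_sub_C _)
    (by
      rw [hmap, dvd_iff_isRoot, map_cyclotomic, cyclotomic_prime, IsRoot.def, eval_finsetSum]
      simp only [eval_pow, eval_X]
      exact root_157)
  refine ⟨_, hmem, ?_⟩
  have hg := zeta13_geom K
  have haeval : aeval (zeta13 K) (X - C (75 : ℤ)) = zeta13 K - 75 := by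
    rw [map_sub, aeval_X, aeval_C, algebraMap_int_eq, eq_intCast, Int.cast_ofNat]
  rw [haeval]
  generalize zeta13 K = ζ at hg ⊢
  apply isPrincipal_span_pair _ _ (1 - ζ + ζ ^ 2 + ζ ^ 4)
  · refine ⟨89 + 86 * ζ + 42 * ζ ^ 2 + 77 * ζ ^ 3 + 67 * ζ ^ 4 + 25 * ζ ^ 5 + 37 * ζ ^ 6 + 56 * ζ ^ 7 + 73 * ζ ^ 8 + 113 * ζ ^ 9 + 124 * ζ ^ 10 + 76 * ζ ^ 11, ?_⟩
    have h : (1 - ζ + ζ ^ 2 + ζ ^ 4) * (89 + 86 * ζ + 42 * ζ ^ 2 + 77 * ζ ^ 3 + 67 * ζ ^ 4 + 25 * ζ ^ 5 + 37 * ζ ^ 6 + 56 * ζ ^ 7 + 73 * ζ ^ 8 + 113 * ζ ^ 9 + 124 * ζ ^ 10 + 76 * ζ ^ 11) = 157 + (1 + ζ + ζ ^ 2 + ζ ^ 3 + ζ ^ 4 + ζ ^ 5 + ζ ^ 6 + ζ ^ 7 + ζ ^ 8 + ζ ^ 9 + ζ ^ 10 + ζ ^ 11 + ζ ^ 12) * (-68 + 65 * ζ + 48 * ζ ^ 2 + 76 * ζ ^ 3) := by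
      ring
    rw [h, hg]
    simp
  · refine ⟨-43 - 41 * ζ - 20 * ζ ^ 2 - 37 * ζ ^ 3 - 32 * ζ ^ 4 - 12 * ζ ^ 5 - 18 * ζ ^ 6 - 27 * ζ ^ 7 - 35 * ζ ^ 8 - 54 * ζ ^ 9 - 59 * ζ ^ 10 - 36 * ζ ^ 11, ?_⟩
    have h : (1 - ζ + ζ ^ 2 + ζ ^ 4) * (-43 - 41 * ζ - 20 * ζ ^ 2 - 37 * ζ ^ 3 - 32 * ζ ^ 4 - 12 * ζ ^ 5 - 18 * ζ ^ 6 - 27 * ζ ^ 7 - 35 * ζ ^ 8 - 54 * ζ ^ 9 - 59 * ζ ^ 10 - 36 * ζ ^ 11) = ζ - 75 + (1 + ζ + ζ ^ 2 + ζ ^ 3 + ζ ^ 4 + ζ ^ 5 + ζ ^ 6 + ζ ^ 7 + ζ ^ 8 + ζ ^ 9 + ζ ^ 10 + ζ ^ 11 + ζ ^ 12) * (32 - 31 * ζ - 23 * ζ ^ 2 - 36 * ζ ^ 3) := by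
      ring
    rw [h, hg]
    simp
  · rw [Ideal.mem_span_pair]
    exact ⟨201568, 421949 + 5626 * ζ + 75 * ζ ^ 2 + ζ ^ 3, by push_cast; ring⟩

theorem three_eq_zero_poly : (3 : (ZMod 3)[X]) = 0 := by
  have h : ((3 : ℕ) : (ZMod 3)[X]) = 0 := CharP.cast_eq_zero _ 3
  exact_mod_cast h

theorem irreducible_cubic_three : Irreducible (X ^ 3 - X - C (1 : ZMod 3)) := by
  have hdeg : (X ^ 3 - X - C (1 : ZMod 3)).natDegree = 3 := by compute_degree!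
  apply irreducible_of_degree_le_three_of_not_isRoot
  · rw [hdeg]; decide
  · intro x
    simp only [IsRoot.def, eval_sub, eval_pow, eval_X, eval_C]
    revert x
    decide

theorem monic_cubic_three : (X ^ 3 - X - C (1 : ZMod 3)).Monic := by
  monicity!

theorem exists_isPrincipal_3 :
    ∃ P ∈ primesOver (span {((3 : ℕ) : ℤ)}) (𝓞 K), Submodule.IsPrincipal P := by
  have : Fact (Nat.Prime 3) := ⟨by norm_num⟩
  have : Fact (Nat.Prime 13) := ⟨by norm_num⟩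
  have hmap : (X ^ 3 - X - C (1 : ℤ)).map (Int.castRingHom (ZMod 3)) =
      X ^ 3 - X - C (1 : ZMod 3) := by
    rw [Polynomial.map_sub, Polynomial.map_sub, Polynomial.map_pow, Polynomial.map_X,
      Polynomial.map_C, map_one]
  have hmem := span_pair_mem_primesOver K 3 (X ^ 3 - X - C (1 : ℤ))
    (by rw [hmap]; exact irreducible_cubic_three)
    (by rw [hmap]; exact monic_cubic_three)
    (by
      rw [hmap, map_cyclotomic, cyclotomic_prime]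
      refine ⟨20 + 15 * X + 11 * X ^ 2 + 8 * X ^ 3 + 6 * X ^ 4 + 4 * X ^ 5 + 3 * X ^ 6
        + 2 * X ^ 7 + X ^ 8 + X ^ 9, ?_⟩
      have h : (∑ i ∈ Finset.range 13, (X : (ZMod 3)[X]) ^ i) =
          (X ^ 3 - X - C (1 : ZMod 3)) * (20 + 15 * X + 11 * X ^ 2 + 8 * X ^ 3 + 6 * X ^ 4
            + 4 * X ^ 5 + 3 * X ^ 6 + 2 * X ^ 7 + X ^ 8 + X ^ 9)
          + 3 * (7 + 12 * X + 9 * X ^ 2) := by
        simp only [Finset.sum_range_succ, Finset.sum_range_zero, map_one]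
        ring
      rw [h, three_eq_zero_poly]
      ring)
  refine ⟨_, hmem, ?_⟩
  have hg := zeta13_geom K
  have haeval : aeval (zeta13 K) (X ^ 3 - X - C (1 : ℤ)) = zeta13 K ^ 3 - zeta13 K - 1 := by
    rw [map_sub, map_sub, map_pow, aeval_X, aeval_C, map_one]
  rw [haeval]
  generalize zeta13 K = ζ at hg ⊢
  apply isPrincipal_span_pair _ _ (ζ ^ 3 - ζ - 1)
  · refine ⟨1 + ζ ^ 2 + ζ ^ 3 + 2 * ζ ^ 5 + ζ ^ 7 + 2 * ζ ^ 8 - ζ ^ 9 + 3 * ζ ^ 10, ?_⟩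
    have h : (ζ ^ 3 - ζ - 1) * (1 + ζ ^ 2 + ζ ^ 3 + 2 * ζ ^ 5 + ζ ^ 7 + 2 * ζ ^ 8 - ζ ^ 9
        + 3 * ζ ^ 10) = 3 + (1 + ζ + ζ ^ 2 + ζ ^ 3 + ζ ^ 4 + ζ ^ 5 + ζ ^ 6 + ζ ^ 7 + ζ ^ 8 + ζ ^ 9 + ζ ^ 10 + ζ ^ 11 + ζ ^ 12) * (-4 + 3 * ζ) := by
      ring
    rw [h, hg]
    simp
  · exact dvd_refl _
  · exact subset_span (by simp)

end KD

/-- Table of multiplicative orders modulo 13. -/
def ordTable13 (s : ℕ) : ℕ :=
  if s = 1 then 1 else if s = 12 then 2 else if s = 3 ∨ s = 9 then 3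
  else if s = 5 ∨ s = 8 then 4 else if s = 4 ∨ s = 10 then 6 else 12

theorem orderOf_zmod_thirteen_aux :
    ∀ x : ZMod 13, x ≠ 0 → x ^ ordTable13 x.val = 1 ∧
      ∀ m < ordTable13 x.val, 0 < m → x ^ m ≠ 1 := by
  decide

theorem orderOf_zmod_thirteen (x : ZMod 13) (hx : x ≠ 0) : orderOf x = ordTable13 x.val := by
  obtain ⟨h1, h2⟩ := orderOf_zmod_thirteen_aux x hx
  rw [orderOf_eq_iff]
  · exact ⟨h1, h2⟩
  · unfold ordTable13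
    split_ifs <;> norm_num

set_option maxRecDepth 100000 in
theorem lt_pow_ordTable13 : ∀ p : ℕ, p < 313 → p.Prime → p ∉ [3, 13, 53, 79, 131, 157] →
    312 < p ^ ordTable13 (p % 13) := by
  decide


/-- If `IsCyclotomicExtension {13} ℚ K` then `𝓞 K` is a principal ideal domain. -/
theorem thirteen_pid (K : Type*) [Field K] [NumberField K] [IsCyclotomicExtension {13} ℚ K] :
    IsPrincipalIdealRing (𝓞 K) := by
  have hp13 : Fact (Nat.Prime 13) := ⟨by norm_num⟩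
  have : IsGalois ℚ K := IsCyclotomicExtension.isGalois {13} ℚ K
  have hM : ⌊(4 / π) ^ nrComplexPlaces K *
      ((Module.finrank ℚ K)! / (Module.finrank ℚ K) ^ (Module.finrank ℚ K) *
        √|(discr K : ℝ)|)⌋₊ ≤ 312 := by
    rw [minkowski_bound_cyclotomic_prime 13 K]
    apply Nat.le_of_lt_succ
    rw [Nat.floor_lt (by positivity)]
    have h1 : √((13 : ℝ) ^ (13 - 2)) < 1338883 := by
      rw [Real.sqrt_lt' (by norm_num)]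
      norm_num
    have h2 : (4 / π) < 4 / 3.14 := by
      apply div_lt_div_of_pos_left (by norm_num) (by norm_num) Real.pi_gt_d2
    have h3 : (4 / π) ^ ((13 - 1) / 2) < (4 / 3.14) ^ ((13 - 1) / 2) := by
      apply pow_lt_pow_left₀ h2 (by positivity) (by norm_num)
    have h4 : (0 : ℝ) ≤ √((13 : ℝ) ^ (13 - 2)) := Real.sqrt_nonneg _
    have h5 : (0 : ℝ) < (4 / π) ^ ((13 - 1) / 2) := by positivity
    calc (4 / π) ^ ((13 - 1) / 2) *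
          ((((13 - 1)! : ℕ) : ℝ) / ((13 - 1 : ℕ) : ℝ) ^ (13 - 1) * √((13 : ℝ) ^ (13 - 2)))
        ≤ (4 / π) ^ ((13 - 1) / 2) *
          ((((13 - 1)! : ℕ) : ℝ) / ((13 - 1 : ℕ) : ℝ) ^ (13 - 1) * 1338883) := by
          gcongr
      _ < (4 / 3.14) ^ ((13 - 1) / 2) *
          ((((13 - 1)! : ℕ) : ℝ) / ((13 - 1 : ℕ) : ℝ) ^ (13 - 1) * 1338883) := by
          apply mul_lt_mul_of_pos_right h3
          positivity
      _ < ((312 + 1 : ℕ) : ℝ) := by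
          norm_num [Nat.factorial]
  apply RingOfIntegers.isPrincipalIdealRing_of_isPrincipal_of_lt_or_isPrincipal_of_mem_primesOver_of_mem_Icc
  intro p hp hpprime
  have hp312 : p ≤ 312 := (Finset.mem_Icc.mp hp).2.trans hM
  have hFp : Fact (Nat.Prime p) := ⟨hpprime⟩
  by_cases hlist : p ∈ [3, 13, 53, 79, 131, 157]
  · simp only [List.mem_cons, List.not_mem_nil, or_false] at hlist
    rcases hlist with rfl | rfl | rfl | rfl | rfl | rfl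
    · obtain ⟨P, hP, hprinc⟩ := exists_isPrincipal_3 K
      exact ⟨P, hP, Or.inr hprinc⟩
    · have hpmax : (span {((13 : ℕ) : ℤ)}).IsMaximal := Int.ideal_span_isMaximal_of_prime 13
      have hpprime' : (span {((13 : ℕ) : ℤ)}).IsPrime := hpmax.isPrime
      obtain ⟨⟨P, hP⟩⟩ := (span {((13 : ℕ) : ℤ)}).nonempty_primesOver (S := 𝓞 K)
      refine ⟨P, hP, Or.inr ?_⟩
      have hP1 : P.IsPrime := hP.1
      have hP2 : P.LiesOver (span {((13 : ℕ) : ℤ)}) := hP.2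
      rw [eq_span_zeta_sub_one_of_liesOver' 13 K (IsCyclotomicExtension.zeta_spec 13 ℚ K) P]
      exact ⟨⟨_, rfl⟩⟩
    · obtain ⟨P, hP, hprinc⟩ := exists_isPrincipal_53 K
      exact ⟨P, hP, Or.inr hprinc⟩
    · obtain ⟨P, hP, hprinc⟩ := exists_isPrincipal_79 K
      exact ⟨P, hP, Or.inr hprinc⟩
    · obtain ⟨P, hP, hprinc⟩ := exists_isPrincipal_131 K
      exact ⟨P, hP, Or.inr hprinc⟩
    · obtain ⟨P, hP, hprinc⟩ := exists_isPrincipal_157 K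
      exact ⟨P, hP, Or.inr hprinc⟩
  · have hpmax : (span {(p : ℤ)}).IsMaximal := Int.ideal_span_isMaximal_of_prime p
    have hpprime' : (span {(p : ℤ)}).IsPrime := hpmax.isPrime
    obtain ⟨⟨P, hP⟩⟩ := (span {(p : ℤ)}).nonempty_primesOver (S := 𝓞 K)
    refine ⟨P, hP, Or.inl ?_⟩
    have hP1 : P.IsPrime := hP.1
    have hP2 : P.LiesOver (span {(p : ℤ)}) := hP.2
    have hp13' : p ≠ 13 := fun h => hlist (by simp [h])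
    have h13 : ¬ p ∣ 13 := by
      intro h
      exact hp13' ((Nat.prime_dvd_prime_iff_eq hpprime (by norm_num)).mp h)
    rw [inertiaDeg_eq_of_not_dvd (m := 13) p K P h13]
    refine lt_of_le_of_lt hM ?_
    have hx : ((p : ℕ) : ZMod 13) ≠ 0 := by
      rw [Ne, ZMod.natCast_eq_zero_iff]
      intro h
      exact hp13' ((Nat.prime_dvd_prime_iff_eq (by norm_num) hpprime).mp h).symm
    rw [orderOf_zmod_thirteen _ hx, ZMod.val_natCast]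
    exact lt_pow_ordTable13 p (by omega) hpprime hlist

end Fermat.Agent.S10.H910
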