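import Mathlib

set_option autoImplicit false

namespace Fermat.Agent.S10.R378

open NumberField Module InfinitePlace Ideal Nat Real

/-- The Minkowski bound of `ℚ(ζ₁₃)` is `< 307`. -/
theorem minkowski_bound_thirteen_lt (K : Type*) [Field K] [NumberField K]
    [IsCyclotomicExtension {13} ℚ K] :
    (4 / π) ^ nrComplexPlaces K *
      ((finrank ℚ K)! / (finrank ℚ K) ^ (finrank ℚ K) * √|(discr K : ℝ)|) < 307 := by
  have hp : Fact (Nat.Prime 13) := ⟨by norm_num⟩
  have h1 : nrComplexPlaces K = 6 := by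
    rw [IsCyclotomicExtension.Rat.nrComplexPlaces_eq_totient_div_two 13,
      totient_prime hp.out]
  have h2 : finrank ℚ K = 12 := by
    rw [IsCyclotomicExtension.finrank (n := 13) K (Polynomial.cyclotomic.irreducible_rat (by simp)),
      totient_prime hp.out]
  have h3 : discr K = 13 ^ 11 := by
    rw [IsCyclotomicExtension.Rat.discr_prime 13 K]
    norm_num
  rw [h1, h2, h3]
  have hsq : √|(((13 : ℤ) ^ 11 : ℤ) : ℝ)| < 13 ^ 5 * 3.60556 := by
    rw [Real.sqrt_lt' (by norm_num)]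
    push_cast
    rw [abs_of_pos (by positivity)]
    norm_num
  have hpi : (4 / π) ^ 6 < (4 / 3.1415) ^ 6 := by
    gcongr
    exact pi_gt_d4
  have hfac : ((12 : ℕ)! : ℝ) = 479001600 := by
    norm_num [Nat.factorial]
  rw [hfac]
  calc (4 / π) ^ 6 * ((479001600 : ℝ) / ((12 : ℕ) : ℝ) ^ 12 * √|(((13 : ℤ) ^ 11 : ℤ) : ℝ)|)
      ≤ (4 / 3.1415) ^ 6 * ((479001600 : ℝ) / ((12 : ℕ) : ℝ) ^ 12 * (13 ^ 5 * 3.60556)) := by
        gcongr
    _ < 307 := by norm_num

/-- `⌊M K⌋₊ ≤ 306` for `K = ℚ(ζ₁₃)`. -/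
theorem floor_minkowski_bound_thirteen_le (K : Type*) [Field K] [NumberField K]
    [IsCyclotomicExtension {13} ℚ K] :
    ⌊(4 / π) ^ nrComplexPlaces K *
      ((finrank ℚ K)! / (finrank ℚ K) ^ (finrank ℚ K) * √|(discr K : ℝ)|)⌋₊ ≤ 306 := by
  have h := minkowski_bound_thirteen_lt K
  have h0 : (0 : ℝ) ≤ (4 / π) ^ nrComplexPlaces K *
      ((finrank ℚ K)! / (finrank ℚ K) ^ (finrank ℚ K) * √|(discr K : ℝ)|) := by positivity
  have := (Nat.floor_lt h0).mpr (by exact_mod_cast h : _ < ((307 : ℕ) : ℝ))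
  omega

/-- Elements of `ZMod 13` other than `0, 1` have order at least `2`. -/
theorem two_le_orderOf_zmod13 (x : ZMod 13) (h0 : x ≠ 0) (h1 : x ≠ 1) : 2 ≤ orderOf x := by
  have hpos : 0 < orderOf x := by
    have : Fact (Nat.Prime 13) := ⟨by norm_num⟩
    rw [orderOf_pos_iff, isOfFinOrder_iff_pow_eq_one]
    exact ⟨12, by norm_num, ZMod.pow_card_sub_one_eq_one h0⟩
  have hne : orderOf x ≠ 1 := by
    rw [Ne, orderOf_eq_one_iff]
    exact h1
  omega

theorem prime_mod_thirteen_eq_one (p : ℕ) (hp : p.Prime) (hle : p ≤ 306) (h : p % 13 = 1) :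
    p = 53 ∨ p = 79 ∨ p = 131 ∨ p = 157 := by
  obtain ⟨k, rfl⟩ : ∃ k, p = 13 * k + 1 := ⟨p / 13, by omega⟩
  have hk : k ≤ 23 := by omega
  interval_cases k <;> first | omega | (exfalso; revert hp; norm_num)

/-- The sweep: every prime `p ≤ 306` outside `{3, 13, 53, 79, 131, 157}` has
`306 < p ^ (order of p mod 13)`. -/
theorem sweep_thirteen (p : ℕ) (hp : p.Prime) (hle : p ≤ 306)
    (h3 : p ≠ 3) (h13 : p ≠ 13) (h53 : p ≠ 53) (h79 : p ≠ 79) (h131 : p ≠ 131)
    (h157 : p ≠ 157) : 306 < p ^ orderOf (p : ZMod 13) := by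
  by_cases hbig : 18 ≤ p
  · have hne1 : (p : ZMod 13) ≠ 1 := by
      intro h
      have h' : ((p : ℕ) : ZMod 13) = ((1 : ℕ) : ZMod 13) := by simpa using h
      rw [ZMod.natCast_eq_natCast_iff'] at h'
      have := prime_mod_thirteen_eq_one p hp hle (by simpa using h')
      omega
    have hne0 : (p : ZMod 13) ≠ 0 := by
      intro h
      rw [ZMod.natCast_eq_zero_iff] at h
      have := (Nat.prime_dvd_prime_iff_eq (by norm_num) hp).mp h
      omega
    have h2 := two_le_orderOf_zmod13 _ hne0 hne1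
    calc 306 < 18 ^ 2 := by norm_num
      _ ≤ p ^ 2 := Nat.pow_le_pow_left hbig 2
      _ ≤ p ^ orderOf (p : ZMod 13) := Nat.pow_le_pow_right hp.pos h2
  · push Not at hbig
    have hp2 := hp.two_le
    interval_cases p
    all_goals first
      | omega
      | (exfalso; revert hp; norm_num; done)
      | skip
    · -- p = 2, order 12
      have : orderOf ((2 : ℕ) : ZMod 13) = 12 := by
        rw [orderOf_eq_iff (by norm_num)]
        refine ⟨by decide, fun m hm hm0 => ?_⟩
        interval_cases m <;> decide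
      rw [this]; norm_num
    · -- p = 5, order 4
      have : orderOf ((5 : ℕ) : ZMod 13) = 4 := by
        rw [orderOf_eq_iff (by norm_num)]
        refine ⟨by decide, fun m hm hm0 => ?_⟩
        interval_cases m <;> decide
      rw [this]; norm_num
    · -- p = 7, order 12
      have : orderOf ((7 : ℕ) : ZMod 13) = 12 := by
        rw [orderOf_eq_iff (by norm_num)]
        refine ⟨by decide, fun m hm hm0 => ?_⟩
        interval_cases m <;> decide
      rw [this]; norm_num
    · -- p = 11, order 12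
      have : orderOf ((11 : ℕ) : ZMod 13) = 12 := by
        rw [orderOf_eq_iff (by norm_num)]
        refine ⟨by decide, fun m hm hm0 => ?_⟩
        interval_cases m <;> decide
      rw [this]; norm_num
    · -- p = 17, order 6
      have : orderOf ((17 : ℕ) : ZMod 13) = 6 := by
        rw [orderOf_eq_iff (by norm_num)]
        refine ⟨by decide, fun m hm hm0 => ?_⟩
        interval_cases m <;> decide
      rw [this]; norm_num

/-- **Reduction of `thirteen_pid` to five principal primes.**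
To prove that the ring of integers of `ℚ(ζ₁₃)` is a PID it suffices to exhibit, for each
`q ∈ {3, 53, 79, 131, 157}`, one principal prime ideal above `q`. -/
theorem thirteen_pid_of_principal (K : Type*) [Field K] [NumberField K]
    [IsCyclotomicExtension {13} ℚ K]
    (h : ∀ q : ℕ, q = 3 ∨ q = 53 ∨ q = 79 ∨ q = 131 ∨ q = 157 →
      ∃ P ∈ primesOver (span {(q : ℤ)}) (𝓞 K), Submodule.IsPrincipal P) :
    IsPrincipalIdealRing (𝓞 K) := by
  have hgal : IsGalois ℚ K := IsCyclotomicExtension.isGalois {13} ℚ K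
  have hfloor := floor_minkowski_bound_thirteen_le K
  refine RingOfIntegers.isPrincipalIdealRing_of_isPrincipal_of_lt_or_isPrincipal_of_mem_primesOver_of_mem_Icc
    (fun p hpmem hp => ?_)
  have hle : p ≤ 306 := (Finset.mem_Icc.mp hpmem).2.trans hfloor
  by_cases hS : p = 3 ∨ p = 53 ∨ p = 79 ∨ p = 131 ∨ p = 157
  · obtain ⟨P, hP, hprin⟩ := h p hS
    exact ⟨P, hP, Or.inr hprin⟩
  by_cases h13 : p = 13
  · subst h13
    have hp13 : Fact (Nat.Prime 13) := ⟨hp⟩
    have hK : IsCyclotomicExtension {13 ^ (0 + 1)} ℚ K := by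
      simp only [zero_add, pow_one]; exact ‹IsCyclotomicExtension {13} ℚ K›
    have hζ : IsPrimitiveRoot (IsCyclotomicExtension.zeta 13 ℚ K) (13 ^ (0 + 1)) := by
      simpa using IsCyclotomicExtension.zeta_spec 13 ℚ K
    refine ⟨span {hζ.toInteger - 1}, ⟨?_, ?_⟩, Or.inr ⟨⟨_, rfl⟩⟩⟩
    · exact IsCyclotomicExtension.Rat.isPrime_span_zeta_sub_one 13 0 hζ
    · exact IsCyclotomicExtension.Rat.liesOver_span_zeta_sub_one 13 0 hζ
  · push Not at hS
    have hpf : Fact (Nat.Prime p) := ⟨hp⟩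
    obtain ⟨⟨P, hP1, hP2⟩⟩ := (span {(p : ℤ)}).nonempty_primesOver (S := 𝓞 K)
    refine ⟨P, ⟨hP1, hP2⟩, Or.inl ?_⟩
    have hnd : ¬ p ∣ 13 := by
      intro hd
      have := (Nat.prime_dvd_prime_iff_eq hp (by norm_num)).mp hd
      exact h13 this
    rw [IsCyclotomicExtension.Rat.inertiaDeg_eq_of_not_dvd (m := 13) p K P hnd]
    exact lt_of_le_of_lt hfloor
      (sweep_thirteen p hp hle hS.1 h13 hS.2.1 hS.2.2.1 hS.2.2.2.1 hS.2.2.2.2)

end Fermat.Agent.S10.R378

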