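/-
Case I of Fermat's Last Theorem for the exponents 5, 7, 11, 13 via Sophie Germain's theorem.
Mathlib-only; used by the S10 / S11 "kill the hypothesis" route.
-/
import Mathlib

set_option autoImplicit false

namespace Fermat.Agent.S10.SG370

open Finset

/-- The cofactor `(y ^ p + z ^ p) / (y + z)` for odd `p`. -/
def sgCofactor (p : ℕ) (y z : ℤ) : ℤ := ∑ i ∈ range p, y ^ i * (-z) ^ (p - 1 - i)

lemma sgCofactor_mul {p : ℕ} (hp : Odd p) (y z : ℤ) :
    sgCofactor p y z * (y + z) = y ^ p + z ^ p := by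
  have h := geom_sum₂_mul y (-z) p
  rw [hp.neg_pow, sub_neg_eq_add, sub_neg_eq_add] at h
  exact h

/-- Modulo a number `r` dividing `y + z`, the cofactor is `p * y ^ (p - 1)`. -/
lemma sgCofactor_cast_of_add_eq_zero {p : ℕ} (r : ℕ) (y z : ℤ)
    (h : ((y + z : ℤ) : ZMod r) = 0) :
    ((sgCofactor p y z : ℤ) : ZMod r) = (p : ZMod r) * (y : ZMod r) ^ (p - 1) := by
  have hz : ((-z : ℤ) : ZMod r) = (y : ZMod r) := by
    have : (y : ZMod r) + (z : ZMod r) = 0 := by exact_mod_cast h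
    push_cast
    linear_combination -this
  unfold sgCofactor
  push_cast at hz ⊢
  rw [Finset.sum_congr rfl (g := fun _ => (y : ZMod r) ^ (p - 1))]
  · simp
  · intro i hi
    rw [hz, ← pow_add]
    congr 1
    have := Finset.mem_range.mp hi
    omega

lemma sg_not_dvd_of_isCoprime {q : ℕ} (hq : q.Prime) {x y : ℤ} (h : IsCoprime x y)
    (hx : (q : ℤ) ∣ x) : ¬ (q : ℤ) ∣ y := by
  intro hy
  have h1 : IsUnit (q : ℤ) := h.isUnit_of_dvd' hx hy
  have := Int.isUnit_iff.mp h1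
  have h2 := hq.two_le
  omega

/-- For a Case I solution, `y + z` and the cofactor are coprime, hence both are `p`-th powers. -/
lemma sg_exists_pow {p : ℕ} (hpp : p.Prime) (hp : Odd p) {x y z : ℤ}
    (hyz : IsCoprime y z) (hpx : ¬ (p : ℤ) ∣ x) (h : x ^ p + y ^ p + z ^ p = 0) :
    (∃ A : ℤ, y + z = A ^ p) ∧ ∃ T : ℤ, sgCofactor p y z = T ^ p := by
  have hmul : (y + z) * sgCofactor p y z = (-x) ^ p := by
    rw [mul_comm, sgCofactor_mul hp, hp.neg_pow]
    linear_combination h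
  have hcop : IsCoprime (y + z) (sgCofactor p y z) := by
    refine isCoprime_of_prime_dvd ?_ ?_
    · rintro ⟨h1, h2⟩
      have : (-x) ^ p = 0 := by rw [← hmul, h1, zero_mul]
      have hx0 : x = 0 := by simpa using pow_eq_zero_iff (hpp.ne_zero) |>.mp this
      exact hpx (hx0 ▸ dvd_zero _)
    · intro r hr h1 h2
      -- reduce to natural prime
      obtain ⟨r', hr'⟩ : ∃ r' : ℕ, r'.Prime ∧ ((r' : ℤ) ∣ y + z) ∧ ((r' : ℤ) ∣ sgCofactor p y z) := by
        refine ⟨r.natAbs, Int.prime_iff_natAbs_prime.mp hr, ?_, ?_⟩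
        · exact Int.natAbs_dvd.mpr h1
        · exact Int.natAbs_dvd.mpr h2
      obtain ⟨hr'p, hr1, hr2⟩ := hr'
      have : Fact r'.Prime := ⟨hr'p⟩
      have e1 : ((y + z : ℤ) : ZMod r') = 0 := (ZMod.intCast_zmod_eq_zero_iff_dvd _ _).mpr hr1
      have e2 : ((sgCofactor p y z : ℤ) : ZMod r') = 0 :=
        (ZMod.intCast_zmod_eq_zero_iff_dvd _ _).mpr hr2
      rw [sgCofactor_cast_of_add_eq_zero r' y z e1] at e2
      rcases mul_eq_zero.mp e2 with e3 | e3
      · -- r' = p, so p ∣ x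
        have : r' ∣ p := (ZMod.natCast_eq_zero_iff _ _).mp e3
        have hrp : r' = p := (Nat.prime_dvd_prime_iff_eq hr'p hpp).mp this
        subst hrp
        have : (r' : ℤ) ∣ (-x) ^ r' := hmul ▸ Dvd.dvd.mul_right hr1 _
        have := (Nat.prime_iff_prime_int.mp hr'p).dvd_of_dvd_pow this
        exact hpx ((dvd_neg).mp this)
      · have e4 : (y : ZMod r') = 0 := pow_eq_zero_iff (by
          have := hpp.two_le; omega) |>.mp e3
        have hy : (r' : ℤ) ∣ y := (ZMod.intCast_zmod_eq_zero_iff_dvd _ _).mp e4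
        have hz : (r' : ℤ) ∣ z := by
          have := dvd_sub hr1 hy
          simpa using this
        exact sg_not_dvd_of_isCoprime hr'p hyz hy hz
  exact Int.eq_pow_of_mul_eq_pow_odd hcop hp hmul


/-- Core of Sophie Germain's theorem: the auxiliary prime `q` cannot divide `x`. -/
lemma sg_core {p q : ℕ} (hpp : p.Prime) (hqp : q.Prime) (hp : Odd p)
    (h1 : ∀ x y z : ZMod q, x ^ p + y ^ p + z ^ p = 0 → x * y * z = 0)
    (h2 : ∀ x : ZMod q, x ^ p ≠ (p : ZMod q))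
    {x y z : ℤ} (hxy : IsCoprime x y) (hxz : IsCoprime x z) (hyz : IsCoprime y z)
    (hpx : ¬ (p : ℤ) ∣ x) (hpy : ¬ (p : ℤ) ∣ y) (hpz : ¬ (p : ℤ) ∣ z)
    (h : x ^ p + y ^ p + z ^ p = 0) (hq : (q : ℤ) ∣ x) : False := by
  have : Fact q.Prime := ⟨hqp⟩
  obtain ⟨⟨A, hA⟩, ⟨T, hT⟩⟩ := sg_exists_pow hpp hp hyz hpx h
  obtain ⟨⟨B, hB⟩, -⟩ := sg_exists_pow hpp hp hxz.symm hpy
    (show y ^ p + z ^ p + x ^ p = 0 by linear_combination h)
  obtain ⟨⟨C, hC⟩, -⟩ := sg_exists_pow hpp hp hxy hpz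
    (show z ^ p + x ^ p + y ^ p = 0 by linear_combination h)
  have hx0 : ((x : ℤ) : ZMod q) = 0 := (ZMod.intCast_zmod_eq_zero_iff_dvd _ _).mpr hq
  have hy0 : ((y : ℤ) : ZMod q) ≠ 0 := fun h0 =>
    sg_not_dvd_of_isCoprime hqp hxy hq ((ZMod.intCast_zmod_eq_zero_iff_dvd _ _).mp h0)
  have hz0 : ((z : ℤ) : ZMod q) ≠ 0 := fun h0 =>
    sg_not_dvd_of_isCoprime hqp hxz hq ((ZMod.intCast_zmod_eq_zero_iff_dvd _ _).mp h0)
  have hA' : (y : ZMod q) + (z : ZMod q) = (A : ZMod q) ^ p := by exact_mod_cast congrArg (Int.cast : ℤ → ZMod q) hA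
  have hB' : (z : ZMod q) + (x : ZMod q) = (B : ZMod q) ^ p := by exact_mod_cast congrArg (Int.cast : ℤ → ZMod q) hB
  have hC' : (x : ZMod q) + (y : ZMod q) = (C : ZMod q) ^ p := by exact_mod_cast congrArg (Int.cast : ℤ → ZMod q) hC
  have hT' : ((sgCofactor p y z : ℤ) : ZMod q) = (T : ZMod q) ^ p := by exact_mod_cast congrArg (Int.cast : ℤ → ZMod q) hT
  rw [hx0, add_zero] at hB'
  rw [hx0, zero_add] at hC'
  have hsum : (B : ZMod q) ^ p + (C : ZMod q) ^ p + (-(A : ZMod q)) ^ p = 0 := by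
    rw [hp.neg_pow, ← hA', ← hB', ← hC']; ring
  have hprod := h1 _ _ _ hsum
  have hB0 : (B : ZMod q) ≠ 0 := by
    intro h0
    rw [h0, zero_pow hpp.ne_zero] at hB'
    exact hz0 hB'
  have hC0 : (C : ZMod q) ≠ 0 := by
    intro h0
    rw [h0, zero_pow hpp.ne_zero] at hC'
    exact hy0 hC'
  have hA0 : (A : ZMod q) = 0 := by
    rcases mul_eq_zero.mp hprod with h3 | h3
    · rcases mul_eq_zero.mp h3 with h4 | h4
      · exact absurd h4 hB0
      · exact absurd h4 hC0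
    · simpa using h3
  have hyz0 : ((y + z : ℤ) : ZMod q) = 0 := by
    push_cast
    rw [hA', hA0, zero_pow hpp.ne_zero]
  have hcof := sgCofactor_cast_of_add_eq_zero (p := p) q y z hyz0
  rw [hT', hC', ← pow_mul, mul_comm p (p - 1), pow_mul] at hcof
  -- T ^ p = p * (C ^ (p - 1)) ^ p
  have hCp : ((C : ZMod q) ^ (p - 1)) ≠ 0 := pow_ne_zero _ hC0
  apply h2 ((T : ZMod q) * ((C : ZMod q) ^ (p - 1))⁻¹)
  rw [mul_pow, hcof, inv_pow, mul_assoc, mul_inv_cancel₀ (pow_ne_zero _ hCp), mul_one]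

/-- Sophie Germain's theorem for pairwise coprime triples. -/
lemma sg_coprime {p q : ℕ} (hpp : p.Prime) (hqp : q.Prime) (hp : Odd p)
    (h1 : ∀ x y z : ZMod q, x ^ p + y ^ p + z ^ p = 0 → x * y * z = 0)
    (h2 : ∀ x : ZMod q, x ^ p ≠ (p : ZMod q))
    {x y z : ℤ} (hxy : IsCoprime x y) (hxz : IsCoprime x z) (hyz : IsCoprime y z)
    (hpx : ¬ (p : ℤ) ∣ x) (hpy : ¬ (p : ℤ) ∣ y) (hpz : ¬ (p : ℤ) ∣ z)
    (h : x ^ p + y ^ p + z ^ p = 0) : False := by
  have : Fact q.Prime := ⟨hqp⟩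
  have h0 : ((x : ℤ) : ZMod q) ^ p + ((y : ℤ) : ZMod q) ^ p + ((z : ℤ) : ZMod q) ^ p = 0 := by
    exact_mod_cast congrArg (Int.cast : ℤ → ZMod q) h
  rcases mul_eq_zero.mp (h1 _ _ _ h0) with h3 | h3
  · rcases mul_eq_zero.mp h3 with h4 | h4
    · exact sg_core hpp hqp hp h1 h2 hxy hxz hyz hpx hpy hpz h
        ((ZMod.intCast_zmod_eq_zero_iff_dvd _ _).mp h4)
    · exact sg_core hpp hqp hp h1 h2 hxy.symm hyz hxz hpy hpx hpz
        (by linear_combination h) ((ZMod.intCast_zmod_eq_zero_iff_dvd _ _).mp h4)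
  · exact sg_core hpp hqp hp h1 h2 hxz.symm hyz.symm hxy hpz hpx hpy
        (by linear_combination h) ((ZMod.intCast_zmod_eq_zero_iff_dvd _ _).mp h3)

/-- **Sophie Germain's theorem** (Case I of Fermat's Last Theorem for the exponent `p`, given an
auxiliary prime `q`). No coprimality hypothesis is needed. -/
theorem sophieGermain {p q : ℕ} (hpp : p.Prime) (hqp : q.Prime) (hp : Odd p)
    (h1 : ∀ x y z : ZMod q, x ^ p + y ^ p + z ^ p = 0 → x * y * z = 0)
    (h2 : ∀ x : ZMod q, x ^ p ≠ (p : ZMod q))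
    {a b c : ℤ} (h : ¬ (p : ℤ) ∣ a * b * c) : a ^ p + b ^ p ≠ c ^ p := by
  intro hE
  have ha0 : a ≠ 0 := by rintro rfl; simp at h
  -- divide by g = gcd a b
  set g : ℤ := (Int.gcd a b : ℤ) with hg
  have hg0 : g ≠ 0 := by
    rw [hg]
    exact_mod_cast (Int.gcd_pos_of_ne_zero_left b ha0).ne'
  obtain ⟨a', ha'⟩ : g ∣ a := Int.gcd_dvd_left a b
  obtain ⟨b', hb'⟩ : g ∣ b := Int.gcd_dvd_right a b
  have hgc : g ∣ c := by
    have : g ^ p ∣ c ^ p := by
      rw [← hE]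
      exact dvd_add (pow_dvd_pow_of_dvd ⟨a', ha'⟩ p) (pow_dvd_pow_of_dvd ⟨b', hb'⟩ p)
    exact (Int.pow_dvd_pow_iff hpp.ne_zero).mp this
  obtain ⟨c', hc'⟩ := hgc
  have hab' : IsCoprime a' b' := by
    rw [Int.isCoprime_iff_gcd_eq_one]
    have h3 : Int.gcd a b = Int.gcd a b * Int.gcd a' b' := by
      conv_lhs => rw [ha', hb', Int.gcd_mul_left]
      simp [hg]
    have h4 : 0 < Int.gcd a b := Int.gcd_pos_of_ne_zero_left b ha0
    exact (Nat.eq_of_mul_eq_mul_left h4 (by omega : Int.gcd a b * Int.gcd a' b' = Int.gcd a b * 1))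
  have hE' : a' ^ p + b' ^ p = c' ^ p := by
    have : g ^ p * (a' ^ p + b' ^ p) = g ^ p * c' ^ p := by
      rw [mul_add, ← mul_pow, ← mul_pow, ← mul_pow, ← ha', ← hb', ← hc', hE]
    exact mul_left_cancel₀ (pow_ne_zero _ hg0) this
  have hdvd : a' * b' * c' ∣ a * b * c := by
    rw [ha', hb', hc']
    exact ⟨g * g * g, by ring⟩
  have hpa : ¬ (p : ℤ) ∣ a' := fun h' => h (dvd_trans (dvd_mul_of_dvd_left (dvd_mul_of_dvd_left h' _) _) hdvd)
  have hpb : ¬ (p : ℤ) ∣ b' := fun h' => h (dvd_trans (dvd_mul_of_dvd_left (dvd_mul_of_dvd_right h' _) _) hdvd)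
  have hpc : ¬ (p : ℤ) ∣ c' := fun h' => h (dvd_trans (dvd_mul_of_dvd_right h' _) hdvd)
  -- pairwise coprimality
  have hac' : IsCoprime a' c' := by
    have : IsCoprime (a' ^ p) (c' ^ p) := by
      rw [← hE']
      have h5 : IsCoprime (a' ^ p) (b' ^ p) := hab'.pow
      simpa [add_comm] using h5.add_mul_left_right 1
    exact (IsCoprime.pow_iff hpp.pos hpp.pos).mp this
  have hbc' : IsCoprime b' c' := by
    have : IsCoprime (b' ^ p) (c' ^ p) := by
      rw [← hE']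
      have h5 : IsCoprime (b' ^ p) (a' ^ p) := hab'.symm.pow
      simpa using h5.add_mul_left_right 1
    exact (IsCoprime.pow_iff hpp.pos hpp.pos).mp this
  refine sg_coprime hpp hqp hp h1 h2 (x := a') (y := b') (z := -c') hab' hac'.neg_right
    hbc'.neg_right hpa hpb (by simpa using hpc) ?_
  rw [hp.neg_pow]
  linear_combination hE'


/-! ### Instances: `(p, q) = (5, 11), (7, 29), (11, 23), (13, 53)` -/

/-- Two-stage check of the first Sophie Germain condition. -/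
lemma sg_h1_of_finset {p q : ℕ} (hp : p ≠ 0) (hq : q.Prime) (S : Finset (ZMod q))
    (hA : ∀ x : ZMod q, x ^ p ∈ S)
    (hB : ∀ u ∈ S, ∀ v ∈ S, ∀ w ∈ S, u + v + w = 0 → u = 0 ∨ v = 0 ∨ w = 0) :
    ∀ x y z : ZMod q, x ^ p + y ^ p + z ^ p = 0 → x * y * z = 0 := by
  have : Fact q.Prime := ⟨hq⟩
  intro x y z h
  rcases hB _ (hA x) _ (hA y) _ (hA z) h with h0 | h0 | h0
  · rw [(pow_eq_zero_iff hp).mp h0]; ring
  · rw [(pow_eq_zero_iff hp).mp h0]; ring
  · rw [(pow_eq_zero_iff hp).mp h0]; ring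

set_option maxRecDepth 100000 in
/-- Case I of Fermat's Last Theorem for exponent `5` (Sophie Germain, `q = 11`). -/
theorem caseI_five {a b c : ℤ} (h : ¬ (5 : ℤ) ∣ a * b * c) : a ^ 5 + b ^ 5 ≠ c ^ 5 := by
  have h' : ¬ ((5 : ℕ) : ℤ) ∣ a * b * c := by exact_mod_cast h
  refine sophieGermain (p := 5) (q := 11) (by norm_num) (by norm_num) (by decide) ?_ ?_ h'
  · exact sg_h1_of_finset (by norm_num) (by norm_num) {0, 1, -1} (by decide) (by decide)
  · decide

set_option maxRecDepth 100000 in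
/-- Case I of Fermat's Last Theorem for exponent `7` (Sophie Germain, `q = 29`). -/
theorem caseI_seven {a b c : ℤ} (h : ¬ (7 : ℤ) ∣ a * b * c) : a ^ 7 + b ^ 7 ≠ c ^ 7 := by
  have h' : ¬ ((7 : ℕ) : ℤ) ∣ a * b * c := by exact_mod_cast h
  refine sophieGermain (p := 7) (q := 29) (by norm_num) (by norm_num) (by decide) ?_ ?_ h'
  · exact sg_h1_of_finset (by norm_num) (by norm_num) {0, 1, -1, 12, -12} (by decide) (by decide)
  · decide

set_option maxRecDepth 100000 in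
/-- Case I of Fermat's Last Theorem for exponent `11` (Sophie Germain, `q = 23`). -/
theorem caseI_eleven {a b c : ℤ} (h : ¬ (11 : ℤ) ∣ a * b * c) : a ^ 11 + b ^ 11 ≠ c ^ 11 := by
  have h' : ¬ ((11 : ℕ) : ℤ) ∣ a * b * c := by exact_mod_cast h
  refine sophieGermain (p := 11) (q := 23) (by norm_num) (by norm_num) (by decide) ?_ ?_ h'
  · exact sg_h1_of_finset (by norm_num) (by norm_num) {0, 1, -1} (by decide) (by decide)
  · decide

set_option maxRecDepth 100000 in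
/-- Case I of Fermat's Last Theorem for exponent `13` (Sophie Germain, `q = 53`). -/
theorem caseI_thirteen {a b c : ℤ} (h : ¬ (13 : ℤ) ∣ a * b * c) : a ^ 13 + b ^ 13 ≠ c ^ 13 := by
  have h' : ¬ ((13 : ℕ) : ℤ) ∣ a * b * c := by exact_mod_cast h
  refine sophieGermain (p := 13) (q := 53) (by norm_num) (by norm_num) (by decide) ?_ ?_ h'
  · exact sg_h1_of_finset (by norm_num) (by norm_num) {0, 1, -1, 23, -23} (by decide) (by decide)
  · decide

end Fermat.Agent.S10.SG370
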